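import Mathlib

/-!
# The fixed field of `Gal(ℚ̄/ℚ)` is `ℚ` (P3/T4)
-/

set_option autoImplicit false

namespace Fermat.Agent.X015

theorem isGalois_qbar : IsGalois ℚ (AlgebraicClosure ℚ) := by
  have h : (DivisionRing.toRatAlgebra : Algebra ℚ (AlgebraicClosure ℚ)) =
      AlgebraicClosure.instAlgebra ℚ := Subsingleton.elim _ _
  rw [h]
  letI : Algebra ℚ (AlgebraicClosure ℚ) := AlgebraicClosure.instAlgebra ℚ
  haveI : Normal ℚ (AlgebraicClosure ℚ) := IsAlgClosure.normal ℚ (AlgebraicClosure ℚ)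
  exact ⟨⟩

/-- P3/T4. -/
theorem mem_range_of_forall_algEquiv_fixed (x : AlgebraicClosure ℚ)
    (hx : ∀ σ : AlgebraicClosure ℚ ≃ₐ[ℚ] AlgebraicClosure ℚ, σ x = x) :
    ∃ q : ℚ, algebraMap ℚ (AlgebraicClosure ℚ) q = x := by
  haveI := isGalois_qbar
  exact (InfiniteGalois.mem_range_algebraMap_iff_fixed x).mpr hx

end Fermat.Agent.X015
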