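import Mathlib
import Fermat.Prelude.Def_FLTPrelim_GaloisRep

/-!
# Transport of points along a change of variables (P3/T2; also used by S05)

For `C : VariableChange F` and a Weierstrass curve `W` over a field `F`, the affine change of
coordinates `(X, Y) ↦ (u²X + r, u³Y + u²sX + t)` maps points of `C • W` to points of `W`.
We show that it is an additive equivalence (`vcPointEquiv`), compatible with field automorphisms
(`exists_galois_equivariant_equiv`), and deduce the invariance of irreducibility of the Galois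
representation on torsion (`galoisRepIsIrreducible_variableChange_iff`).
-/

set_option autoImplicit false
set_option linter.unusedSectionVars false

open WeierstrassCurve WeierstrassCurve.Affine
namespace Fermat.Agent.X015
section Basic
variable {F : Type*} [Field F] (C : VariableChange F) (W : WeierstrassCurve F)
def vcX (X : F) : F := (C.u : F) ^ 2 * X + C.r
def vcY (X Y : F) : F := (C.u : F) ^ 3 * Y + (C.u : F) ^ 2 * C.s * X + C.t
def vcXinv (x : F) : F := ((C.u⁻¹ : Fˣ) : F) ^ 2 * (x - C.r)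
def vcYinv (x y : F) : F := ((C.u⁻¹ : Fˣ) : F) ^ 3 * (y - C.s * (x - C.r) - C.t)
lemma vc_u_mul_inv : (C.u : F) * ((C.u⁻¹ : Fˣ) : F) = 1 := by simp
lemma vcX_vcXinv (x : F) : vcX C (vcXinv C x) = x := by
  have h := vc_u_mul_inv C
  simp only [vcX, vcXinv]
  linear_combination (x - C.r) * (C.u * ((C.u⁻¹ : Fˣ) : F) + 1) * h
lemma vcXinv_vcX (X : F) : vcXinv C (vcX C X) = X := by
  have h := vc_u_mul_inv C
  simp only [vcX, vcXinv]
  linear_combination X * (C.u * ((C.u⁻¹ : Fˣ) : F) + 1) * h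
lemma vcY_vcYinv (x y : F) : vcY C (vcXinv C x) (vcYinv C x y) = y := by
  have h := vc_u_mul_inv C
  simp only [vcY, vcXinv, vcYinv]
  linear_combination ((y - C.s * (x - C.r) - C.t) *
    ((C.u * ((C.u⁻¹ : Fˣ) : F)) ^ 2 + C.u * ((C.u⁻¹ : Fˣ) : F) + 1) +
    C.s * (x - C.r) * (C.u * ((C.u⁻¹ : Fˣ) : F) + 1)) * h
lemma vcYinv_vcY (X Y : F) : vcYinv C (vcX C X) (vcY C X Y) = Y := by
  have h := vc_u_mul_inv C
  simp only [vcY, vcX, vcYinv]
  linear_combination Y * ((C.u * ((C.u⁻¹ : Fˣ) : F)) ^ 2 + C.u * ((C.u⁻¹ : Fˣ) : F) + 1) * h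

lemma vc_polynomial_eq (X Y : F) :
    (C • W).toAffine.polynomial.evalEval X Y =
      ((C.u⁻¹ : Fˣ) : F) ^ 6 * W.toAffine.polynomial.evalEval (vcX C X) (vcY C X Y) := by
  have hu : (C.u : F) ≠ 0 := C.u.ne_zero
  simp only [evalEval_polynomial, variableChange_a₁, variableChange_a₂, variableChange_a₃,
    variableChange_a₄, variableChange_a₆, vcX, vcY, Units.val_inv_eq_inv_val]
  field_simp
  ring

lemma vc_polynomialY_eq (X Y : F) :
    (C • W).toAffine.polynomialY.evalEval X Y =
      ((C.u⁻¹ : Fˣ) : F) ^ 3 * W.toAffine.polynomialY.evalEval (vcX C X) (vcY C X Y) := by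
  have hu : (C.u : F) ≠ 0 := C.u.ne_zero
  simp only [evalEval_polynomialY, variableChange_a₁, variableChange_a₃, vcX, vcY,
    Units.val_inv_eq_inv_val]
  field_simp
  ring

lemma vc_polynomialX_eq (X Y : F) :
    (C • W).toAffine.polynomialX.evalEval X Y =
      ((C.u⁻¹ : Fˣ) : F) ^ 4 * (W.toAffine.polynomialX.evalEval (vcX C X) (vcY C X Y) +
        C.s * W.toAffine.polynomialY.evalEval (vcX C X) (vcY C X Y)) := by
  have hu : (C.u : F) ≠ 0 := C.u.ne_zero
  simp only [evalEval_polynomialX, evalEval_polynomialY, variableChange_a₁, variableChange_a₂,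
    variableChange_a₄, vcX, vcY, Units.val_inv_eq_inv_val]
  field_simp
  ring

lemma vc_uinv_ne_zero : ((C.u⁻¹ : Fˣ) : F) ≠ 0 := (C.u⁻¹).ne_zero

lemma vc_equation_iff (X Y : F) :
    (C • W).toAffine.Equation X Y ↔ W.toAffine.Equation (vcX C X) (vcY C X Y) := by
  unfold Affine.Equation
  rw [vc_polynomial_eq]
  simp

lemma vc_nonsingular_iff (X Y : F) :
    (C • W).toAffine.Nonsingular X Y ↔ W.toAffine.Nonsingular (vcX C X) (vcY C X Y) := by
  unfold Affine.Nonsingular
  rw [vc_equation_iff, vc_polynomialX_eq, vc_polynomialY_eq]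
  have h := vc_uinv_ne_zero C
  refine and_congr_right fun _ => ?_
  constructor
  · rintro (h1 | h1)
    · by_contra hcon
      push Not at hcon
      apply h1
      rw [hcon.1, hcon.2]
      ring
    · right
      intro h2
      apply h1
      rw [h2, mul_zero]
  · rintro (h1 | h1)
    · by_cases h2 : W.toAffine.polynomialY.evalEval (vcX C X) (vcY C X Y) = 0
      · left
        rw [h2, mul_zero, add_zero]
        exact mul_ne_zero (pow_ne_zero _ h) h1
      · right
        exact mul_ne_zero (pow_ne_zero _ h) h2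
    · right
      exact mul_ne_zero (pow_ne_zero _ h) h1

lemma vc_negY (X Y : F) :
    W.toAffine.negY (vcX C X) (vcY C X Y) = vcY C X ((C • W).toAffine.negY X Y) := by
  have hu : (C.u : F) ≠ 0 := C.u.ne_zero
  simp only [Affine.negY, variableChange_a₁, variableChange_a₃, vcX, vcY, Units.val_inv_eq_inv_val]
  field_simp
  ring

lemma vcX_injective : Function.Injective (vcX C) := fun a b h => by
  have := congrArg (vcXinv C) h
  rwa [vcXinv_vcX, vcXinv_vcX] at this

lemma vcY_injective (X : F) : Function.Injective (vcY C X) := fun a b h => by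
  have := congrArg (vcYinv C (vcX C X)) h
  rwa [vcYinv_vcY, vcYinv_vcY] at this

variable [DecidableEq F]

lemma vc_slope {X₁ X₂ Y₁ Y₂ : F} (h₁ : (C • W).toAffine.Equation X₁ Y₁)
    (h₂ : (C • W).toAffine.Equation X₂ Y₂)
    (hxy : ¬(X₁ = X₂ ∧ Y₁ = (C • W).toAffine.negY X₂ Y₂)) :
    W.toAffine.slope (vcX C X₁) (vcX C X₂) (vcY C X₁ Y₁) (vcY C X₂ Y₂) =
      (C.u : F) * (C • W).toAffine.slope X₁ X₂ Y₁ Y₂ + C.s := by
  have hu : (C.u : F) ≠ 0 := C.u.ne_zero
  by_cases hx : X₁ = X₂
  · subst hx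
    have hy : Y₁ ≠ (C • W).toAffine.negY X₁ Y₂ := fun h => hxy ⟨rfl, h⟩
    have hy' : vcY C X₁ Y₁ ≠ W.toAffine.negY (vcX C X₁) (vcY C X₁ Y₂) := by
      rw [vc_negY]
      exact fun h => hy (vcY_injective C X₁ h)
    rw [slope_of_Y_ne rfl hy, slope_of_Y_ne rfl hy']
    have hd : Y₁ - (C • W).toAffine.negY X₁ Y₁ ≠ 0 := by
      have hy2 := Y_eq_of_Y_ne h₁ h₂ rfl hy
      subst hy2
      exact sub_ne_zero.mpr hy
    have e1 : vcY C X₁ Y₁ - W.toAffine.negY (vcX C X₁) (vcY C X₁ Y₁) =
        (C.u : F) ^ 3 * (Y₁ - (C • W).toAffine.negY X₁ Y₁) := by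
      rw [vc_negY]
      simp only [vcY]
      ring
    rw [e1]
    simp only [variableChange_a₁, variableChange_a₂, variableChange_a₄, vcX, vcY,
      Units.val_inv_eq_inv_val]
    field_simp
    simp only [Affine.negY, variableChange_a₁, variableChange_a₃, Units.val_inv_eq_inv_val]
    field_simp
    ring
  · have hx' : vcX C X₁ ≠ vcX C X₂ := fun h => hx (vcX_injective C h)
    rw [slope_of_X_ne hx, slope_of_X_ne hx']
    have h0 : X₁ - X₂ ≠ 0 := sub_ne_zero.mpr hx
    have e1 : vcX C X₁ - vcX C X₂ = (C.u : F) ^ 2 * (X₁ - X₂) := by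
      simp only [vcX]; ring
    have e2 : vcY C X₁ Y₁ - vcY C X₂ Y₂ =
        (C.u : F) ^ 3 * (Y₁ - Y₂) + (C.u : F) ^ 2 * C.s * (X₁ - X₂) := by
      simp only [vcY]; ring
    rw [e1, e2]
    field_simp

lemma vc_addX (X₁ X₂ L : F) :
    W.toAffine.addX (vcX C X₁) (vcX C X₂) ((C.u : F) * L + C.s) =
      vcX C ((C • W).toAffine.addX X₁ X₂ L) := by
  have hu : (C.u : F) ≠ 0 := C.u.ne_zero
  simp only [Affine.addX, variableChange_a₁, variableChange_a₂, vcX, Units.val_inv_eq_inv_val]
  field_simp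
  ring

lemma vc_negAddY (X₁ X₂ Y₁ L : F) :
    W.toAffine.negAddY (vcX C X₁) (vcX C X₂) (vcY C X₁ Y₁) ((C.u : F) * L + C.s) =
      vcY C ((C • W).toAffine.addX X₁ X₂ L) ((C • W).toAffine.negAddY X₁ X₂ Y₁ L) := by
  have hu : (C.u : F) ≠ 0 := C.u.ne_zero
  rw [Affine.negAddY, vc_addX]
  simp only [Affine.negAddY, vcX, vcY]
  ring

lemma vc_addY (X₁ X₂ Y₁ L : F) :
    W.toAffine.addY (vcX C X₁) (vcX C X₂) (vcY C X₁ Y₁) ((C.u : F) * L + C.s) =
      vcY C ((C • W).toAffine.addX X₁ X₂ L) ((C • W).toAffine.addY X₁ X₂ Y₁ L) := by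
  rw [Affine.addY, vc_negAddY, vc_addX, vc_negY, Affine.addY]

/-- The map on points `(C • W) → W`, `(X, Y) ↦ (u²X + r, u³Y + u²sX + t)`. -/
def vcPointMap : (C • W).toAffine.Point → W.toAffine.Point
  | .zero => 0
  | .some X Y h => .some (vcX C X) (vcY C X Y) ((vc_nonsingular_iff C W X Y).mp h)

/-- The inverse map on points `W → (C • W)`. -/
def vcPointInv : W.toAffine.Point → (C • W).toAffine.Point
  | .zero => 0
  | .some x y h => .some (vcXinv C x) (vcYinv C x y)
      ((vc_nonsingular_iff C W _ _).mpr (by rwa [vcX_vcXinv, vcY_vcYinv]))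

lemma vcPointMap_zero : vcPointMap C W 0 = 0 := rfl

lemma vcPointMap_some {X Y : F} (h : (C • W).toAffine.Nonsingular X Y) :
    vcPointMap C W (.some X Y h) =
      .some (vcX C X) (vcY C X Y) ((vc_nonsingular_iff C W X Y).mp h) := rfl

lemma vcPointInv_vcPointMap (P : (C • W).toAffine.Point) : vcPointInv C W (vcPointMap C W P) = P := by
  rcases P with _ | ⟨X, Y, h⟩
  · rfl
  · simp only [vcPointMap, vcPointInv, vcXinv_vcX, vcYinv_vcY]

lemma vcPointMap_vcPointInv (P : W.toAffine.Point) : vcPointMap C W (vcPointInv C W P) = P := by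
  rcases P with _ | ⟨x, y, h⟩
  · rfl
  · simp only [vcPointMap, vcPointInv, vcX_vcXinv, vcY_vcYinv]

lemma vcPointMap_add (P Q : (C • W).toAffine.Point) :
    vcPointMap C W (P + Q) = vcPointMap C W P + vcPointMap C W Q := by
  rcases P with _ | ⟨X₁, Y₁, h₁⟩
  · change vcPointMap C W (0 + Q) = 0 + vcPointMap C W Q
    rw [zero_add, zero_add]
  rcases Q with _ | ⟨X₂, Y₂, h₂⟩
  · change vcPointMap C W (_ + 0) = _ + 0
    rw [add_zero, add_zero]
  by_cases hxy : X₁ = X₂ ∧ Y₁ = (C • W).toAffine.negY X₂ Y₂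
  · obtain ⟨rfl, rfl⟩ := hxy
    rw [Point.add_of_Y_eq rfl rfl, vcPointMap_some, vcPointMap_some,
      Point.add_of_Y_eq rfl (by rw [vc_negY]), vcPointMap_zero]
  · have hxy' : ¬(vcX C X₁ = vcX C X₂ ∧
        vcY C X₁ Y₁ = W.toAffine.negY (vcX C X₂) (vcY C X₂ Y₂)) := by
      rintro ⟨hx, hy⟩
      have hx' := vcX_injective C hx
      subst hx'
      rw [vc_negY] at hy
      exact hxy ⟨rfl, vcY_injective C _ hy⟩
    rw [Point.add_some hxy, vcPointMap_some, vcPointMap_some, vcPointMap_some, Point.add_some hxy']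
    have hs := vc_slope C W h₁.1 h₂.1 hxy
    congr 1
    · rw [hs, vc_addX]
    · rw [hs, vc_addY]

end Basic
/-- T2a. The additive equivalence on points induced by a change of variables. -/
noncomputable def vcPointEquiv {F : Type*} [Field F] [DecidableEq F] (C : VariableChange F)
    (W : WeierstrassCurve F) : W.toAffine.Point ≃+ (C • W).toAffine.Point where
  toFun := vcPointInv C W
  invFun := vcPointMap C W
  left_inv := vcPointMap_vcPointInv C W
  right_inv := vcPointInv_vcPointMap C W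
  map_add' P Q := by
    have h : vcPointMap C W (vcPointInv C W (P + Q)) =
        vcPointMap C W (vcPointInv C W P + vcPointInv C W Q) := by
      rw [vcPointMap_add, vcPointMap_vcPointInv, vcPointMap_vcPointInv, vcPointMap_vcPointInv]
    have := congrArg (vcPointInv C W) h
    rwa [vcPointInv_vcPointMap, vcPointInv_vcPointMap] at this

lemma vcPointEquiv_some {F : Type*} [Field F] [DecidableEq F] (C : VariableChange F)
    (W : WeierstrassCurve F) {x y : F} (h : W.toAffine.Nonsingular x y) :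
    ∃ h', vcPointEquiv C W (.some x y h) = .some (vcXinv C x) (vcYinv C x y) h' := ⟨_, rfl⟩

lemma vcPointEquiv_symm_some {F : Type*} [Field F] [DecidableEq F] (C : VariableChange F)
    (W : WeierstrassCurve F) {X Y : F} (h : (C • W).toAffine.Nonsingular X Y) :
    ∃ h', (vcPointEquiv C W).symm (.some X Y h) = .some (vcX C X) (vcY C X Y) h' := ⟨_, rfl⟩

/-- Transport of points along an equality of curves. -/
noncomputable def pointCongr {F : Type*} [Field F] [DecidableEq F] {W₁ W₂ : WeierstrassCurve F}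
    (h : W₁ = W₂) : W₁.toAffine.Point ≃+ W₂.toAffine.Point := by
  subst h
  exact AddEquiv.refl _

lemma pointCongr_zero {F : Type*} [Field F] [DecidableEq F] {W₁ W₂ : WeierstrassCurve F}
    (h : W₁ = W₂) : pointCongr h 0 = 0 := map_zero _

lemma pointCongr_some {F : Type*} [Field F] [DecidableEq F] {W₁ W₂ : WeierstrassCurve F}
    (h : W₁ = W₂) {x y : F} (hxy : W₁.toAffine.Nonsingular x y) :
    pointCongr h (.some x y hxy) = .some x y (h ▸ hxy) := by
  subst h
  rfl

section Galois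

open WeierstrassCurve.Affine.Point

variable {K : Type*} [Field K] [DecidableEq K] [Algebra ℚ K]

lemma vcXinv_map_algEquiv (C : VariableChange ℚ) (σ : K ≃ₐ[ℚ] K) (x : K) :
    σ (vcXinv (C.map (algebraMap ℚ K)) x) = vcXinv (C.map (algebraMap ℚ K)) (σ x) := by
  simp only [vcXinv, VariableChange.map, map_mul, map_pow, map_sub, AlgEquiv.commutes,
    Units.coe_map_inv, MonoidHom.coe_coe]

lemma vcYinv_map_algEquiv (C : VariableChange ℚ) (σ : K ≃ₐ[ℚ] K) (x y : K) :
    σ (vcYinv (C.map (algebraMap ℚ K)) x y) = vcYinv (C.map (algebraMap ℚ K)) (σ x) (σ y) := by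
  simp only [vcYinv, VariableChange.map, map_mul, map_pow, map_sub, AlgEquiv.commutes,
    Units.coe_map_inv, MonoidHom.coe_coe]

lemma baseChange_variableChange_eq (E : WeierstrassCurve ℚ) (C : VariableChange ℚ) :
    (C.map (algebraMap ℚ K)) • (E.map (algebraMap ℚ K)) = ((C • E).toAffine⁄K : WeierstrassCurve K) :=
  map_variableChange E C (algebraMap ℚ K)

/-- The equivalence of T2b. -/
noncomputable def vcPointEquivBaseChange (E : WeierstrassCurve ℚ) (C : VariableChange ℚ) :
    (E.toAffine⁄K).Point ≃+ ((C • E).toAffine⁄K).Point :=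
  (vcPointEquiv (C.map (algebraMap ℚ K)) (E.map (algebraMap ℚ K))).trans
    (pointCongr (baseChange_variableChange_eq E C))

lemma vcPointEquivBaseChange_some (E : WeierstrassCurve ℚ) (C : VariableChange ℚ) {x y : K}
    (h : (E.toAffine⁄K).Nonsingular x y) :
    ∃ h', vcPointEquivBaseChange (K := K) E C (.some x y h) =
      .some (vcXinv (C.map (algebraMap ℚ K)) x) (vcYinv (C.map (algebraMap ℚ K)) x y) h' := by
  obtain ⟨h1, e1⟩ := vcPointEquiv_some (C.map (algebraMap ℚ K)) (E.map (algebraMap ℚ K)) h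
  refine ⟨baseChange_variableChange_eq (K := K) E C ▸ h1, ?_⟩
  have e2 := pointCongr_some (baseChange_variableChange_eq (K := K) E C) h1
  have e3 : vcPointEquivBaseChange (K := K) E C (.some x y h) =
      pointCongr (baseChange_variableChange_eq (K := K) E C)
        (vcPointEquiv (C.map (algebraMap ℚ K)) (E.map (algebraMap ℚ K)) (.some x y h)) := rfl
  rw [e3, e1, e2]

/-- T2b. -/
theorem exists_galois_equivariant_equiv
    (E : WeierstrassCurve ℚ) (C : VariableChange ℚ) :
    ∃ φ : (E.toAffine⁄K).Point ≃+ ((C • E).toAffine⁄K).Point,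
      ∀ (σ : K ≃ₐ[ℚ] K) (P : (E.toAffine⁄K).Point), φ (σ • P) = σ • φ P := by
  refine ⟨vcPointEquivBaseChange E C, ?_⟩
  intro σ P
  rcases P with _ | ⟨x, y, h⟩
  · have : (Point.zero : (E.toAffine⁄K).Point) = 0 := rfl
    have e0 : σ • (0 : (E.toAffine⁄K).Point) = 0 := rfl
    have e0' : σ • (0 : ((C • E).toAffine⁄K).Point) = 0 := rfl
    rw [this, e0, _root_.map_zero, e0']
  · obtain ⟨h1, e1⟩ := vcPointEquivBaseChange_some E C h
    have h2 : (E.toAffine⁄K).Nonsingular (σ x) (σ y) :=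
      (E.toAffine.baseChange_nonsingular σ.toAlgHom.injective ..).mpr h
    have e2 : σ • (Point.some x y h : (E.toAffine⁄K).Point) = Point.some (σ x) (σ y) h2 := rfl
    obtain ⟨h3, e3⟩ := vcPointEquivBaseChange_some E C h2
    rw [e2, e3, e1]
    have h4 : ((C • E).toAffine⁄K).Nonsingular (σ (vcXinv (C.map (algebraMap ℚ K)) x))
        (σ (vcYinv (C.map (algebraMap ℚ K)) x y)) :=
      ((C • E).toAffine.baseChange_nonsingular σ.toAlgHom.injective ..).mpr h1
    have e4 : σ • (Point.some _ _ h1 : ((C • E).toAffine⁄K).Point) = Point.some _ _ h4 := rfl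
    rw [e4]
    simp only [Point.some.injEq]
    exact ⟨(vcXinv_map_algEquiv C σ x).symm, (vcYinv_map_algEquiv C σ x y).symm⟩

/-- Irreducibility transfers along a Galois-equivariant additive equivalence. -/
theorem galoisRepIsIrreducible_of_equiv (E₁ E₂ : WeierstrassCurve ℚ)
    (φ : (E₁.toAffine⁄K).Point ≃+ (E₂.toAffine⁄K).Point)
    (hφ : ∀ (σ : K ≃ₐ[ℚ] K) (P : (E₁.toAffine⁄K).Point), φ (σ • P) = σ • φ P) (n : ℕ)
    (h : GaloisRepIsIrreducible (K := K) ℚ E₁.toAffine n) :
    GaloisRepIsIrreducible (K := K) ℚ E₂.toAffine n := by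
  obtain ⟨hnt, hirr⟩ := h
  -- the induced map on torsion
  have hmem : ∀ x : Submodule.torsionBy ℤ (E₁.toAffine⁄K).Point n,
      φ (x : (E₁.toAffine⁄K).Point) ∈ Submodule.torsionBy ℤ (E₂.toAffine⁄K).Point n := by
    intro x
    have hx := x.2
    rw [Submodule.mem_torsionBy_iff] at hx ⊢
    rw [← map_zsmul, hx, _root_.map_zero]
  have hmem' : ∀ y : Submodule.torsionBy ℤ (E₂.toAffine⁄K).Point n,
      φ.symm (y : (E₂.toAffine⁄K).Point) ∈ Submodule.torsionBy ℤ (E₁.toAffine⁄K).Point n := by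
    intro y
    have hy := y.2
    rw [Submodule.mem_torsionBy_iff] at hy ⊢
    rw [← map_zsmul, hy, _root_.map_zero]
  let ψ : Submodule.torsionBy ℤ (E₁.toAffine⁄K).Point n →+
      Submodule.torsionBy ℤ (E₂.toAffine⁄K).Point n :=
    { toFun := fun x => ⟨φ x, hmem x⟩
      map_zero' := Subtype.ext (by simp)
      map_add' := fun x y => Subtype.ext (by simp) }
  have hψ_apply : ∀ x, ((ψ x : Submodule.torsionBy ℤ (E₂.toAffine⁄K).Point n) :
      (E₂.toAffine⁄K).Point) = φ x := fun _ => rfl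
  have hψ_inj : Function.Injective ψ := by
    intro x y hxy
    apply Subtype.ext
    apply φ.injective
    rw [← hψ_apply, ← hψ_apply, hxy]
  have hψ_surj : Function.Surjective ψ := by
    intro y
    refine ⟨⟨φ.symm y, hmem' y⟩, Subtype.ext ?_⟩
    rw [hψ_apply]
    simp
  have hψ_smul : ∀ (σ : K ≃ₐ[ℚ] K) x, ψ (σ • x) = σ • ψ x := by
    intro σ x
    apply Subtype.ext
    rw [hψ_apply]
    exact hφ σ x
  refine ⟨hψ_inj.nontrivial, ?_⟩
  intro N hN
  let ψL := ψ.toZModLinearMap n
  have hψL : ∀ x, ψL x = ψ x := fun _ => rfl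
  have hN₁ : IsGaloisStable ℚ (N.comap ψL) := by
    intro σ x hx
    rw [Submodule.mem_comap] at hx ⊢
    rw [hψL, hψ_smul]
    exact hN σ _ hx
  rcases hirr _ hN₁ with h0 | h1
  · left
    rw [eq_bot_iff]
    intro y hy
    obtain ⟨x, rfl⟩ := hψ_surj y
    have : x ∈ N.comap ψL := hy
    rw [h0, Submodule.mem_bot] at this
    rw [this, _root_.map_zero]
    exact Submodule.zero_mem _
  · right
    rw [eq_top_iff]
    intro y _
    obtain ⟨x, rfl⟩ := hψ_surj y
    have : x ∈ N.comap ψL := by rw [h1]; exact Submodule.mem_top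
    exact this

/-- T2c. Irreducibility is invariant under a rational change of variables. -/
theorem galoisRepIsIrreducible_variableChange_iff
    (E : WeierstrassCurve ℚ) (C : VariableChange ℚ) (n : ℕ) :
    Affine.Point.GaloisRepIsIrreducible (K := K) ℚ (C • E).toAffine n ↔
      Affine.Point.GaloisRepIsIrreducible (K := K) ℚ E.toAffine n := by
  obtain ⟨φ, hφ⟩ := exists_galois_equivariant_equiv (K := K) E C
  constructor
  · refine galoisRepIsIrreducible_of_equiv (C • E) E φ.symm ?_ n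
    intro σ P
    apply φ.injective
    rw [hφ, φ.apply_symm_apply, φ.apply_symm_apply]
  · exact galoisRepIsIrreducible_of_equiv E (C • E) φ hφ n

end Galois

end Fermat.Agent.X015
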