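/-
P3 / S51 (helper9): parameter identities for rational 3- and 5-isogenies, in short Weierstrass
variables `X = x + b₂/12`, `A = -c₄/48`, `B = -c₆/864`.

* `threeIsog_param_identity`: if `ψ₃(X) = 0` (and `f(X) ≠ 0`) then
  `h := 6 X (3X²+A)/f(X) - 27` satisfies `1728·4A³·h = (h+27)(h+3)³·(4A³+27B²)`, i.e. `j·h = (h+27)(h+3)³`.
* `fiveIsog_param_identity`: if `X₂ = dup(X₁)`, `X₁ = dup(X₂)`, `X₁ ≠ X₂` (x-coordinates of `P`, `2P` for a point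
  of order 5) then `t := (4A - 7s² + 40p)/(s² - 4p)` (`s = X₁+X₂`, `p = X₁X₂`) satisfies
  `1728·4A³·t = (t²+10t+5)³·(4A³+27B²)`, i.e. `j·t = (t²+10t+5)³`.
Certificates were found by linear algebra (python) and are checked by `linear_combination`.
-/
import Mathlib

set_option autoImplicit false

namespace Fermat.Agent.X015

section
variable {K : Type*} [Field K]

/-- Polynomial form of the 3-isogeny parameter identity. -/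
theorem threeIsog_param_poly (A B X : K)
    (hψ : 3 * X ^ 4 + 6 * A * X ^ 2 + 12 * B * X - A ^ 2 = 0) :
    1728 * (4 * A ^ 3) * (6 * X * (3 * X ^ 2 + A) - 27 * (X ^ 3 + A * X + B)) * (X ^ 3 + A * X + B) ^ 3
      = (6 * X * (3 * X ^ 2 + A)) * (6 * X * (3 * X ^ 2 + A) - 24 * (X ^ 3 + A * X + B)) ^ 3
        * (4 * A ^ 3 + 27 * B ^ 2) := by
  linear_combination
    (-15552*X^8*A^3 + 34992*X^8*B^2 - 31104*X^6*A^4 + 256608*X^6*A*B^2 + 279936*X^5*B^3 + 5184*X^4*A^5 + 548208*X^4*A^2*B^2 + 62208*X^3*A^4*B + 1073088*X^3*A*B^3 + 248832*X^2*A^3*B^2 + 559872*X^2*B^4 + 373248*X*A^2*B^3 + 186624*A*B^4) * hψ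

/-- **3-isogeny parameter.** If `X` is a root of the 3-division polynomial of `y² = x³ + Ax + B` and
`f(X) ≠ 0`, then `h = 6X(3X²+A)/f(X) - 27` satisfies `1728·4A³·h = (h+27)(h+3)³(4A³+27B²)`. -/
theorem threeIsog_param_identity (A B X : K)
    (hψ : 3 * X ^ 4 + 6 * A * X ^ 2 + 12 * B * X - A ^ 2 = 0) (hf : X ^ 3 + A * X + B ≠ 0) :
    1728 * (4 * A ^ 3) * (6 * X * (3 * X ^ 2 + A) / (X ^ 3 + A * X + B) - 27)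
      = (6 * X * (3 * X ^ 2 + A) / (X ^ 3 + A * X + B) - 27 + 27)
        * (6 * X * (3 * X ^ 2 + A) / (X ^ 3 + A * X + B) - 27 + 3) ^ 3 * (4 * A ^ 3 + 27 * B ^ 2) := by
  have h := threeIsog_param_poly A B X hψ
  set F := X ^ 3 + A * X + B with hF
  set g := 6 * X * (3 * X ^ 2 + A) with hg
  have e1 : (g / F - 27) * F = g - 27 * F := by field_simp
  have e2 : (g / F - 27 + 27) * F = g := by field_simp; ring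
  have e3 : (g / F - 27 + 3) * F = g - 24 * F := by field_simp; ring
  apply mul_right_cancel₀ (pow_ne_zero 4 hf)
  calc 1728 * (4 * A ^ 3) * (g / F - 27) * F ^ 4
      = 1728 * (4 * A ^ 3) * ((g / F - 27) * F) * F ^ 3 := by ring
    _ = 1728 * (4 * A ^ 3) * (g - 27 * F) * F ^ 3 := by rw [e1]
    _ = g * (g - 24 * F) ^ 3 * (4 * A ^ 3 + 27 * B ^ 2) := h
    _ = ((g / F - 27 + 27) * F) * ((g / F - 27 + 3) * F) ^ 3 * (4 * A ^ 3 + 27 * B ^ 2) := by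
        rw [e2, e3]
    _ = (g / F - 27 + 27) * (g / F - 27 + 3) ^ 3 * (4 * A ^ 3 + 27 * B ^ 2) * F ^ 4 := by ring

/-- Polynomial form of the 5-isogeny parameter identity (multiplied by `16 (X₁ - X₂)`). -/
theorem fiveIsog_param_poly_aux (A B X₁ X₂ : K)
    (h₁ : X₁ ^ 4 - 2 * A * X₁ ^ 2 - 8 * B * X₁ + A ^ 2 - 4 * (X₁ ^ 3 + A * X₁ + B) * X₂ = 0)
    (h₂ : X₂ ^ 4 - 2 * A * X₂ ^ 2 - 8 * B * X₂ + A ^ 2 - 4 * (X₂ ^ 3 + A * X₂ + B) * X₁ = 0) :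
    16 * (X₁ - X₂) *
      (1728 * (4 * A ^ 3) * (4 * A - 7 * (X₁ + X₂) ^ 2 + 40 * (X₁ * X₂))
          * ((X₁ + X₂) ^ 2 - 4 * (X₁ * X₂)) ^ 5
        - ((4 * A - 7 * (X₁ + X₂) ^ 2 + 40 * (X₁ * X₂)) ^ 2
            + 10 * (4 * A - 7 * (X₁ + X₂) ^ 2 + 40 * (X₁ * X₂)) * ((X₁ + X₂) ^ 2 - 4 * (X₁ * X₂))
            + 5 * ((X₁ + X₂) ^ 2 - 4 * (X₁ * X₂)) ^ 2) ^ 3 * (4 * A ^ 3 + 27 * B ^ 2)) = 0 := by
  linear_combination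
    (
      -221184*X₁^12*X₂^3 - 221184*X₁^12*X₂*A - 221184*X₁^12*B + 1492992*X₁^11*X₂^4 + 1327104*X₁^11*X₂^2*A
      + 995328*X₁^11*X₂*B + 55296*X₁^11*A^2 + 912384*X₁^10*X₂^5 + 1327104*X₁^10*X₂^3*A + 4147200*X₁^10*X₂^2*B
      - 1022976*X₁^10*X₂*A^2 - 663552*X₁^10*A*B - 19533312*X₁^9*X₂^6 - 7686144*X₁^9*X₂^4*A - 18441216*X₁^9*X₂^3*B
      + 10077696*X₁^9*X₂^2*A^2 + 7630848*X₁^9*X₂*A*B - 346112*X₁^9*A^3 + 9766656*X₁^8*X₂^7 - 41886720*X₁^8*X₂^5*A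
      - 29486592*X₁^8*X₂^4*B - 24834816*X₁^8*X₂^3*A^2 - 10450944*X₁^8*X₂^2*A*B + 5170176*X₁^8*X₂*A^3
      + 67941504*X₁^7*X₂^8 + 32113152*X₁^7*X₂^6*A + 108304128*X₁^7*X₂^5*B - 46030464*X₁^7*X₂^4*A^2
      - 94307328*X₁^7*X₂^3*A*B - 18319872*X₁^7*X₂^2*A^3 + 9953280*X₁^7*X₂*A^2*B + 315392*X₁^7*A^4 - 33970752*X₁^6*X₂^9
      + 276127488*X₁^6*X₂^7*A + 85857408*X₁^6*X₂^6*B + 48009024*X₁^6*X₂^5*A^2 + 186499584*X₁^6*X₂^4*A*B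
      - 1739520*X₁^6*X₂^3*A^3 - 74649600*X₁^6*X₂^2*A^2*B - 309248*X₁^6*X₂*A^4 + 1105920*X₁^6*A^3*B
      - 2091744*X₁^5*X₂^10 - 126893952*X₁^5*X₂^8*A - 182938176*X₁^5*X₂^7*B + 441477216*X₁^5*X₂^6*A^2
      + 296918784*X₁^5*X₂^5*A*B - 70185600*X₁^5*X₂^4*A^3 + 67184640*X₁^5*X₂^3*A^2*B - 13261824*X₁^5*X₂^2*A^4
      - 8294400*X₁^5*X₂*A^3*B + 174080*X₁^5*A^5 + 2704752*X₁^4*X₂^11 + 17717184*X₁^4*X₂^9*A - 2091744*X₁^4*X₂^8*B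
      - 195744816*X₁^4*X₂^7*A^2 - 538627968*X₁^4*X₂^6*A*B + 555600192*X₁^4*X₂^5*A^3 + 424258560*X₁^4*X₂^4*A^2*B
      - 19141120*X₁^4*X₂^3*A^4 - 32348160*X₁^4*X₂^2*A^3*B - 2513920*X₁^4*X₂*A^5 + 30024*X₁^3*X₂^12
      - 15881184*X₁^3*X₂^10*A + 39753072*X₁^3*X₂^9*B + 39424536*X₁^3*X₂^8*A^2 + 129968064*X₁^3*X₂^7*A*B
      - 348855456*X₁^3*X₂^6*A^3 - 669980160*X₁^3*X₂^5*A^2*B + 261802240*X₁^3*X₂^4*A^4 + 276065280*X₁^3*X₂^3*A^3*B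
      - 8573440*X₁^3*X₂^2*A^5 - 9953280*X₁^3*X₂*A^4*B - 94208*X₁^3*A^6 - 236196*X₁^2*X₂^13 + 9931248*X₁^2*X₂^11*A
      - 3508920*X₁^2*X₂^10*B - 39508236*X₁^2*X₂^9*A^2 + 34548768*X₁^2*X₂^8*A*B + 163528272*X₁^2*X₂^7*A^3
      + 305130240*X₁^2*X₂^6*A^2*B - 156673152*X₁^2*X₂^5*A^4 - 397923840*X₁^2*X₂^4*A^3*B + 84191488*X₁^2*X₂^3*A^5
      + 64696320*X₁^2*X₂^2*A^4*B - 1886208*X₁^2*X₂*A^6 - 663552*X₁^2*A^5*B + 118098*X₁*X₂^14 - 3749112*X₁*X₂^12*A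
      - 2890404*X₁*X₂^11*B + 29320326*X₁*X₂^10*A^2 - 10638864*X₁*X₂^9*A*B - 97498920*X₁*X₂^8*A^3 - 82892160*X₁*X₂^7*A^2*B
      + 64920128*X₁*X₂^6*A^4 + 235457280*X₁*X₂^5*A^3*B - 51926144*X₁*X₂^4*A^5 - 92067840*X₁*X₂^3*A^4*B
      + 15836160*X₁*X₂^2*A^6 + 6303744*X₁*X₂*A^5*B - 124928*X₁*A^7 - 19683*X₂^15 + 590490*X₂^13*A + 599832*X₂^12*B
      - 6260139*X₂^11*A^2 - 3081888*X₂^10*A*B + 28319060*X₂^9*A^3 + 41990400*X₂^8*A^2*B - 49874336*X₂^7*A^4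
      - 145912320*X₂^6*A^3*B + 38714944*X₂^5*A^5 + 74649600*X₂^4*A^4*B - 13113856*X₂^3*A^6 - 12607488*X₂^2*A^5*B
      + 1713152*X₂*A^7 + 442368*A^6*B
    ) * h₁ +
    (
      -55296*X₁^15 + 580608*X₁^14*X₂ - 1119744*X₁^13*X₂^2 - 55296*X₁^13*A - 6075648*X₁^12*X₂^3 + 2847744*X₁^12*X₂*A
      + 20456064*X₁^11*X₂^4 - 21441024*X₁^11*X₂^2*A + 165888*X₁^11*A^2 + 12332736*X₁^10*X₂^5 + 30848256*X₁^10*X₂^3*A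
      + 1244160*X₁^10*X₂*A^2 - 73351008*X₁^9*X₂^6 + 126465408*X₁^9*X₂^4*A - 51604992*X₁^9*X₂^2*A^2
      + 802816*X₁^9*A^3 + 15110064*X₁^8*X₂^7 - 298406592*X₁^8*X₂^5*A + 287241984*X₁^8*X₂^3*A^2 - 17848320*X₁^8*X₂*A^3
      + 6545448*X₁^7*X₂^8 - 8335008*X₁^7*X₂^6*A - 425022336*X₁^7*X₂^4*A^2 + 92132352*X₁^7*X₂^2*A^3
      - 1183744*X₁^7*A^4 - 1060884*X₁^6*X₂^9 + 9033552*X₁^6*X₂^7*A - 99579456*X₁^6*X₂^5*A^2 - 43620864*X₁^6*X₂^3*A^3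
      + 5711872*X₁^6*X₂*A^4 - 354294*X₁^5*X₂^10 + 22246488*X₁^5*X₂^8*A + 8317728*X₁^5*X₂^6*A^2 - 378882816*X₁^5*X₂^4*A^3
      + 47342592*X₁^5*X₂^2*A^4 - 237568*X₁^5*A^5 + 177147*X₁^4*X₂^11 - 8026668*X₁^4*X₂^9*A + 35433072*X₁^4*X₂^7*A^2
      + 158500224*X₁^4*X₂^5*A^3 - 219742720*X₁^4*X₂^3*A^4 + 10471424*X₁^4*X₂*A^5 - 78732*X₁^3*X₂^12
      + 1968300*X₁^3*X₂^10*A - 8346024*X₁^3*X₂^8*A^2 - 64067040*X₁^3*X₂^6*A^3 + 74713600*X₁^3*X₂^4*A^4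
      - 41219584*X₁^3*X₂^2*A^5 + 630784*X₁^3*A^6 + 118098*X₁^2*X₂^11*A - 4997484*X₁^2*X₂^9*A^2 + 64653168*X₁^2*X₂^7*A^3
      - 59832576*X₁^2*X₂^5*A^4 - 14408960*X₁^2*X₂^3*A^5 - 2813952*X₁^2*X₂*A^6 - 78732*X₁*X₂^12*A + 2165130*X₁*X₂^10*A^2
      - 27302616*X₁*X₂^8*A^3 + 60279488*X₁*X₂^6*A^4 + 3740800*X₁*X₂^4*A^5 - 7984128*X₁*X₂^2*A^6 - 137216*X₁*A^7
      - 78732*X₂^12*B + 19683*X₂^11*A^2 + 2204496*X₂^10*A*B - 39124*X₂^9*A^3 - 20995200*X₂^8*A^2*B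
      + 4933408*X₂^7*A^4 + 71850240*X₂^6*A^3*B - 18413120*X₂^5*A^5 - 37324800*X₂^4*A^4*B + 9425408*X₂^3*A^6
      + 6967296*X₂^2*A^5*B - 1451008*X₂*A^7 - 442368*A^6*B
    ) * h₂

/-- **5-isogeny parameter.** If `X₁ ≠ X₂` are exchanged by the duplication map `X ↦ N(X)/(4 f(X))` of
`y² = x³ + Ax + B` (x-coordinates of `P`, `2P` for a point of order 5), `s = X₁ + X₂`, `p = X₁ X₂`, then
`t = (4A - 7s² + 40p)/(s² - 4p)` satisfies `1728·4A³·t = (t²+10t+5)³(4A³+27B²)`. -/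
theorem fiveIsog_param_identity [CharZero K] (A B X₁ X₂ s p : K) (hs : s = X₁ + X₂) (hp : p = X₁ * X₂)
    (hne : X₁ ≠ X₂)
    (h₁ : X₁ ^ 4 - 2 * A * X₁ ^ 2 - 8 * B * X₁ + A ^ 2 = 4 * (X₁ ^ 3 + A * X₁ + B) * X₂)
    (h₂ : X₂ ^ 4 - 2 * A * X₂ ^ 2 - 8 * B * X₂ + A ^ 2 = 4 * (X₂ ^ 3 + A * X₂ + B) * X₁) :
    s ^ 2 - 4 * p ≠ 0 ∧
    1728 * (4 * A ^ 3) * ((4 * A - 7 * s ^ 2 + 40 * p) / (s ^ 2 - 4 * p))
      = (((4 * A - 7 * s ^ 2 + 40 * p) / (s ^ 2 - 4 * p)) ^ 2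
          + 10 * ((4 * A - 7 * s ^ 2 + 40 * p) / (s ^ 2 - 4 * p)) + 5) ^ 3
        * (4 * A ^ 3 + 27 * B ^ 2) := by
  have hd : s ^ 2 - 4 * p = (X₁ - X₂) ^ 2 := by rw [hs, hp]; ring
  have hd0 : s ^ 2 - 4 * p ≠ 0 := by
    rw [hd]; exact pow_ne_zero 2 (sub_ne_zero.mpr hne)
  refine ⟨hd0, ?_⟩
  have haux := fiveIsog_param_poly_aux A B X₁ X₂ (by linear_combination h₁) (by linear_combination h₂)
  have h16 : (16 : K) * (X₁ - X₂) ≠ 0 :=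
    mul_ne_zero (by norm_num) (sub_ne_zero.mpr hne)
  have hR := (mul_eq_zero.mp haux).resolve_left h16
  rw [← hs, ← hp] at hR
  set tn := 4 * A - 7 * s ^ 2 + 40 * p with htn
  set td := s ^ 2 - 4 * p with htd
  have e1 : tn / td * td = tn := div_mul_cancel₀ tn hd0
  apply mul_right_cancel₀ (pow_ne_zero 6 hd0)
  calc 1728 * (4 * A ^ 3) * (tn / td) * td ^ 6
      = 1728 * (4 * A ^ 3) * (tn / td * td) * td ^ 5 := by ring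
    _ = 1728 * (4 * A ^ 3) * tn * td ^ 5 := by rw [e1]
    _ = (tn ^ 2 + 10 * tn * td + 5 * td ^ 2) ^ 3 * (4 * A ^ 3 + 27 * B ^ 2) := by
        linear_combination hR
    _ = ((tn / td * td) ^ 2 + 10 * (tn / td * td) * td + 5 * td ^ 2) ^ 3
          * (4 * A ^ 3 + 27 * B ^ 2) := by rw [e1]
    _ = ((tn / td) ^ 2 + 10 * (tn / td) + 5) ^ 3 * (4 * A ^ 3 + 27 * B ^ 2) * td ^ 6 := by ring

end

end Fermat.Agent.X015
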