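/-
P3 / S51, task T3 (helper9): 3- and 5-torsion on short Weierstrass curves `y² = x³ + A x + B`
over a field of characteristic zero, via the division polynomials `ψ₃`, `ψ₅`.
-/
import Mathlib

set_option autoImplicit false

open WeierstrassCurve WeierstrassCurve.Affine

namespace Fermat.Agent.X015

section Short

variable {K : Type*} [Field K] [DecidableEq K] [CharZero K]

/-- the cubic `x³ + A x + B` -/
def cubic (A B x : K) : K := x ^ 3 + A * x + B

/-- third division polynomial -/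
def psi3 (A B x : K) : K := 3 * x ^ 4 + 6 * A * x ^ 2 + 12 * B * x - A ^ 2

/-- `ψ₄ / ψ₂ = 2 (x⁶ + 5Ax⁴ + 20Bx³ − 5A²x² − 4ABx − 8B² − A³)` -/
def psi4' (A B x : K) : K :=
  2 * (x ^ 6 + 5 * A * x ^ 4 + 20 * B * x ^ 3 - 5 * A ^ 2 * x ^ 2 - 4 * A * B * x - 8 * B ^ 2 - A ^ 3)

/-- fifth division polynomial `ψ₅ = ψ₄ ψ₂³ − ψ₃³ = 16 f² ψ₄' − ψ₃³` -/
def psi5 (A B x : K) : K := 16 * cubic A B x ^ 2 * psi4' A B x - psi3 A B x ^ 3

/-- x-coordinate of `2P` -/
def dupX (A B x : K) : K := x - psi3 A B x / (4 * cubic A B x)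

/-! ### Polynomial identities -/

omit [DecidableEq K] [CharZero K] in
/-- `disc(f)` is a combination of `f` and `f'`. -/
theorem disc_eq_combination (A B x : K) :
    (27 * B - 18 * A * x) * cubic A B x + (4 * A ^ 2 - 9 * B * x + 6 * A * x ^ 2) * (3 * x ^ 2 + A)
      = 4 * A ^ 3 + 27 * B ^ 2 := by
  unfold cubic; ring

omit [DecidableEq K] [CharZero K] in
theorem psi3_eq (A B x : K) :
    psi3 A B x = 12 * x * cubic A B x - (3 * x ^ 2 + A) ^ 2 := by
  unfold psi3 cubic; ring

omit [DecidableEq K] [CharZero K] in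
/-- `f(x) = 0 = ψ₃(x)` forces the discriminant to vanish. -/
theorem disc_eq_zero_of_cubic_psi3 {A B x : K} (hf : cubic A B x = 0) (h3 : psi3 A B x = 0) :
    4 * A ^ 3 + 27 * B ^ 2 = 0 := by
  have h' : (3 * x ^ 2 + A) ^ 2 = 0 := by
    have := psi3_eq A B x
    rw [h3, hf] at this
    linear_combination this
  have h'' : 3 * x ^ 2 + A = 0 := by simpa using h'
  rw [← disc_eq_combination A B x, hf, h'']; ring

omit [DecidableEq K] [CharZero K] in
/-- numerator of `dupX (dupX x) - x`. -/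
theorem dup_dup_identity (A B x : K) :
    (x ^ 4 - 2 * A * x ^ 2 - 8 * B * x + A ^ 2) ^ 4
      - 32 * A * (x ^ 4 - 2 * A * x ^ 2 - 8 * B * x + A ^ 2) ^ 2 * cubic A B x ^ 2
      - 512 * B * (x ^ 4 - 2 * A * x ^ 2 - 8 * B * x + A ^ 2) * cubic A B x ^ 3
      + 256 * A ^ 2 * cubic A B x ^ 4
      - x * (4 * cubic A B x * psi4' A B x ^ 2) = - (psi3 A B x * psi5 A B x) := by
  unfold psi5 psi4' psi3 cubic; ring

omit [DecidableEq K] [CharZero K] in
/-- `f(dupX x)` up to denominators: `N³ + 16 A N f² + 64 B f³ = (ψ₄'/2)²`. -/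
theorem cubic_dup_identity (A B x : K) :
    4 * ((x ^ 4 - 2 * A * x ^ 2 - 8 * B * x + A ^ 2) ^ 3
      + 16 * A * (x ^ 4 - 2 * A * x ^ 2 - 8 * B * x + A ^ 2) * cubic A B x ^ 2
      + 64 * B * cubic A B x ^ 3) = psi4' A B x ^ 2 := by
  unfold psi4' cubic; ring

omit [DecidableEq K] in
theorem dupX_eq {A B x : K} (hf : cubic A B x ≠ 0) :
    dupX A B x = (x ^ 4 - 2 * A * x ^ 2 - 8 * B * x + A ^ 2) / (4 * cubic A B x) := by
  unfold dupX psi3
  have h4 : (4 : K) * cubic A B x ≠ 0 := mul_ne_zero (by norm_num) hf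
  rw [eq_div_iff h4, sub_mul, div_mul_cancel₀ _ h4]
  unfold cubic; ring

omit [DecidableEq K] in
theorem cubic_dupX_aux (n F A B G : K) (hF : F ≠ 0)
    (key : 4 * (n ^ 3 + 16 * A * n * F ^ 2 + 64 * B * F ^ 3) = G ^ 2) :
    (n / (4 * F)) ^ 3 + A * (n / (4 * F)) + B = G ^ 2 / (256 * F ^ 3) := by
  field_simp
  linear_combination (64 : K) * key

omit [DecidableEq K] in
theorem dup_dup_aux (n F A B G x P35 : K) (hF : F ≠ 0) (hG : G ≠ 0)
    (key : n ^ 4 - 32 * A * n ^ 2 * F ^ 2 - 512 * B * n * F ^ 3 + 256 * A ^ 2 * F ^ 4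
      - x * (4 * F * G ^ 2) = - P35) :
    ((n / (4 * F)) ^ 4 - 2 * A * (n / (4 * F)) ^ 2 - 8 * B * (n / (4 * F)) + A ^ 2)
        / (4 * (G ^ 2 / (256 * F ^ 3))) - x
      = - P35 / (4 * F * G ^ 2) := by
  field_simp
  linear_combination (256 : K) * key

omit [DecidableEq K] in
theorem cubic_dupX {A B x : K} (hf : cubic A B x ≠ 0) :
    cubic A B (dupX A B x) = psi4' A B x ^ 2 / (256 * cubic A B x ^ 3) := by
  rw [dupX_eq hf]
  exact cubic_dupX_aux _ _ A B _ hf (cubic_dup_identity A B x)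

omit [DecidableEq K] in
theorem dupX_dupX_sub {A B x : K} (hf : cubic A B x ≠ 0) (h4 : psi4' A B x ≠ 0) :
    dupX A B (dupX A B x) - x
      = - (psi3 A B x * psi5 A B x) / (4 * cubic A B x * psi4' A B x ^ 2) := by
  have hf2 : cubic A B (dupX A B x) ≠ 0 := by
    rw [cubic_dupX hf]
    exact div_ne_zero (pow_ne_zero 2 h4)
      (mul_ne_zero (by norm_num) (pow_ne_zero 3 hf))
  rw [dupX_eq hf2, cubic_dupX hf, dupX_eq hf]
  exact dup_dup_aux _ _ A B _ x _ hf h4 (dup_dup_identity A B x)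

/-! ### Points on a short Weierstrass curve -/

section Points

variable (W : WeierstrassCurve K) [W.IsShortNF]

omit [DecidableEq K] [CharZero K] in
theorem equation_short {x y : K} : W.toAffine.Equation x y ↔ y ^ 2 = cubic W.a₄ W.a₆ x := by
  rw [Affine.equation_iff, a₁_of_isShortNF, a₂_of_isShortNF, a₃_of_isShortNF]
  unfold cubic
  constructor <;> intro h <;> linear_combination h

omit [DecidableEq K] [CharZero K] in
theorem negY_short (x y : K) : W.toAffine.negY x y = -y := by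
  simp [Affine.negY]

omit [DecidableEq K] [CharZero K] in
theorem disc_ne_zero_of_Δ (hΔ : W.Δ ≠ 0) : 4 * W.a₄ ^ 3 + 27 * W.a₆ ^ 2 ≠ 0 := by
  rw [Δ_of_isShortNF] at hΔ
  intro h
  apply hΔ
  rw [h]; ring

omit [DecidableEq K] in
theorem ne_negY_of_ne_zero {x y : K} (hy : y ≠ 0) : y ≠ W.toAffine.negY x y := by
  rw [negY_short]
  intro e
  apply hy
  have : (2 : K) * y = 0 := by linear_combination e
  simpa using this

omit [DecidableEq K] [CharZero K] in
theorem cubic_ne_zero_of_equation {x y : K} (h : W.toAffine.Equation x y) (hy : y ≠ 0) :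
    cubic W.a₄ W.a₆ x ≠ 0 := by
  rw [← (equation_short W).mp h]; exact pow_ne_zero 2 hy

/-- T3a. duplication formula (without the unused discriminant hypothesis). -/
theorem two_smul_some' {x y : K} (h : W.toAffine.Nonsingular x y) (hy : y ≠ 0) :
    ∃ (y' : K) (h' : W.toAffine.Nonsingular (dupX W.a₄ W.a₆ x) y'),
      (2 : ℤ) • (Point.some x y h) = Point.some (dupX W.a₄ W.a₆ x) y' h' ∧
      y' * (16 * y ^ 3) = psi4' W.a₄ W.a₆ x := by
  have hne := ne_negY_of_ne_zero W (x := x) hy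
  have heq := (equation_short W).mp h.1
  have hf := cubic_ne_zero_of_equation W h.1 hy
  have hsl : W.toAffine.slope x x y y = (3 * x ^ 2 + W.a₄) / (2 * y) := by
    rw [Affine.slope_of_Y_ne rfl hne, negY_short, a₁_of_isShortNF, a₂_of_isShortNF]
    congr 1 <;> ring
  have hx : W.toAffine.addX x x (W.toAffine.slope x x y y) = dupX W.a₄ W.a₆ x := by
    rw [dupX_eq hf, hsl, Affine.addX, a₁_of_isShortNF, a₂_of_isShortNF, ← heq]
    field_simp
    unfold cubic at heq
    linear_combination (-32 * x) * heq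
  have key : ∀ (x' : K), W.toAffine.addX x x (W.toAffine.slope x x y y) = x' →
      ∃ (y' : K) (h' : W.toAffine.Nonsingular x' y'),
        (2 : ℤ) • (Point.some x y h) = Point.some x' y' h' ∧
        y' * (16 * y ^ 3) = psi4' W.a₄ W.a₆ x := by
    rintro x' rfl
    refine ⟨W.toAffine.addY x x y (W.toAffine.slope x x y y),
      Affine.nonsingular_add h h (fun hxy => hne hxy.right), ?_, ?_⟩
    · rw [two_zsmul]; exact Point.add_self_of_Y_ne hne
    · rw [Affine.addY, Affine.negAddY, negY_short, Affine.addX, hsl, a₁_of_isShortNF,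
        a₂_of_isShortNF]
      unfold psi4'
      unfold cubic at heq
      field_simp
      linear_combination (-128 * y ^ 2 + 448 * x ^ 3 + 64 * W.a₄ * x - 128 * W.a₆) * heq
  exact key _ hx

set_option linter.unusedVariables false in
/-- T3a (stub signature, with the unused hypothesis `hΔ`). The sign is `+`:
`y(2P) · 16 y³ = ψ₄'(x)`. -/
theorem two_smul_some (hΔ : W.Δ ≠ 0) {x y : K} (h : W.toAffine.Nonsingular x y) (hy : y ≠ 0) :
    ∃ (y' : K) (h' : W.toAffine.Nonsingular (dupX W.a₄ W.a₆ x) y'),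
      (2 : ℤ) • (Point.some x y h) = Point.some (dupX W.a₄ W.a₆ x) y' h' ∧
      y' * (16 * y ^ 3) = psi4' W.a₄ W.a₆ x :=
  two_smul_some' W h hy

omit [CharZero K] in
/-- a point with `y = 0` is 2-torsion -/
theorem two_smul_some_of_y_eq_zero {x : K} (h : W.toAffine.Nonsingular x 0) :
    (2 : ℤ) • (Point.some x 0 h) = 0 := by
  rw [two_zsmul]
  exact Point.add_self_of_Y_eq (by rw [negY_short]; simp)

omit [DecidableEq K] [CharZero K] in
theorem y_ne_zero_of_psi3 (hΔ : W.Δ ≠ 0) {x y : K} (h : W.toAffine.Nonsingular x y)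
    (h3 : psi3 W.a₄ W.a₆ x = 0) : y ≠ 0 := by
  rintro rfl
  have hf : cubic W.a₄ W.a₆ x = 0 := by
    have := (equation_short W).mp h.1
    rw [← this]; ring
  exact disc_ne_zero_of_Δ W hΔ (disc_eq_zero_of_cubic_psi3 hf h3)

set_option linter.unusedVariables false in
/-- T3b. -/
theorem psi3_eq_zero_of_three_smul (hΔ : W.Δ ≠ 0) {x y : K} (h : W.toAffine.Nonsingular x y)
    (h3 : (3 : ℤ) • (Point.some x y h) = 0) : psi3 W.a₄ W.a₆ x = 0 := by
  have h3' : (2 : ℤ) • (Point.some x y h) + Point.some x y h = 0 := by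
    rw [← h3, show (3 : ℤ) = 2 + 1 by norm_num, add_zsmul, one_zsmul]
  by_cases hy : y = 0
  · subst hy
    rw [two_smul_some_of_y_eq_zero W h, zero_add] at h3'
    exact absurd h3' (Point.some_ne_zero h)
  · obtain ⟨y', h', h2, -⟩ := two_smul_some' W h hy
    have hf := cubic_ne_zero_of_equation W h.1 hy
    rw [h2] at h3'
    have := eq_neg_of_add_eq_zero_left h3'
    rw [Point.neg_some, Point.some.injEq] at this
    have hx : dupX W.a₄ W.a₆ x = x := this.1
    unfold dupX at hx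
    have h4 : (4 : K) * cubic W.a₄ W.a₆ x ≠ 0 := mul_ne_zero (by norm_num) hf
    have : psi3 W.a₄ W.a₆ x / (4 * cubic W.a₄ W.a₆ x) = 0 := by linear_combination -hx
    rcases div_eq_zero_iff.mp this with h0 | h0
    · exact h0
    · exact absurd h0 h4

/-- T3c. -/
theorem three_smul_of_psi3_eq_zero (hΔ : W.Δ ≠ 0) {x y : K} (h : W.toAffine.Nonsingular x y)
    (h3 : psi3 W.a₄ W.a₆ x = 0) : (3 : ℤ) • (Point.some x y h) = 0 := by
  have hy := y_ne_zero_of_psi3 W hΔ h h3
  obtain ⟨y', h', h2, -⟩ := two_smul_some' W h hy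
  have hx : dupX W.a₄ W.a₆ x = x := by unfold dupX; rw [h3]; simp
  rw [show (3 : ℤ) = 2 + 1 by norm_num, add_zsmul, one_zsmul, h2]
  rcases (Point.X_eq_iff (h₁ := h') (h₂ := h)).mp hx with e | e
  · -- 2P = P, impossible
    exfalso
    rw [← h2, two_zsmul] at e
    exact Point.some_ne_zero h (by simp at e)
  · rw [e]; exact neg_add_cancel _

omit [DecidableEq K] [CharZero K] in
theorem psi5_of_cubic_eq_zero {A B x : K} (hf : cubic A B x = 0) :
    psi5 A B x = - psi3 A B x ^ 3 := by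
  unfold psi5; rw [hf]; ring

omit [DecidableEq K] [CharZero K] in
theorem psi5_of_psi4'_eq_zero {A B x : K} (h4 : psi4' A B x = 0) :
    psi5 A B x = - psi3 A B x ^ 3 := by
  unfold psi5; rw [h4]; ring

omit [DecidableEq K] [CharZero K] in
theorem psi5_of_psi3_eq_zero {A B x : K} (h3 : psi3 A B x = 0) :
    psi5 A B x = 16 * cubic A B x ^ 2 * psi4' A B x := by
  unfold psi5; rw [h3]; ring

omit [CharZero K] [W.IsShortNF] in
/-- `4P = 2(2P)` -/
theorem four_smul_eq (P : W.toAffine.Point) : (4 : ℤ) • P = (2 : ℤ) • ((2 : ℤ) • P) := by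
  rw [smul_smul]; norm_num

/-- T3e. -/
theorem five_smul_of_psi5_eq_zero (hΔ : W.Δ ≠ 0) {x y : K} (h : W.toAffine.Nonsingular x y)
    (h5 : psi5 W.a₄ W.a₆ x = 0) : (5 : ℤ) • (Point.some x y h) = 0 := by
  set P := Point.some x y h with hP
  -- Step 1: y ≠ 0
  have hy : y ≠ 0 := by
    rintro rfl
    have hf : cubic W.a₄ W.a₆ x = 0 := by
      have := (equation_short W).mp h.1
      rw [← this]; ring
    have h3 : psi3 W.a₄ W.a₆ x = 0 := by
      have := psi5_of_cubic_eq_zero hf
      rw [h5] at this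
      have : psi3 W.a₄ W.a₆ x ^ 3 = 0 := by linear_combination this
      simpa using this
    exact disc_ne_zero_of_Δ W hΔ (disc_eq_zero_of_cubic_psi3 hf h3)
  have hf := cubic_ne_zero_of_equation W h.1 hy
  obtain ⟨y₂, h₂, h2P, hy₂⟩ := two_smul_some' W h hy
  -- Step 3: ψ₄' ≠ 0
  have h4 : psi4' W.a₄ W.a₆ x ≠ 0 := by
    intro h4
    have h3 : psi3 W.a₄ W.a₆ x = 0 := by
      have := psi5_of_psi4'_eq_zero h4
      rw [h5] at this
      have : psi3 W.a₄ W.a₆ x ^ 3 = 0 := by linear_combination this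
      simpa using this
    have h3P : (3 : ℤ) • P = 0 := three_smul_of_psi3_eq_zero W hΔ h h3
    have hy₂0 : y₂ = 0 := by
      rw [h4] at hy₂
      rcases mul_eq_zero.mp hy₂ with h0 | h0
      · exact h0
      · exact absurd h0 (mul_ne_zero (by norm_num) (pow_ne_zero 3 hy))
    subst hy₂0
    have h4P : (4 : ℤ) • P = 0 := by
      rw [four_smul_eq, h2P]; exact two_smul_some_of_y_eq_zero W h₂
    have : P = 0 := by
      have : (4 : ℤ) • P = (3 : ℤ) • P + P := by
        rw [show (4 : ℤ) = 3 + 1 by norm_num, add_zsmul, one_zsmul]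
      rw [h4P, h3P, zero_add] at this
      exact this.symm
    exact Point.some_ne_zero h this
  have hy₂ne : y₂ ≠ 0 := by
    rintro rfl
    rw [zero_mul] at hy₂
    exact h4 hy₂.symm
  obtain ⟨y₄, h₄, h4P', -⟩ := two_smul_some' W h₂ hy₂ne
  have h4P : (4 : ℤ) • P = Point.some _ y₄ h₄ := by rw [four_smul_eq, h2P, h4P']
  have hx4 : dupX W.a₄ W.a₆ (dupX W.a₄ W.a₆ x) = x := by
    have := dupX_dupX_sub hf h4
    rw [h5, mul_zero, neg_zero, zero_div] at this
    linear_combination this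
  rcases (Point.X_eq_iff (h₁ := h₄) (h₂ := h)).mp hx4 with e | e
  · -- 4P = P: then 3P = 0, so ψ₃ = 0, contradiction
    exfalso
    have h3P : (3 : ℤ) • P = 0 := by
      have : (4 : ℤ) • P = (3 : ℤ) • P + P := by
        rw [show (4 : ℤ) = 3 + 1 by norm_num, add_zsmul, one_zsmul]
      rw [h4P, e] at this
      exact (add_eq_right.mp this.symm)
    have h3 := psi3_eq_zero_of_three_smul W hΔ h h3P
    have := psi5_of_psi3_eq_zero h3
    rw [h5] at this
    have : cubic W.a₄ W.a₆ x ^ 2 * psi4' W.a₄ W.a₆ x = 0 := by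
      have h16 : (16 : K) ≠ 0 := by norm_num
      have : (16 : K) * (cubic W.a₄ W.a₆ x ^ 2 * psi4' W.a₄ W.a₆ x) = 0 := by
        linear_combination -this
      exact (mul_eq_zero.mp this).resolve_left h16
    rcases mul_eq_zero.mp this with h0 | h0
    · exact hf (by simpa using h0)
    · exact h4 h0
  · rw [show (5 : ℤ) = 4 + 1 by norm_num, add_zsmul, one_zsmul, h4P, e]
    exact neg_add_cancel _

/-- T3d. -/
theorem psi5_eq_zero_of_five_smul (hΔ : W.Δ ≠ 0) {x y : K} (h : W.toAffine.Nonsingular x y)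
    (h5 : (5 : ℤ) • (Point.some x y h) = 0) : psi5 W.a₄ W.a₆ x = 0 := by
  set P := Point.some x y h with hP
  have h54 : (5 : ℤ) • P = (4 : ℤ) • P + P := by
    rw [show (5 : ℤ) = 4 + 1 by norm_num, add_zsmul, one_zsmul]
  have hy : y ≠ 0 := by
    rintro rfl
    have h2 := two_smul_some_of_y_eq_zero W h
    have h4P : (4 : ℤ) • P = 0 := by rw [four_smul_eq, h2, smul_zero]
    rw [h5, h4P, zero_add] at h54
    exact Point.some_ne_zero h h54.symm
  have hf := cubic_ne_zero_of_equation W h.1 hy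
  obtain ⟨y₂, h₂, h2P, hy₂⟩ := two_smul_some' W h hy
  have hy₂ne : y₂ ≠ 0 := by
    rintro rfl
    have h4P : (4 : ℤ) • P = 0 := by
      rw [four_smul_eq, h2P]; exact two_smul_some_of_y_eq_zero W h₂
    rw [h5, h4P, zero_add] at h54
    exact Point.some_ne_zero h h54.symm
  have h4 : psi4' W.a₄ W.a₆ x ≠ 0 := by
    rw [← hy₂]
    exact mul_ne_zero hy₂ne (mul_ne_zero (by norm_num) (pow_ne_zero 3 hy))
  obtain ⟨y₄, h₄, h4P', -⟩ := two_smul_some' W h₂ hy₂ne
  have h4P : (4 : ℤ) • P = Point.some _ y₄ h₄ := by rw [four_smul_eq, h2P, h4P']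
  have h4neg : (4 : ℤ) • P = -P := by
    rw [h5] at h54
    exact eq_neg_of_add_eq_zero_left h54.symm
  rw [h4P, hP, Point.neg_some, Point.some.injEq] at h4neg
  have hx4 : dupX W.a₄ W.a₆ (dupX W.a₄ W.a₆ x) = x := h4neg.1
  have hsub := dupX_dupX_sub hf h4
  rw [hx4, sub_self] at hsub
  have hden : 4 * cubic W.a₄ W.a₆ x * psi4' W.a₄ W.a₆ x ^ 2 ≠ 0 :=
    mul_ne_zero (mul_ne_zero (by norm_num) hf) (pow_ne_zero 2 h4)
  have hprod : psi3 W.a₄ W.a₆ x * psi5 W.a₄ W.a₆ x = 0 := by
    rcases div_eq_zero_iff.mp hsub.symm with h0 | h0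
    · simpa using h0
    · exact absurd h0 hden
  rcases mul_eq_zero.mp hprod with h3 | h5'
  · exfalso
    have h3P := three_smul_of_psi3_eq_zero W hΔ h h3
    have : (5 : ℤ) • P = (3 : ℤ) • P + (2 : ℤ) • P := by
      rw [← add_zsmul]; norm_num
    rw [h5, h3P, zero_add, h2P] at this
    exact Point.some_ne_zero h₂ this.symm
  · exact h5'

end Points

/-! ### Division polynomials as polynomials, existence and counting -/

open Polynomial in
/-- `ψ₃` as a polynomial -/
noncomputable def psi3Poly (A B : K) : Polynomial K :=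
  C 3 * X ^ 4 + C (6 * A) * X ^ 2 + C (12 * B) * X - C (A ^ 2)

open Polynomial in
/-- `ψ₅` as a polynomial (expanded) -/
noncomputable def psi5Poly (A B : K) : Polynomial K :=
  C 5 * X ^ 12 + C (62 * A) * X ^ 10 + C (380 * B) * X ^ 9 - C (105 * A ^ 2) * X ^ 8
    + C (240 * A * B) * X ^ 7 - C (300 * A ^ 3 + 240 * B ^ 2) * X ^ 6 - C (696 * A ^ 2 * B) * X ^ 5
    - C (125 * A ^ 4 + 1920 * A * B ^ 2) * X ^ 4 - C (80 * A ^ 3 * B + 1600 * B ^ 3) * X ^ 3
    - C (50 * A ^ 5 + 240 * A ^ 2 * B ^ 2) * X ^ 2 - C (100 * A ^ 4 * B + 640 * A * B ^ 3) * X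
    + C (A ^ 6 - 32 * A ^ 3 * B ^ 2 - 256 * B ^ 4)

omit [DecidableEq K] [CharZero K] in
theorem eval_psi3Poly (A B x : K) : (psi3Poly A B).eval x = psi3 A B x := by
  simp [psi3Poly, psi3]

omit [DecidableEq K] [CharZero K] in
theorem eval_psi5Poly (A B x : K) : (psi5Poly A B).eval x = psi5 A B x := by
  simp only [psi5Poly, psi5, psi4', psi3, cubic, Polynomial.eval_add, Polynomial.eval_sub,
    Polynomial.eval_mul, Polynomial.eval_C, Polynomial.eval_pow, Polynomial.eval_X]
  ring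

omit [DecidableEq K] in
theorem natDegree_psi3Poly (A B : K) : (psi3Poly A B).natDegree = 4 := by
  unfold psi3Poly
  compute_degree!

omit [DecidableEq K] in
theorem natDegree_psi5Poly (A B : K) : (psi5Poly A B).natDegree = 12 := by
  unfold psi5Poly
  compute_degree!

omit [DecidableEq K] in
theorem psi3Poly_ne_zero (A B : K) : psi3Poly A B ≠ 0 := by
  intro h
  have := natDegree_psi3Poly A B
  rw [h, Polynomial.natDegree_zero] at this
  exact absurd this (by norm_num)

omit [DecidableEq K] in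
theorem psi5Poly_ne_zero (A B : K) : psi5Poly A B ≠ 0 := by
  intro h
  have := natDegree_psi5Poly A B
  rw [h, Polynomial.natDegree_zero] at this
  exact absurd this (by norm_num)

section Points2

variable (W : WeierstrassCurve K) [W.IsShortNF]

omit [DecidableEq K] [CharZero K] in
/-- over an algebraically closed field every `x` is the x-coordinate of a point -/
theorem exists_point_of_x [IsAlgClosed K] (hΔ : W.Δ ≠ 0) (x : K) :
    ∃ (y : K), W.toAffine.Nonsingular x y := by
  obtain ⟨y, hy⟩ := IsAlgClosed.exists_pow_nat_eq (cubic W.a₄ W.a₆ x) (n := 2) (by norm_num)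
  exact ⟨y, (W.toAffine.equation_iff_nonsingular_of_Δ_ne_zero hΔ).mp ((equation_short W).mpr hy)⟩

/-- T3f. -/
theorem exists_three_torsion [IsAlgClosed K] (hΔ : W.Δ ≠ 0) :
    ∃ P : W.toAffine.Point, P ≠ 0 ∧ (3 : ℤ) • P = 0 := by
  have hdeg : (psi3Poly W.a₄ W.a₆).degree ≠ 0 := by
    rw [Polynomial.degree_eq_natDegree (psi3Poly_ne_zero _ _), natDegree_psi3Poly]
    norm_num
  obtain ⟨x, hx⟩ := IsAlgClosed.exists_root _ hdeg
  rw [Polynomial.IsRoot.def, eval_psi3Poly] at hx
  obtain ⟨y, h⟩ := exists_point_of_x W hΔ x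
  exact ⟨Point.some x y h, Point.some_ne_zero h, three_smul_of_psi3_eq_zero W hΔ h hx⟩

/-- T3g. -/
theorem exists_five_torsion [IsAlgClosed K] (hΔ : W.Δ ≠ 0) :
    ∃ P : W.toAffine.Point, P ≠ 0 ∧ (5 : ℤ) • P = 0 := by
  have hdeg : (psi5Poly W.a₄ W.a₆).degree ≠ 0 := by
    rw [Polynomial.degree_eq_natDegree (psi5Poly_ne_zero _ _), natDegree_psi5Poly]
    norm_num
  obtain ⟨x, hx⟩ := IsAlgClosed.exists_root _ hdeg
  rw [Polynomial.IsRoot.def, eval_psi5Poly] at hx
  obtain ⟨y, h⟩ := exists_point_of_x W hΔ x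
  exact ⟨Point.some x y h, Point.some_ne_zero h, five_smul_of_psi5_eq_zero W hΔ h hx⟩

/-- the x-coordinate of an affine point (junk value `0` at the origin) -/
def xCoord : W.toAffine.Point → K
  | .zero => 0
  | .some x _ _ => x

omit [CharZero K] [W.IsShortNF] in
/-- A finite set of points whose affine members have x-coordinates among the roots of a nonzero
polynomial `p` has at most `2 deg p + 1` elements. -/
theorem card_le_of_x_roots (p : Polynomial K) (hp : p ≠ 0) (s : Finset W.toAffine.Point)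
    (hs : ∀ (x y : K) (h : W.toAffine.Nonsingular x y), Point.some x y h ∈ s → p.IsRoot x) :
    s.card ≤ 2 * p.natDegree + 1 := by
  classical
  have h1 : s.card ≤ (s.erase 0).card + 1 := by
    by_cases h0 : (0 : W.toAffine.Point) ∈ s
    · rw [Finset.card_erase_of_mem h0]; omega
    · rw [Finset.erase_eq_of_notMem h0]; omega
  have h2 : ((s.erase 0).image (xCoord W)).card ≤ p.natDegree := by
    calc ((s.erase 0).image (xCoord W)).card ≤ p.roots.toFinset.card := by
          apply Finset.card_le_card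
          intro a ha
          obtain ⟨P, hP, rfl⟩ := Finset.mem_image.mp ha
          obtain ⟨hP0, hPs⟩ := Finset.mem_erase.mp hP
          rcases P with _ | ⟨x, y, h⟩
          · exact absurd rfl hP0
          · rw [Multiset.mem_toFinset, Polynomial.mem_roots hp]
            exact hs x y h hPs
      _ ≤ p.roots.card := Multiset.toFinset_card_le _
      _ ≤ p.natDegree := Polynomial.card_roots' p
  have h3 : (s.erase 0).card ≤ 2 * ((s.erase 0).image (xCoord W)).card := by
    apply Finset.card_le_mul_card_image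
    intro a ha
    obtain ⟨P₀, hP₀, rfl⟩ := Finset.mem_image.mp ha
    obtain ⟨hP₀0, -⟩ := Finset.mem_erase.mp hP₀
    rcases P₀ with _ | ⟨x₀, y₀, h₀⟩
    · exact absurd rfl hP₀0
    · calc ((s.erase 0).filter fun P => xCoord W P = xCoord W (Point.some x₀ y₀ h₀)).card
          ≤ ({Point.some x₀ y₀ h₀, -Point.some x₀ y₀ h₀} : Finset W.toAffine.Point).card := by
            apply Finset.card_le_card
            intro P hP
            obtain ⟨hP1, hP2⟩ := Finset.mem_filter.mp hP
            obtain ⟨hP0, -⟩ := Finset.mem_erase.mp hP1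
            rcases P with _ | ⟨x, y, h⟩
            · exact absurd rfl hP0
            · have hx : x = x₀ := hP2
              rcases (Point.X_eq_iff (h₁ := h) (h₂ := h₀)).mp hx with e | e
              · rw [e]; exact Finset.mem_insert_self _ _
              · rw [e]; exact Finset.mem_insert_of_mem (Finset.mem_singleton_self _)
        _ ≤ 2 := Finset.card_le_two
  omega

/-- T3h. -/
theorem card_three_torsion_le (hΔ : W.Δ ≠ 0) (s : Finset W.toAffine.Point)
    (hs : ∀ P ∈ s, (3 : ℤ) • P = 0) : s.card ≤ 3 ^ 2 := by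
  have := card_le_of_x_roots W (psi3Poly W.a₄ W.a₆) (psi3Poly_ne_zero _ _) s
    (fun x y h hP => by
      rw [Polynomial.IsRoot.def, eval_psi3Poly]
      exact psi3_eq_zero_of_three_smul W hΔ h (hs _ hP))
  rw [natDegree_psi3Poly] at this
  omega

/-- T3i. -/
theorem card_five_torsion_le (hΔ : W.Δ ≠ 0) (s : Finset W.toAffine.Point)
    (hs : ∀ P ∈ s, (5 : ℤ) • P = 0) : s.card ≤ 5 ^ 2 := by
  have := card_le_of_x_roots W (psi5Poly W.a₄ W.a₆) (psi5Poly_ne_zero _ _) s
    (fun x y h hP => by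
      rw [Polynomial.IsRoot.def, eval_psi5Poly]
      exact psi5_eq_zero_of_five_smul W hΔ h (hs _ hP))
  rw [natDegree_psi5Poly] at this
  omega

end Points2

end Short

end Fermat.Agent.X015
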