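/-
P3 / S51, task T6 (helper9): a Galois-stable subgroup of order 5 on a short Weierstrass curve over `ℚ`
gives a rational `u ≠ 0` with `c₄³ u = Δ (u² + 10u + 5)³`.
-/
import Mathlib
import Fermat.Prelude.Def_FLTPrelim_GaloisRep
import Fermat.Agent.Lib.X015.ShortTorsion
import Fermat.Agent.Lib.X015.ParamIdentities
import Fermat.Agent.Lib.X015.FixedField

set_option autoImplicit false

open WeierstrassCurve WeierstrassCurve.Affine

namespace Fermat.Agent.X015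

section General

variable {K : Type*} [Field K] [DecidableEq K] [CharZero K]
variable (W : WeierstrassCurve K) [W.IsShortNF]

set_option linter.unusedVariables false in
/-- Structure of a point of order 5 on a short Weierstrass curve. -/
theorem five_torsion_structure (hΔ : W.Δ ≠ 0) {x y : K} (h : W.toAffine.Nonsingular x y)
    (h5 : (5 : ℤ) • (Point.some x y h) = 0) :
    cubic W.a₄ W.a₆ x ≠ 0 ∧ cubic W.a₄ W.a₆ (dupX W.a₄ W.a₆ x) ≠ 0 ∧
    dupX W.a₄ W.a₆ (dupX W.a₄ W.a₆ x) = x ∧ dupX W.a₄ W.a₆ x ≠ x ∧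
    ∃ (y₂ : K) (h₂ : W.toAffine.Nonsingular (dupX W.a₄ W.a₆ x) y₂),
      (2 : ℤ) • (Point.some x y h) = Point.some (dupX W.a₄ W.a₆ x) y₂ h₂ := by
  set P := Point.some x y h with hP
  have h54 : (5 : ℤ) • P = (4 : ℤ) • P + P := by
    rw [show (5 : ℤ) = 4 + 1 by norm_num, add_zsmul, one_zsmul]
  have hy : y ≠ 0 := by
    rintro rfl
    have h2 := two_smul_some_of_y_eq_zero W h
    have h4P : (4 : ℤ) • P = 0 := by rw [four_smul_eq, h2, smul_zero]
    rw [h5, h4P, zero_add] at h54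
    exact Point.some_ne_zero h h54.symm
  have hf := cubic_ne_zero_of_equation W h.1 hy
  obtain ⟨y₂, h₂, h2P, hy₂⟩ := two_smul_some' W h hy
  have hy₂ne : y₂ ≠ 0 := by
    rintro rfl
    have h4P : (4 : ℤ) • P = 0 := by
      rw [four_smul_eq, h2P]; exact two_smul_some_of_y_eq_zero W h₂
    rw [h5, h4P, zero_add] at h54
    exact Point.some_ne_zero h h54.symm
  have hf₂ := cubic_ne_zero_of_equation W h₂.1 hy₂ne
  obtain ⟨y₄, h₄, h4P', -⟩ := two_smul_some' W h₂ hy₂ne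
  have h4P : (4 : ℤ) • P = Point.some _ y₄ h₄ := by rw [four_smul_eq, h2P, h4P']
  have h4neg : (4 : ℤ) • P = -P := by
    rw [h5] at h54
    exact eq_neg_of_add_eq_zero_left h54.symm
  rw [h4P, hP, Point.neg_some, Point.some.injEq] at h4neg
  refine ⟨hf, hf₂, h4neg.1, ?_, y₂, h₂, h2P⟩
  intro hx
  rcases (Point.X_eq_iff (h₁ := h₂) (h₂ := h)).mp hx with e | e
  · rw [← h2P, two_zsmul] at e
    exact Point.some_ne_zero h (by simp at e)
  · -- 2P = -P, so 3P = 0, so 2P = 5P - 3P = 0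
    have h3P : (3 : ℤ) • P = 0 := by
      rw [show (3 : ℤ) = 2 + 1 by norm_num, add_zsmul, one_zsmul, h2P, e]
      exact neg_add_cancel _
    have : (5 : ℤ) • P = (3 : ℤ) • P + (2 : ℤ) • P := by
      rw [← add_zsmul]; norm_num
    rw [h5, h3P, zero_add, h2P] at this
    exact Point.some_ne_zero h₂ this.symm

omit [DecidableEq K] [CharZero K] [W.IsShortNF] in
theorem xCoord_neg (P : W.toAffine.Point) : xCoord W (-P) = xCoord W P := by
  rcases P with _ | ⟨x, y, h⟩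
  · rfl
  · rfl

omit [DecidableEq K] [CharZero K] [W.IsShortNF] in
theorem xCoord_some {x y : K} (h : W.toAffine.Nonsingular x y) : xCoord W (Point.some x y h) = x :=
  rfl

/-- If `5P = 0`, `P = (x, y)`, any multiple `kP` is `0` or has x-coordinate `x` or `dupX x`. -/
theorem xCoord_zsmul_of_five_torsion (hΔ : W.Δ ≠ 0) {x y : K} (h : W.toAffine.Nonsingular x y)
    (h5 : (5 : ℤ) • (Point.some x y h) = 0) (k : ℤ) :
    k • (Point.some x y h) = 0 ∨ xCoord W (k • (Point.some x y h)) = x ∨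
      xCoord W (k • (Point.some x y h)) = dupX W.a₄ W.a₆ x := by
  obtain ⟨-, -, -, -, y₂, h₂, h2P⟩ := five_torsion_structure W hΔ h h5
  set P := Point.some x y h with hP
  have hk : k • P = (k % 5) • P := by
    conv_lhs => rw [← Int.ediv_mul_add_emod k 5, add_zsmul, mul_zsmul, h5, smul_zero, zero_add]
  have h0 : 0 ≤ k % 5 := Int.emod_nonneg k (by norm_num)
  have h1 : k % 5 < 5 := Int.emod_lt_of_pos k (by norm_num)
  rw [hk]
  have h3P : (3 : ℤ) • P = -((2 : ℤ) • P) := by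
    have : (5 : ℤ) • P = (3 : ℤ) • P + (2 : ℤ) • P := by rw [← add_zsmul]; norm_num
    rw [h5] at this
    exact eq_neg_of_add_eq_zero_left this.symm
  have h4P : (4 : ℤ) • P = -P := by
    have : (5 : ℤ) • P = (4 : ℤ) • P + P := by
      rw [show (5 : ℤ) = 4 + 1 by norm_num, add_zsmul, one_zsmul]
    rw [h5] at this
    exact eq_neg_of_add_eq_zero_left this.symm
  interval_cases (k % 5)
  · left; simp
  · right; left; rw [one_zsmul]; rfl
  · right; right; rw [h2P]; rfl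
  · right; right; rw [h3P, xCoord_neg, h2P]; rfl
  · right; left; rw [h4P, xCoord_neg]; rfl

end General

section Rational

local notation "Qbar" => AlgebraicClosure ℚ

variable (E : WeierstrassCurve ℚ) [E.IsShortNF]

instance isShortNF_baseChange_qbar : (E.toAffine⁄Qbar).IsShortNF :=
  ⟨by simp [WeierstrassCurve.baseChange, a₁_of_isShortNF],
   by simp [WeierstrassCurve.baseChange],
   by simp [WeierstrassCurve.baseChange, a₃_of_isShortNF]⟩

theorem baseChange_qbar_a₄ : (E.toAffine⁄Qbar).a₄ = algebraMap ℚ Qbar E.a₄ := by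
  simp [WeierstrassCurve.baseChange]

theorem baseChange_qbar_a₆ : (E.toAffine⁄Qbar).a₆ = algebraMap ℚ Qbar E.a₆ := by
  simp [WeierstrassCurve.baseChange]

theorem baseChange_qbar_Δ_ne_zero (hΔ : E.Δ ≠ 0) : (E.toAffine⁄Qbar).Δ ≠ 0 := by
  simp only [WeierstrassCurve.baseChange, WeierstrassCurve.map_Δ]
  exact (map_ne_zero_iff _ (algebraMap ℚ Qbar).injective).mpr hΔ

theorem algEquiv_smul_some (σ : Qbar ≃ₐ[ℚ] Qbar) {x y : Qbar}
    (h : (E.toAffine⁄Qbar).toAffine.Nonsingular x y) :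
    xCoord (E.toAffine⁄Qbar) (σ • (Point.some x y h : (E.toAffine⁄Qbar).Point)) = σ x ∧
      σ • (Point.some x y h : (E.toAffine⁄Qbar).Point) ≠ 0 := by
  rw [Affine.Point.algEquiv_smul_def, Point.map_some]
  exact ⟨rfl, Point.some_ne_zero _⟩

theorem algEquiv_dupX (σ : Qbar ≃ₐ[ℚ] Qbar) (a b : ℚ) (x : Qbar) :
    σ (dupX (algebraMap ℚ Qbar a) (algebraMap ℚ Qbar b) x)
      = dupX (algebraMap ℚ Qbar a) (algebraMap ℚ Qbar b) (σ x) := by
  simp only [dupX, psi3, cubic, map_sub, map_div₀, map_mul, map_add, map_pow, AlgEquiv.commutes,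
    map_ofNat]

/-- T6. A Galois-stable subgroup of order 5 gives `u ≠ 0` with `j u = (u² + 10 u + 5)³`. -/
theorem exists_param_five (hΔ : E.Δ ≠ 0)
    (P : (E.toAffine⁄Qbar).Point) (hP0 : P ≠ 0) (hP : (5 : ℤ) • P = 0)
    (hst : ∀ σ : Qbar ≃ₐ[ℚ] Qbar, ∃ k : ℤ, σ • P = k • P) :
    ∃ u : ℚ, u ≠ 0 ∧ E.c₄ ^ 3 * u = E.Δ * (u ^ 2 + 10 * u + 5) ^ 3 := by
  have hΔ' := baseChange_qbar_Δ_ne_zero E hΔ
  rcases P with _ | ⟨x₁, y₁, h₁⟩
  · exact absurd rfl hP0
  obtain ⟨hf₁, hf₂, hdd, hne, y₂, h₂, h2P⟩ := five_torsion_structure (E.toAffine⁄Qbar) hΔ' h₁ hP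
  rw [baseChange_qbar_a₄, baseChange_qbar_a₆] at hf₁ hf₂ hdd hne
  set A : Qbar := algebraMap ℚ Qbar E.a₄ with hA
  set B : Qbar := algebraMap ℚ Qbar E.a₆ with hB
  set x₂ : Qbar := dupX A B x₁ with hx₂
  -- Galois permutes {x₁, x₂}
  have hσ : ∀ σ : Qbar ≃ₐ[ℚ] Qbar, (σ x₁ = x₁ ∧ σ x₂ = x₂) ∨ (σ x₁ = x₂ ∧ σ x₂ = x₁) := by
    intro σ
    obtain ⟨k, hk⟩ := hst σ
    obtain ⟨hxσ, hσ0⟩ := algEquiv_smul_some E σ h₁
    have hσx₂ : σ x₂ = dupX A B (σ x₁) := algEquiv_dupX σ E.a₄ E.a₆ x₁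
    rcases xCoord_zsmul_of_five_torsion (E.toAffine⁄Qbar) hΔ' h₁ hP k with h0 | h1 | h2
    · rw [hk] at hσ0; exact absurd h0 hσ0
    · left
      rw [← hk, hxσ] at h1
      refine ⟨h1, ?_⟩
      rw [hσx₂, h1]
    · right
      rw [← hk, hxσ, baseChange_qbar_a₄, baseChange_qbar_a₆] at h2
      refine ⟨h2, ?_⟩
      rw [hσx₂, h2]; exact hdd
  -- s and p are rational
  obtain ⟨s₀, hs₀⟩ := mem_range_of_forall_algEquiv_fixed (x₁ + x₂) (fun σ => by
    rcases hσ σ with ⟨e1, e2⟩ | ⟨e1, e2⟩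
    · rw [map_add, e1, e2]
    · rw [map_add, e1, e2, add_comm])
  obtain ⟨p₀, hp₀⟩ := mem_range_of_forall_algEquiv_fixed (x₁ * x₂) (fun σ => by
    rcases hσ σ with ⟨e1, e2⟩ | ⟨e1, e2⟩
    · rw [map_mul, e1, e2]
    · rw [map_mul, e1, e2, mul_comm])
  -- the polynomial relations
  have hr₁ : x₁ ^ 4 - 2 * A * x₁ ^ 2 - 8 * B * x₁ + A ^ 2 = 4 * (x₁ ^ 3 + A * x₁ + B) * x₂ := by
    have h4 : (4 : Qbar) * cubic A B x₁ ≠ 0 := mul_ne_zero (by norm_num) hf₁
    have := dupX_eq hf₁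
    rw [← hx₂, eq_div_iff h4] at this
    unfold cubic at this
    linear_combination -this
  have hr₂ : x₂ ^ 4 - 2 * A * x₂ ^ 2 - 8 * B * x₂ + A ^ 2 = 4 * (x₂ ^ 3 + A * x₂ + B) * x₁ := by
    have h4 : (4 : Qbar) * cubic A B x₂ ≠ 0 := mul_ne_zero (by norm_num) hf₂
    have := dupX_eq hf₂
    rw [hdd, eq_div_iff h4] at this
    unfold cubic at this
    linear_combination -this
  obtain ⟨hd0, hid⟩ := fiveIsog_param_identity A B x₁ x₂ (x₁ + x₂) (x₁ * x₂) rfl rfl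
    (Ne.symm hne) hr₁ hr₂
  rw [← hs₀, ← hp₀] at hd0 hid
  -- descend to ℚ
  have hinj := (algebraMap ℚ Qbar).injective
  have hd0' : s₀ ^ 2 - 4 * p₀ ≠ 0 := by
    intro h0
    apply hd0
    rw [← map_pow, ← map_ofNat (algebraMap ℚ Qbar) 4, ← map_mul, ← map_sub, h0, map_zero]
  set u : ℚ := (4 * E.a₄ - 7 * s₀ ^ 2 + 40 * p₀) / (s₀ ^ 2 - 4 * p₀) with hu
  have hid' : 1728 * (4 * E.a₄ ^ 3) * u = (u ^ 2 + 10 * u + 5) ^ 3 * (4 * E.a₄ ^ 3 + 27 * E.a₆ ^ 2) := by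
    apply hinj
    rw [hu]
    simp only [map_mul, map_add, map_sub, map_pow, map_div₀, map_ofNat]
    rw [← hA, ← hB]
    exact hid
  have hdisc : 4 * E.a₄ ^ 3 + 27 * E.a₆ ^ 2 ≠ 0 := disc_ne_zero_of_Δ E hΔ
  refine ⟨u, ?_, ?_⟩
  · intro h0
    rw [h0] at hid'
    apply hdisc
    have : (125 : ℚ) * (4 * E.a₄ ^ 3 + 27 * E.a₆ ^ 2) = 0 := by linear_combination -hid'
    exact (mul_eq_zero.mp this).resolve_left (by norm_num)
  · rw [c₄_of_isShortNF, Δ_of_isShortNF]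
    linear_combination (-16 : ℚ) * hid'

end Rational

end Fermat.Agent.X015
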