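/-
P3 / S51, task T5 (helper9): a Galois-stable subgroup of order 3 on a short Weierstrass curve over `ℚ`
gives a rational `h ≠ 0` with `c₄³ h = Δ (h + 27)(h + 3)³`.
-/
import Mathlib
import Fermat.Prelude.Def_FLTPrelim_GaloisRep
import Fermat.Agent.Lib.X015.ParamFive

set_option autoImplicit false

open WeierstrassCurve WeierstrassCurve.Affine

namespace Fermat.Agent.X015

section General

variable {K : Type*} [Field K] [DecidableEq K] [CharZero K]
variable (W : WeierstrassCurve K) [W.IsShortNF]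

omit [CharZero K] [W.IsShortNF] in
/-- If `3P = 0`, `P = (x, y)`, any multiple `kP` is `0` or has x-coordinate `x`. -/
theorem xCoord_zsmul_of_three_torsion {x y : K} (h : W.toAffine.Nonsingular x y)
    (h3 : (3 : ℤ) • (Point.some x y h) = 0) (k : ℤ) :
    k • (Point.some x y h) = 0 ∨ xCoord W (k • (Point.some x y h)) = x := by
  set P := Point.some x y h with hP
  have hk : k • P = (k % 3) • P := by
    conv_lhs => rw [← Int.ediv_mul_add_emod k 3, add_zsmul, mul_zsmul, h3, smul_zero, zero_add]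
  have h0 : 0 ≤ k % 3 := Int.emod_nonneg k (by norm_num)
  have h1 : k % 3 < 3 := Int.emod_lt_of_pos k (by norm_num)
  rw [hk]
  have h2P : (2 : ℤ) • P = -P := by
    have : (3 : ℤ) • P = (2 : ℤ) • P + P := by
      rw [show (3 : ℤ) = 2 + 1 by norm_num, add_zsmul, one_zsmul]
    rw [h3] at this
    exact eq_neg_of_add_eq_zero_left this.symm
  interval_cases (k % 3)
  · left; simp
  · right; rw [one_zsmul]; rfl
  · right; rw [h2P, xCoord_neg]; rfl

end General

section Rational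

local notation "Qbar" => AlgebraicClosure ℚ

variable (E : WeierstrassCurve ℚ) [E.IsShortNF]

/-- T5. A Galois-stable subgroup of order 3 gives `h ≠ 0` with `j h = (h + 27)(h + 3)³`. -/
theorem exists_param_three (hΔ : E.Δ ≠ 0)
    (P : (E.toAffine⁄Qbar).Point) (hP0 : P ≠ 0) (hP : (3 : ℤ) • P = 0)
    (hst : ∀ σ : Qbar ≃ₐ[ℚ] Qbar, ∃ k : ℤ, σ • P = k • P) :
    ∃ h : ℚ, h ≠ 0 ∧ E.c₄ ^ 3 * h = E.Δ * ((h + 27) * (h + 3) ^ 3) := by
  have hΔ' := baseChange_qbar_Δ_ne_zero E hΔ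
  rcases P with _ | ⟨x, y, hxy⟩
  · exact absurd rfl hP0
  have hψ := psi3_eq_zero_of_three_smul (E.toAffine⁄Qbar) hΔ' hxy hP
  have hy := y_ne_zero_of_psi3 (E.toAffine⁄Qbar) hΔ' hxy hψ
  have hf := cubic_ne_zero_of_equation (E.toAffine⁄Qbar) hxy.1 hy
  rw [baseChange_qbar_a₄, baseChange_qbar_a₆] at hψ hf
  set A : Qbar := algebraMap ℚ Qbar E.a₄ with hA
  set B : Qbar := algebraMap ℚ Qbar E.a₆ with hB
  -- x is Galois-invariant
  obtain ⟨x₀, hx₀⟩ := mem_range_of_forall_algEquiv_fixed x (fun σ => by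
    obtain ⟨k, hk⟩ := hst σ
    obtain ⟨hxσ, hσ0⟩ := algEquiv_smul_some E σ hxy
    rcases xCoord_zsmul_of_three_torsion (E.toAffine⁄Qbar) hxy hP k with h0 | h1
    · rw [hk] at hσ0; exact absurd h0 hσ0
    · rw [← hk, hxσ] at h1; exact h1)
  have hid := threeIsog_param_identity A B x (by unfold psi3 at hψ; exact hψ)
    (by unfold cubic at hf; exact hf)
  rw [← hx₀] at hid hf
  have hinj := (algebraMap ℚ Qbar).injective
  have hf₀ : x₀ ^ 3 + E.a₄ * x₀ + E.a₆ ≠ 0 := by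
    intro h0
    apply hf
    unfold cubic
    rw [hA, hB, ← map_pow, ← map_mul, ← map_add, ← map_add, h0, map_zero]
  set h : ℚ := 6 * x₀ * (3 * x₀ ^ 2 + E.a₄) / (x₀ ^ 3 + E.a₄ * x₀ + E.a₆) - 27 with hh
  have hid' : 1728 * (4 * E.a₄ ^ 3) * h
      = (h + 27) * (h + 3) ^ 3 * (4 * E.a₄ ^ 3 + 27 * E.a₆ ^ 2) := by
    apply hinj
    rw [hh]
    simp only [map_mul, map_add, map_sub, map_pow, map_div₀, map_ofNat]
    rw [← hA, ← hB]
    exact hid
  have hdisc : 4 * E.a₄ ^ 3 + 27 * E.a₆ ^ 2 ≠ 0 := disc_ne_zero_of_Δ E hΔ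
  refine ⟨h, ?_, ?_⟩
  · intro h0
    rw [h0] at hid'
    apply hdisc
    have : (729 : ℚ) * (4 * E.a₄ ^ 3 + 27 * E.a₆ ^ 2) = 0 := by linear_combination -hid'
    exact (mul_eq_zero.mp this).resolve_left (by norm_num)
  · rw [c₄_of_isShortNF, Δ_of_isShortNF]
    linear_combination (-16 : ℚ) * hid'

end Rational

end Fermat.Agent.X015
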