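import Mathlib

/-!
# The plane model of `X₀(15)` (P3 / S51, task T8)

The curve `u (h+27)(h+3)³ = h (u²+10u+5)³` (pairs of Hauptmoduln of `X₀(3)` and `X₀(5)` with the
same `j`) is birational to `Y² = X (X+9) (X-16)`.  With
`ρ = (h²+18h-27)/(u²+4u-1)` and `κ = (u²+10u+5)/(h+3)` (which satisfy `ρ² u = h (u²+22u+125)` and
`κ³ h = u (h+27)` on the curve), the functions
`v = η(3τ)²η(15τ)²/(η(τ)²η(5τ)²)` and `a` with `h = 729 v a²`, `a² = a (1+5v+9v²) + v²`
are polynomials in `h, u, ρ, κ`; then `X = 36 a`, `Y = 72 (9a+1) v + 180 a`.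
The identities were found from q-expansions and are verified here by `linear_combination`
with explicit (machine generated) cofactors.
-/

set_option autoImplicit false

namespace Fermat.Agent.X015

/-- The function `v` on `X₀(15)` as a polynomial in `h, u, ρ, κ`. -/
def vFun (h u r k : ℚ) : ℚ := (45+9*k-3*r*k+r*k^2+9*u-u*r*k+9*h-h*k+h*u)/216

/-- The function `a` on `X₀(15)` as a polynomial in `h, u, ρ, κ`. -/
def aFun (h u r k : ℚ) : ℚ := (81+9*k+r*k+r*k^2+9*u-u*r*k+5*h-h*k+h*u)/216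

set_option maxHeartbeats 1000000 in
theorem x015_cert_E1 (h u r k : ℚ)
    (hr1 : r*(u^2+4*u-1) - (h^2+18*h-27) = 0) (hr2 : k*(h+3) - (u^2+10*u+5) = 0)
    (hr3 : u*(h+27)*(h+3)^3 - h*(u^2+10*u+5)^3 = 0) (hr4 : r^2*u - h*(u^2+22*u+125) = 0)
    (hr5 : k^3*h - u*(h+27) = 0) :
    (h^10 * u^2 * (u^2+4*u-1) * (h+3)^2) * (aFun h u r k ^ 2 - aFun h u r k * (1 + 5 * vFun h u r k + 9 * vFun h u r k ^ 2) - vFun h u r k ^ 2) = 0 := by
  have key : (h^12 * u^4 + 4 * h^12 * u^3 - h^12 * u^2 + 6 * h^11 * u^4 + 24 * h^11 * u^3 - 6 * h^11 * u^2 + 9 * h^10 * u^4 + 36 * h^10 * u^3 - 9 * h^10 * u^2) * (aFun h u r k ^ 2 - aFun h u r k * (1 + 5 * vFun h u r k + 9 * vFun h u r k ^ 2) - vFun h u r k ^ 2) = 0 := by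
    unfold vFun aFun
    linear_combination ((1/373248) * h^14 * u^5 * k - (1/124416) * h^14 * u^4 * k^2 + (17/373248) * h^14 * u^4 * k + (1/124416) * h^14 * u^4 - (17/186624) * h^14 * u^3 * k^2 + (13/62208) * h^14 * u^3 * k + (17/373248) * h^14 * u^3 - (79/373248) * h^14 * u^2 * k^2 + (7/41472) * h^14 * u^2 * k + (1/1119744) * h^13 * u^7 - (1/373248) * h^13 * u^6 * k + (1/41472) * h^13 * u^6 + (1/373248) * h^13 * u^5 * k^2 - (1/279936) * h^13 * u^5 * k + (79/373248) * h^13 * u^5 - (37/1119744) * h^13 * u^4 * k^2 + (397/559872) * h^13 * u^4 * k + (301/373248) * h^13 * u^4 - (1291/1119744) * h^13 * u^3 * k^2 + (6343/1119744) * h^13 * u^3 * k + (1813/1119744) * h^13 * u^3 - (5891/1119744) * h^13 * u^2 * k^2 + (881/124416) * h^13 * u^2 * k - (125/124416) * h^13 * u^2 + (11/373248) * h^12 * u^7 - (11/124416) * h^12 * u^6 * k + (11/13824) * h^12 * u^6 + (11/124416) * h^12 * u^5 * k^2 - (319/186624) * h^12 * u^5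 * k + (433/62208) * h^12 * u^5 + (727/373248) * h^12 * u^4 * k^2 - (593/93312) * h^12 * u^4 * k + (575/31104) * h^12 * u^4 + (2971/373248) * h^12 * u^3 * k^2 + (2933/93312) * h^12 * u^3 * k + (1601/373248) * h^12 * u^3 - (10027/373248) * h^12 * u^2 * k^2 + (3005/41472) * h^12 * u^2 * k - (1375/41472) * h^12 * u^2 + (19/124416) * h^11 * u^7 - (19/41472) * h^11 * u^6 * k + (19/4608) * h^11 * u^6 + (19/41472) * h^11 * u^5 * k^2 - (307/31104) * h^11 * u^5 * k + (367/10368) * h^11 * u^5 + (1457/124416) * h^11 * u^4 * k^2 - (3257/62208) * h^11 * u^4 * k + (181/2592) * h^11 * u^4 + (8591/124416) * h^11 * u^3 * k^2 + (3257/62208) * h^11 * u^3 * k - (26249/124416) * h^11 * u^3 - (5225/124416) * h^11 * u^2 * k^2 + (3619/13824) * h^11 * u^2 * k - (2375/13824) * h^11 * u^2 + (1/4608) * h^10 * u^7 - (1/1536) * h^10 * u^6 * k + (3/512) * h^10 * u^6 + (1/1536) * h^10 * u^5 * k^2 - (67/4608) * h^10 * u^5 * k + (109/2304)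 * h^10 * u^5 + (5/288) * h^10 * u^4 * k^2 - (389/4608) * h^10 * u^4 * k + (17/4608) * h^10 * u^4 + (515/4608) * h^10 * u^3 * k^2 - (17/2304) * h^10 * u^3 * k - (941/768) * h^10 * u^3 - (7/768) * h^10 * u^2 * k^2 + (179/576) * h^10 * u^2 * k - (125/512) * h^10 * u^2 - (3/512) * h^9 * u^5 - (93/512) * h^9 * u^4 - (27/512) * h^9 * u^3 * k - (57/32) * h^9 * u^3) * hr1 + ((1/373248) * h^15 * u^5 - (1/124416) * h^15 * u^4 * k + (17/373248) * h^15 * u^4 - (17/186624) * h^15 * u^3 * k + (13/62208) * h^15 * u^3 - (79/373248) * h^15 * u^2 * k + (7/41472) * h^15 * u^2 - (1/124416) * h^14 * u^6 - (31/373248) * h^14 * u^5 - (23/124416) * h^14 * u^4 * k + (203/373248) * h^14 * u^4 - (485/186624) * h^14 * u^3 * k + (2537/373248) * h^14 * u^3 - (349/41472) * h^14 * u^2 * k + (49/5832) * h^14 * u^2 - (1/373248) * h^13 * u^8 * k - (37/373248) * h^13 * u^7 * k - (1/124416) * h^13 * u^7 - (65/46656) * h^13 * u^6 * k - (185/373248)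 * h^13 * u^6 - (3325/373248) * h^13 * u^5 * k - (59/7776) * h^13 * u^5 - (991/41472) * h^13 * u^4 * k - (365/10368) * h^13 * u^4 - (9475/373248) * h^13 * u^3 * k + (85/7776) * h^13 * u^3 - (823/10368) * h^13 * u^2 * k + (47821/373248) * h^13 * u^2 - (125/124416) * h^13 * u * k - (1/373248) * h^12 * u^10 - (47/373248) * h^12 * u^9 - (1/31104) * h^12 * u^8 * k - (895/373248) * h^12 * u^8 - (59/46656) * h^12 * u^7 * k - (8791/373248) * h^12 * u^7 - (7127/373248) * h^12 * u^6 * k - (11935/93312) * h^12 * u^6 - (695/5184) * h^12 * u^5 * k - (76099/186624) * h^12 * u^5 - (12479/31104) * h^12 * u^4 * k - (110239/124416) * h^12 * u^4 - (2833/10368) * h^12 * u^3 * k - (122807/124416) * h^12 * u^3 - (32197/373248) * h^12 * u^2 * k + (269417/373248) * h^12 * u^2 + (1375/46656) * h^12 * u * k - (625/124416) * h^12 * u - (1/41472) * h^11 * u^10 - (451/373248) * h^11 * u^9 - (1/13824) * h^11 * u^8 * k - (1537/62208) * h^11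 * u^8 - (361/124416) * h^11 * u^7 * k - (97513/373248) * h^11 * u^7 - (353/7776) * h^11 * u^6 * k - (555835/373248) * h^11 * u^6 - (14219/41472) * h^11 * u^5 * k - (541909/124416) * h^11 * u^5 - (25129/20736) * h^11 * u^4 * k - (2284543/373248) * h^11 * u^4 - (57347/41472) * h^11 * u^3 * k - (1996397/373248) * h^11 * u^3 + (46697/124416) * h^11 * u^2 * k + (299411/124416) * h^11 * u^2 + (12125/124416) * h^11 * u * k + (60625/373248) * h^11 * u - (1/1536) * h^10 * u^8 - (13/512) * h^10 * u^7 - (1/512) * h^10 * u^6 * k - (1817/4608) * h^10 * u^6 - (1/16) * h^10 * u^5 * k - (13849/4608) * h^10 * u^5 - (1009/1536) * h^10 * u^4 * k - (12457/1152) * h^10 * u^4 - (1679/768) * h^10 * u^3 * k - (7207/576) * h^10 * u^3 + (299/768) * h^10 * u^2 * k + (197/576) * h^10 * u^2 + (243/512) * h^9 * u^3) * hr2 + ((1/124416) * h^12 * u^3 + (17/373248) * h^12 * u^2 + (1/373248) * h^11 * u^6 + (1/13824) * h^11 * u^5 + (245/373248)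 * h^11 * u^4 + (821/373248) * h^11 * u^3 + (835/373248) * h^11 * u^2 + (25/124416) * h^11 * u + (1/41472) * h^10 * u^6 + (271/373248) * h^10 * u^5 + (703/93312) * h^10 * u^4 + (3521/124416) * h^10 * u^3 + (2831/186624) * h^10 * u^2 - (2425/373248) * h^10 * u + (1/1536) * h^9 * u^4 + (19/1536) * h^9 * u^3 + (5/72) * h^9 * u^2) * hr3 + (-(1/373248) * h^13 * u^6 * k^2 + (1/124416) * h^13 * u^5 * k^3 - (5/124416) * h^13 * u^5 * k^2 - (1/124416) * h^13 * u^4 * k^4 + (17/186624) * h^13 * u^4 * k^3 - (11/62208) * h^13 * u^4 * k^2 + (1/373248) * h^13 * u^3 * k^5 - (23/373248) * h^13 * u^3 * k^4 + (1/3456) * h^13 * u^3 * k^3 - (13/62208) * h^13 * u^3 * k^2 + (1/93312) * h^13 * u^2 * k^5 - (41/373248) * h^13 * u^2 * k^4 + (35/186624) * h^13 * u^2 * k^3 + (35/373248) * h^13 * u^2 * k^2 - (1/373248) * h^13 * u * k^5 + (11/373248) * h^13 * u * k^4 - (23/373248) * h^13 * u * k^3 - (1/124416) * h^13 * u * k^2 + (1/1119744)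 * h^12 * u^6 * r * k^3 - (5/124416) * h^12 * u^6 * k^2 - (1/373248) * h^12 * u^5 * r * k^4 + (1/124416) * h^12 * u^5 * r * k^3 + (1/13824) * h^12 * u^5 * k^3 - (253/373248) * h^12 * u^5 * k^2 + (1/373248) * h^12 * u^4 * r * k^5 - (11/559872) * h^12 * u^4 * r * k^4 + (11/559872) * h^12 * u^4 * r * k^3 - (1/41472) * h^12 * u^4 * k^4 + (217/186624) * h^12 * u^4 * k^3 - (635/186624) * h^12 * u^4 * k^2 - (1/1119744) * h^12 * u^3 * r * k^6 + (17/1119744) * h^12 * u^3 * r * k^5 - (5/139968) * h^12 * u^3 * r * k^4 - (1/559872) * h^12 * u^3 * r * k^3 - (1/124416) * h^12 * u^3 * k^5 - (169/373248) * h^12 * u^3 * k^4 + (443/93312) * h^12 * u^3 * k^3 - (323/62208) * h^12 * u^3 * k^2 - (1/279936) * h^12 * u^2 * r * k^6 + (17/1119744) * h^12 * u^2 * r * k^5 - (1/559872) * h^12 * u^2 * r * k^4 - (13/373248) * h^12 * u^2 * r * k^3 - (1/31104) * h^12 * u^2 * k^5 - (523/373248) * h^12 * u^2 * k^4 + (827/186624) * h^12 * u^2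 * k^3 + (197/373248) * h^12 * u^2 * k^2 + (1/1119744) * h^12 * u * r * k^6 - (5/1119744) * h^12 * u * r * k^5 + (1/373248) * h^12 * u * r * k^4 + (1/124416) * h^12 * u * r * k^3 + (1/124416) * h^12 * u * k^5 + (133/373248) * h^12 * u * k^4 - (55/41472) * h^12 * u * k^3 + (79/373248) * h^12 * u * k^2 + (1/186624) * h^11 * u^6 * r * k^3 - (7/41472) * h^11 * u^6 * k^2 - (1/62208) * h^11 * u^5 * r * k^4 + (1/20736) * h^11 * u^5 * r * k^3 + (1/4608) * h^11 * u^5 * k^3 - (371/124416) * h^11 * u^5 * k^2 + (1/62208) * h^11 * u^4 * r * k^5 - (11/93312) * h^11 * u^4 * r * k^4 + (11/93312) * h^11 * u^4 * r * k^3 + (1/13824) * h^11 * u^4 * k^4 + (281/62208) * h^11 * u^4 * k^3 - (973/62208) * h^11 * u^4 * k^2 - (1/186624) * h^11 * u^3 * r * k^6 + (17/186624) * h^11 * u^3 * r * k^5 - (5/23328) * h^11 * u^3 * r * k^4 - (1/93312) * h^11 * u^3 * r * k^3 - (5/41472) * h^11 * u^3 * k^5 - (131/124416) * h^11 * u^3 * k^4 + (643/31104)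 * h^11 * u^3 * k^3 - (529/20736) * h^11 * u^3 * k^2 - (1/46656) * h^11 * u^2 * r * k^6 + (17/186624) * h^11 * u^2 * r * k^5 - (1/93312) * h^11 * u^2 * r * k^4 - (13/62208) * h^11 * u^2 * r * k^3 - (5/10368) * h^11 * u^2 * k^5 - (677/124416) * h^11 * u^2 * k^4 + (1339/62208) * h^11 * u^2 * k^3 + (79/124416) * h^11 * u^2 * k^2 + (1/186624) * h^11 * u * r * k^6 - (5/186624) * h^11 * u * r * k^5 + (1/62208) * h^11 * u * r * k^4 + (1/20736) * h^11 * u * r * k^3 + (5/41472) * h^11 * u * k^5 + (167/124416) * h^11 * u * k^4 - (29/4608) * h^11 * u * k^3 + (185/124416) * h^11 * u * k^2 + (1/124416) * h^10 * u^6 * r * k^3 - (1/4608) * h^10 * u^6 * k^2 - (1/41472) * h^10 * u^5 * r * k^4 + (1/13824) * h^10 * u^5 * r * k^3 + (1/4608) * h^10 * u^5 * k^3 - (163/41472) * h^10 * u^5 * k^2 + (1/41472) * h^10 * u^4 * r * k^5 - (11/62208) * h^10 * u^4 * r * k^4 + (11/62208) * h^10 * u^4 * r * k^3 + (1/4608) * h^10 * u^4 * k^4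 + (115/20736) * h^10 * u^4 * k^3 - (437/20736) * h^10 * u^4 * k^2 - (1/124416) * h^10 * u^3 * r * k^6 + (17/124416) * h^10 * u^3 * r * k^5 - (5/15552) * h^10 * u^3 * r * k^4 - (1/62208) * h^10 * u^3 * r * k^3 - (1/4608) * h^10 * u^3 * k^5 - (31/41472) * h^10 * u^3 * k^4 + (281/10368) * h^10 * u^3 * k^3 - (245/6912) * h^10 * u^3 * k^2 - (1/31104) * h^10 * u^2 * r * k^6 + (17/124416) * h^10 * u^2 * r * k^5 - (1/62208) * h^10 * u^2 * r * k^4 - (13/41472) * h^10 * u^2 * r * k^3 - (1/1152) * h^10 * u^2 * k^5 - (277/41472) * h^10 * u^2 * k^4 + (617/20736) * h^10 * u^2 * k^3 - (13/41472) * h^10 * u^2 * k^2 + (1/124416) * h^10 * u * r * k^6 - (5/124416) * h^10 * u * r * k^5 + (1/41472) * h^10 * u * r * k^4 + (1/13824) * h^10 * u * r * k^3 + (1/4608) * h^10 * u * k^5 + (67/41472) * h^10 * u * k^4 - (119/13824) * h^10 * u * k^3 + (97/41472) * h^10 * u * k^2) * hr4 + ((1/1119744) * h^14 * u^4 + (1/279936) * h^14 * u^3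 - (1/1119744) * h^14 * u^2 + (1/124416) * h^13 * u^7 - (1/124416) * h^13 * u^6 * k + (25/93312) * h^13 * u^6 + (1/124416) * h^13 * u^5 * r + (1/373248) * h^13 * u^5 * k^2 - (89/373248) * h^13 * u^5 * k + (1231/373248) * h^13 * u^5 - (1/373248) * h^13 * u^4 * r * k + (29/373248) * h^13 * u^4 * r + (13/186624) * h^13 * u^4 * k^2 - (461/186624) * h^13 * u^4 * k + (6689/373248) * h^13 * u^4 - (1/93312) * h^13 * u^3 * r * k + (65/373248) * h^13 * u^3 * r + (53/93312) * h^13 * u^3 * k^2 - (1883/186624) * h^13 * u^3 * k + (14989/373248) * h^13 * u^3 + (1/373248) * h^13 * u^2 * r * k - (17/373248) * h^13 * u^2 * r + (239/186624) * h^13 * u^2 * k^2 - (4883/373248) * h^13 * u^2 * k + (8251/373248) * h^13 * u^2 - (125/373248) * h^13 * u * k^2 + (1375/373248) * h^13 * u * k - (2875/373248) * h^13 * u + (1/1119744) * h^12 * u^8 * r - (1/373248) * h^12 * u^7 * r * k + (31/1119744) * h^12 * u^7 * r + (1/13824) * h^12 * u^7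 + (1/373248) * h^12 * u^6 * r * k^2 - (11/139968) * h^12 * u^6 * r * k + (43/139968) * h^12 * u^6 * r - (1/41472) * h^12 * u^6 * k + (257/93312) * h^12 * u^6 - (1/1119744) * h^12 * u^5 * r * k^3 + (83/1119744) * h^12 * u^5 * r * k^2 - (899/1119744) * h^12 * u^5 * r * k + (527/373248) * h^12 * u^5 * r - (1/124416) * h^12 * u^5 * k^2 - (367/373248) * h^12 * u^5 * k + (14695/373248) * h^12 * u^5 - (13/559872) * h^12 * u^4 * r * k^3 + (383/559872) * h^12 * u^4 * r * k^2 - (899/279936) * h^12 * u^4 * r * k + (2839/1119744) * h^12 * u^4 * r - (13/62208) * h^12 * u^4 * k^2 - (2683/186624) * h^12 * u^4 * k + (47459/186624) * h^12 * u^4 - (53/279936) * h^12 * u^3 * r * k^3 + (1247/559872) * h^12 * u^3 * r * k^2 - (4897/1119744) * h^12 * u^3 * r * k - (41/1119744) * h^12 * u^3 * r - (53/31104) * h^12 * u^3 * k^2 - (16249/186624) * h^12 * u^3 * k + (257513/373248) * h^12 * u^3 - (239/559872) * h^12 * u^2 * r * k^3 +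 (2015/1119744) * h^12 * u^2 * r * k^2 - (55/279936) * h^12 * u^2 * r * k - (617/139968) * h^12 * u^2 * r - (239/62208) * h^12 * u^2 * k^2 - (62449/373248) * h^12 * u^2 * k + (97915/186624) * h^12 * u^2 + (125/1119744) * h^12 * u * r * k^3 - (625/1119744) * h^12 * u * r * k^2 + (125/373248) * h^12 * u * r * k + (125/124416) * h^12 * u * r + (125/124416) * h^12 * u * k^2 + (16625/373248) * h^12 * u * k - (6875/41472) * h^12 * u + (1/186624) * h^11 * u^8 * r - (1/62208) * h^11 * u^7 * r * k + (31/186624) * h^11 * u^7 * r + (1/4608) * h^11 * u^7 + (1/62208) * h^11 * u^6 * r * k^2 - (11/23328) * h^11 * u^6 * r * k + (679/373248) * h^11 * u^6 * r + (1/13824) * h^11 * u^6 * k + (289/31104) * h^11 * u^6 - (1/186624) * h^11 * u^5 * r * k^3 + (83/186624) * h^11 * u^5 * r * k^2 - (899/186624) * h^11 * u^5 * r * k + (461/62208) * h^11 * u^5 * r - (5/41472) * h^11 * u^5 * k^2 + (67/124416) * h^11 * u^5 * k + (18311/124416)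 * h^11 * u^5 - (13/93312) * h^11 * u^4 * r * k^3 + (383/93312) * h^11 * u^4 * r * k^2 - (3623/186624) * h^11 * u^4 * r * k + (263/93312) * h^11 * u^4 * r - (65/20736) * h^11 * u^4 * k^2 - (1217/62208) * h^11 * u^4 * k + (64783/62208) * h^11 * u^4 - (53/46656) * h^11 * u^3 * r * k^3 + (1247/93312) * h^11 * u^3 * r * k^2 - (5005/186624) * h^11 * u^3 * r * k - (6251/186624) * h^11 * u^3 * r - (265/10368) * h^11 * u^3 * k^2 - (15551/62208) * h^11 * u^3 * k + (379849/124416) * h^11 * u^3 - (239/93312) * h^11 * u^2 * r * k^3 + (2015/186624) * h^11 * u^2 * r * k^2 - (193/186624) * h^11 * u^2 * r * k - (6677/373248) * h^11 * u^2 * r - (1195/20736) * h^11 * u^2 * k^2 - (80951/124416) * h^11 * u^2 * k + (158735/62208) * h^11 * u^2 + (125/186624) * h^11 * u * r * k^3 - (625/186624) * h^11 * u * r * k^2 + (125/62208) * h^11 * u * r * k + (125/20736) * h^11 * u * r + (625/41472) * h^11 * u * k^2 + (20875/124416) * h^11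 * u * k - (3625/4608) * h^11 * u + (1/124416) * h^10 * u^8 * r - (1/41472) * h^10 * u^7 * r * k + (31/124416) * h^10 * u^7 * r + (1/4608) * h^10 * u^7 + (1/41472) * h^10 * u^6 * r * k^2 - (11/15552) * h^10 * u^6 * r * k + (163/62208) * h^10 * u^6 * r + (1/4608) * h^10 * u^6 * k + (107/10368) * h^10 * u^6 - (1/124416) * h^10 * u^5 * r * k^3 + (83/124416) * h^10 * u^5 * r * k^2 - (899/124416) * h^10 * u^5 * r * k + (299/41472) * h^10 * u^5 * r - (1/4608) * h^10 * u^5 * k^2 + (167/41472) * h^10 * u^5 * k + (7309/41472) * h^10 * u^5 - (13/62208) * h^10 * u^4 * r * k^3 + (383/62208) * h^10 * u^4 * r * k^2 - (935/31104) * h^10 * u^4 * r * k - (5369/124416) * h^10 * u^4 * r - (13/2304) * h^10 * u^4 * k^2 + (83/20736) * h^10 * u^4 * k + (54631/41472) * h^10 * u^4 - (53/31104) * h^10 * u^3 * r * k^3 + (1247/62208) * h^10 * u^3 * r * k^2 - (5473/124416) * h^10 * u^3 * r * k - (22541/124416) * h^10 * u^3 * r - (53/1152)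 * h^10 * u^3 * k^2 - (4951/20736) * h^10 * u^3 * k + (166967/41472) * h^10 * u^3 - (239/62208) * h^10 * u^2 * r * k^3 + (2015/124416) * h^10 * u^2 * r * k^2 - (19/31104) * h^10 * u^2 * r * k + (421/62208) * h^10 * u^2 * r - (239/2304) * h^10 * u^2 * k^2 - (33151/41472) * h^10 * u^2 * k + (146477/41472) * h^10 * u^2 + (125/124416) * h^10 * u * r * k^3 - (625/124416) * h^10 * u * r * k^2 + (125/41472) * h^10 * u * r * k + (125/13824) * h^10 * u * r + (125/4608) * h^10 * u * k^2 + (8375/41472) * h^10 * u * k - (14875/13824) * h^10 * u - (1/4608) * h^9 * u^6 * r - (35/4608) * h^9 * u^5 * r - (1/512) * h^9 * u^4 * r * k - (427/4608) * h^9 * u^4 * r - (3/512) * h^9 * u^4 - (1/128) * h^9 * u^3 * r * k - (395/1536) * h^9 * u^3 * r - (3/128) * h^9 * u^3 + (1/512) * h^9 * u^2 * r * k + (19/288) * h^9 * u^2 * r + (3/512) * h^9 * u^2) * hr5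
  rw [← key]; ring

set_option maxHeartbeats 1000000 in
theorem x015_cert_E2 (h u r k : ℚ)
    (hr1 : r*(u^2+4*u-1) - (h^2+18*h-27) = 0) (hr2 : k*(h+3) - (u^2+10*u+5) = 0)
    (hr3 : u*(h+27)*(h+3)^3 - h*(u^2+10*u+5)^3 = 0) (hr4 : r^2*u - h*(u^2+22*u+125) = 0)
    (hr5 : k^3*h - u*(h+27) = 0) :
    (h^10 * u^2 * (u^2+4*u-1) * (h+3)^2) * (729 * vFun h u r k * aFun h u r k ^ 2 - h) = 0 := by
  have key : (h^12 * u^4 + 4 * h^12 * u^3 - h^12 * u^2 + 6 * h^11 * u^4 + 24 * h^11 * u^3 - 6 * h^11 * u^2 + 9 * h^10 * u^4 + 36 * h^10 * u^3 - 9 * h^10 * u^2) * (729 * vFun h u r k * aFun h u r k ^ 2 - h) = 0 := by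
    unfold vFun aFun
    linear_combination (-(1/4608) * h^14 * u^5 * k + (1/1536) * h^14 * u^4 * k^2 - (13/4608) * h^14 * u^4 * k - (1/1536) * h^14 * u^4 + (13/2304) * h^14 * u^3 * k^2 - (19/2304) * h^14 * u^3 * k - (13/4608) * h^14 * u^3 + (13/1536) * h^14 * u^2 * k^2 + (5/4608) * h^14 * u^2 * k - (1/13824) * h^13 * u^7 + (1/4608) * h^13 * u^6 * k - (23/13824) * h^13 * u^6 - (1/4608) * h^13 * u^5 * k^2 - (1/3456) * h^13 * u^5 * k - (47/4608) * h^13 * u^5 + (41/13824) * h^13 * u^4 * k^2 - (11/256) * h^13 * u^4 * k - (239/13824) * h^13 * u^4 + (899/13824) * h^13 * u^3 * k^2 - (3487/13824) * h^13 * u^3 * k - (73/1536) * h^13 * u^3 + (3511/13824) * h^13 * u^2 * k^2 - (1057/13824) * h^13 * u^2 * k - (125/4608) * h^13 * u^2 - (11/4608) * h^12 * u^7 + (11/1536) * h^12 * u^6 * k - (253/4608) * h^12 * u^6 - (11/1536) * h^12 * u^5 * k^2 + (275/2304) * h^12 * u^5 * k - (257/768) * h^12 * u^5 - (683/4608) * h^12 * u^4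 * k^2 + (45/128) * h^12 * u^4 * k + (101/1152) * h^12 * u^4 - (2531/4608) * h^12 * u^3 * k^2 - (2603/1152) * h^12 * u^3 * k + (783/512) * h^12 * u^3 + (8759/4608) * h^12 * u^2 * k^2 - (12005/4608) * h^12 * u^2 * k - (1375/1536) * h^12 * u^2 - (19/1536) * h^11 * u^7 + (19/512) * h^11 * u^6 * k - (437/1536) * h^11 * u^6 - (19/512) * h^11 * u^5 * k^2 + (269/384) * h^11 * u^5 * k - (215/128) * h^11 * u^5 - (1381/1536) * h^11 * u^4 * k^2 + (759/256) * h^11 * u^4 * k + (491/192) * h^11 * u^4 - (6823/1536) * h^11 * u^3 * k^2 - (5501/768) * h^11 * u^3 * k + (12219/512) * h^11 * u^3 + (8389/1536) * h^11 * u^2 * k^2 - (20659/1536) * h^11 * u^2 * k - (2375/512) * h^11 * u^2 - (9/512) * h^10 * u^7 + (27/512) * h^10 * u^6 * k - (207/512) * h^10 * u^6 - (27/512) * h^10 * u^5 * k^2 + (531/512) * h^10 * u^5 * k - (549/256) * h^10 * u^5 - (171/128) * h^10 * u^4 * k^2 + (2457/512) * h^10 * u^4 * k + (5823/512) * h^10 * u^4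 - (3627/512) * h^10 * u^3 * k^2 - (1503/256) * h^10 * u^3 * k + (25065/256) * h^10 * u^3 + (1395/256) * h^10 * u^2 * k^2 - (2439/128) * h^10 * u^2 * k - (3375/512) * h^10 * u^2 + (243/512) * h^9 * u^5 + (7533/512) * h^9 * u^4 + (2187/512) * h^9 * u^3 * k + (15795/128) * h^9 * u^3) * hr1 + (-(1/4608) * h^15 * u^5 + (1/1536) * h^15 * u^4 * k - (13/4608) * h^15 * u^4 + (13/2304) * h^15 * u^3 * k - (19/2304) * h^15 * u^3 + (13/1536) * h^15 * u^2 * k + (5/4608) * h^15 * u^2 + (1/1536) * h^14 * u^6 + (23/4608) * h^14 * u^5 + (23/1536) * h^14 * u^4 * k - (167/4608) * h^14 * u^4 + (119/768) * h^14 * u^3 * k - (451/1536) * h^14 * u^3 + (583/1536) * h^14 * u^2 * k - (11/1152) * h^14 * u^2 + (1/4608) * h^13 * u^8 * k + (11/1536) * h^13 * u^7 * k + (1/1536) * h^13 * u^7 + (49/576) * h^13 * u^6 * k + (181/4608) * h^13 * u^6 + (1849/4608) * h^13 * u^5 * k + (19/36) * h^13 * u^5 + (1871/4608) * h^13 * u^4 * k + (2357/1152)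 * h^13 * u^4 - (369/512) * h^13 * u^3 * k - (323/288) * h^13 * u^3 + (1703/384) * h^13 * u^2 * k - (9689/4608) * h^13 * u^2 + (875/4608) * h^13 * u * k + (1/4608) * h^12 * u^10 + (43/4608) * h^12 * u^9 + (1/384) * h^12 * u^8 * k + (727/4608) * h^12 * u^8 + (17/192) * h^12 * u^7 * k + (2005/1536) * h^12 * u^7 + (1693/1536) * h^12 * u^6 * k + (1573/288) * h^12 * u^6 + (1093/192) * h^12 * u^5 * k + (28691/2304) * h^12 * u^5 + (2689/384) * h^12 * u^4 * k + (121957/4608) * h^12 * u^4 - (8893/384) * h^12 * u^3 * k + (143597/4608) * h^12 * u^3 - (1201/1536) * h^12 * u^2 * k - (165133/4608) * h^12 * u^2 + (875/192) * h^12 * u * k + (4375/4608) * h^12 * u + (1/512) * h^11 * u^10 + (133/1536) * h^11 * u^9 + (3/512) * h^11 * u^8 * k + (391/256) * h^11 * u^8 + (103/512) * h^11 * u^7 * k + (20411/1536) * h^11 * u^7 + (83/32) * h^11 * u^6 * k + (85645/1536) * h^11 * u^6 + (7759/512) * h^11 * u^5 * k + (41623/512) * h^11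 * u^5 + (8893/256) * h^11 * u^4 * k - (44095/1536) * h^11 * u^4 - (4153/512) * h^11 * u^3 * k + (144767/1536) * h^11 * u^3 - (29107/512) * h^11 * u^2 * k - (73233/512) * h^11 * u^2 + (6125/512) * h^11 * u * k + (30625/1536) * h^11 * u + (27/512) * h^10 * u^8 + (1053/512) * h^10 * u^7 + (81/512) * h^10 * u^6 * k + (15957/512) * h^10 * u^6 + (81/16) * h^10 * u^5 * k + (115209/512) * h^10 * u^5 + (26163/512) * h^10 * u^4 * k + (11907/16) * h^10 * u^4 + (39285/256) * h^10 * u^3 * k + (48357/64) * h^10 * u^3 - (18549/256) * h^10 * u^2 * k - (459/4) * h^10 * u^2 - (19683/512) * h^9 * u^3) * hr2 + (-(1/1536) * h^12 * u^3 - (13/4608) * h^12 * u^2 - (1/4608) * h^11 * u^6 - (23/4608) * h^11 * u^5 - (157/4608) * h^11 * u^4 - (245/4608) * h^11 * u^3 + (137/4608) * h^11 * u^2 - (175/4608) * h^11 * u - (1/512) * h^10 * u^6 - (73/1536) * h^10 * u^5 - (139/384) * h^10 * u^4 - (961/1536) * h^10 * u^3 + (1433/768) * h^10 *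 u^2 - (1225/1536) * h^10 * u - (27/512) * h^9 * u^4 - (513/512) * h^9 * u^3 - (621/128) * h^9 * u^2) * hr3 + ((1/4608) * h^13 * u^6 * k^2 - (1/1536) * h^13 * u^5 * k^3 + (11/4608) * h^13 * u^5 * k^2 + (1/1536) * h^13 * u^4 * k^4 - (13/2304) * h^13 * u^4 * k^3 + (13/2304) * h^13 * u^4 * k^2 - (1/4608) * h^13 * u^3 * k^5 + (19/4608) * h^13 * u^3 * k^4 - (13/1152) * h^13 * u^3 * k^3 - (1/256) * h^13 * u^3 * k^2 - (1/1152) * h^13 * u^2 * k^5 + (25/4608) * h^13 * u^2 * k^4 + (1/256) * h^13 * u^2 * k^3 - (3/512) * h^13 * u^2 * k^2 + (1/4608) * h^13 * u * k^5 - (7/4608) * h^13 * u * k^4 - (1/4608) * h^13 * u * k^3 + (7/4608) * h^13 * u * k^2 - (1/13824) * h^12 * u^6 * r * k^3 + (5/1536) * h^12 * u^6 * k^2 + (1/4608) * h^12 * u^5 * r * k^4 - (5/13824) * h^12 * u^5 * r * k^3 - (3/512) * h^12 * u^5 * k^3 + (59/1536) * h^12 * u^5 * k^2 - (1/4608) * h^12 * u^4 * r * k^5 + (7/6912) * h^12 * u^4 * r * k^4 + (1/6912) * h^12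 * u^4 * r * k^3 + (1/512) * h^12 * u^4 * k^4 - (55/768) * h^12 * u^4 * k^3 + (85/768) * h^12 * u^4 * k^2 + (1/13824) * h^12 * u^3 * r * k^6 - (13/13824) * h^12 * u^3 * r * k^5 + (1/768) * h^12 * u^3 * r * k^3 + (1/1536) * h^12 * u^3 * k^5 + (47/1536) * h^12 * u^3 * k^4 - (79/384) * h^12 * u^3 * k^3 - (13/768) * h^12 * u^3 * k^2 + (1/3456) * h^12 * u^2 * r * k^6 - (1/13824) * h^12 * u^2 * r * k^5 - (11/6912) * h^12 * u^2 * r * k^4 - (17/13824) * h^12 * u^2 * r * k^3 + (1/384) * h^12 * u^2 * k^5 + (137/1536) * h^12 * u^2 * k^4 - (7/256) * h^12 * u^2 * k^3 - (271/1536) * h^12 * u^2 * k^2 - (1/13824) * h^12 * u * r * k^6 + (1/13824) * h^12 * u * r * k^5 + (5/13824) * h^12 * u * r * k^4 + (1/4608) * h^12 * u * r * k^3 - (1/1536) * h^12 * u * k^5 - (35/1536) * h^12 * u * k^4 + (29/1536) * h^12 * u * k^3 + (21/512) * h^12 * u * k^2 - (1/2304) * h^11 * u^6 * r * k^3 + (7/512) * h^11 * u^6 * k^2 + (1/768) * h^11 *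 u^5 * r * k^4 - (5/2304) * h^11 * u^5 * r * k^3 - (9/512) * h^11 * u^5 * k^3 + (85/512) * h^11 * u^5 * k^2 - (1/768) * h^11 * u^4 * r * k^5 + (7/1152) * h^11 * u^4 * r * k^4 + (1/1152) * h^11 * u^4 * r * k^3 - (3/512) * h^11 * u^4 * k^4 - (71/256) * h^11 * u^4 * k^3 + (131/256) * h^11 * u^4 * k^2 + (1/2304) * h^11 * u^3 * r * k^6 - (13/2304) * h^11 * u^3 * r * k^5 + (1/128) * h^11 * u^3 * r * k^3 + (5/512) * h^11 * u^3 * k^5 + (37/512) * h^11 * u^3 * k^4 - (119/128) * h^11 * u^3 * k^3 + (1/256) * h^11 * u^3 * k^2 + (1/576) * h^11 * u^2 * r * k^6 - (1/2304) * h^11 * u^2 * r * k^5 - (11/1152) * h^11 * u^2 * r * k^4 - (17/2304) * h^11 * u^2 * r * k^3 + (5/128) * h^11 * u^2 * k^5 + (199/512) * h^11 * u^2 * k^4 - (69/256) * h^11 * u^2 * k^3 - (461/512) * h^11 * u^2 * k^2 - (1/2304) * h^11 * u * r * k^6 + (1/2304) * h^11 * u * r * k^5 + (5/2304) * h^11 * u * r * k^4 + (1/768) * h^11 * u * r * k^3 - (5/512) * h^11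 * u * k^5 - (49/512) * h^11 * u * k^4 + (61/512) * h^11 * u * k^3 + (105/512) * h^11 * u * k^2 - (1/1536) * h^10 * u^6 * r * k^3 + (9/512) * h^10 * u^6 * k^2 + (1/512) * h^10 * u^5 * r * k^4 - (5/1536) * h^10 * u^5 * r * k^3 - (9/512) * h^10 * u^5 * k^3 + (111/512) * h^10 * u^5 * k^2 - (1/512) * h^10 * u^4 * r * k^5 + (7/768) * h^10 * u^4 * r * k^4 + (1/768) * h^10 * u^4 * r * k^3 - (9/512) * h^10 * u^4 * k^4 - (87/256) * h^10 * u^4 * k^3 + (177/256) * h^10 * u^4 * k^2 + (1/1536) * h^10 * u^3 * r * k^6 - (13/1536) * h^10 * u^3 * r * k^5 + (3/256) * h^10 * u^3 * r * k^3 + (9/512) * h^10 * u^3 * k^5 + (27/512) * h^10 * u^3 * k^4 - (159/128) * h^10 * u^3 * k^3 + (15/256) * h^10 * u^3 * k^2 + (1/384) * h^10 * u^2 * r * k^6 - (1/1536) * h^10 * u^2 * r * k^5 - (11/768) * h^10 * u^2 * r * k^4 - (17/1536) * h^10 * u^2 * r * k^3 + (9/128) * h^10 * u^2 * k^5 + (261/512) * h^10 * u^2 * k^4 - (117/256) * h^10 * u^2 *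 k^3 - (651/512) * h^10 * u^2 * k^2 - (1/1536) * h^10 * u * r * k^6 + (1/1536) * h^10 * u * r * k^5 + (5/1536) * h^10 * u * r * k^4 + (1/512) * h^10 * u * r * k^3 - (9/512) * h^10 * u * k^5 - (63/512) * h^10 * u * k^4 + (93/512) * h^10 * u * k^3 + (147/512) * h^10 * u * k^2) * hr4 + (-(1/13824) * h^14 * u^4 - (1/3456) * h^14 * u^3 + (1/13824) * h^14 * u^2 - (1/1536) * h^13 * u^7 + (1/1536) * h^13 * u^6 * k - (23/1152) * h^13 * u^6 - (1/1536) * h^13 * u^5 * r - (1/4608) * h^13 * u^5 * k^2 + (85/4608) * h^13 * u^5 * k - (111/512) * h^13 * u^5 + (1/4608) * h^13 * u^4 * r * k - (25/4608) * h^13 * u^4 * r - (13/2304) * h^13 * u^4 * k^2 + (409/2304) * h^13 * u^4 * k - (4369/4608) * h^13 * u^4 + (1/1152) * h^13 * u^3 * r * k - (49/4608) * h^13 * u^3 * r - (53/1152) * h^13 * u^3 * k^2 + (1459/2304) * h^13 * u^3 * k - (6077/4608) * h^13 * u^3 - (1/4608) * h^13 * u^2 * r * k + (13/4608) * h^13 * u^2 * r - (239/2304)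 * h^13 * u^2 * k^2 + (2971/4608) * h^13 * u^2 * k + (2221/4608) * h^13 * u^2 + (125/4608) * h^13 * u * k^2 - (875/4608) * h^13 * u * k - (125/4608) * h^13 * u - (1/13824) * h^12 * u^8 * r + (1/4608) * h^12 * u^7 * r * k - (1/512) * h^12 * u^7 * r - (3/512) * h^12 * u^7 - (1/4608) * h^12 * u^6 * r * k^2 + (5/864) * h^12 * u^6 * r * k - (29/1728) * h^12 * u^6 * r + (1/512) * h^12 * u^6 * k - (77/384) * h^12 * u^6 + (1/13824) * h^12 * u^5 * r * k^3 - (79/13824) * h^12 * u^5 * r * k^2 + (683/13824) * h^12 * u^5 * r * k - (179/4608) * h^12 * u^5 * r + (1/1536) * h^12 * u^5 * k^2 + (113/1536) * h^12 * u^5 * k - (1287/512) * h^12 * u^5 + (13/6912) * h^12 * u^4 * r * k^3 - (331/6912) * h^12 * u^4 * r * k^2 + (47/384) * h^12 * u^4 * r * k + (553/13824) * h^12 * u^4 * r + (13/768) * h^12 * u^4 * k^2 + (773/768) * h^12 * u^4 * k - (3459/256) * h^12 * u^4 + (53/3456) * h^12 * u^3 * r * k^3 - (823/6912) * h^12 * u^3 *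 r * k^2 - (623/13824) * h^12 * u^3 * r * k + (1205/13824) * h^12 * u^3 * r + (53/384) * h^12 * u^3 * k^2 + (4427/768) * h^12 * u^3 * k - (40435/1536) * h^12 * u^3 + (239/6912) * h^12 * u^2 * r * k^3 - (103/13824) * h^12 * u^2 * r * k^2 - (217/1152) * h^12 * u^2 * r * k - (79/576) * h^12 * u^2 * r + (239/768) * h^12 * u^2 * k^2 + (16355/1536) * h^12 * u^2 * k - (767/256) * h^12 * u^2 - (125/13824) * h^12 * u * r * k^3 + (125/13824) * h^12 * u * r * k^2 + (625/13824) * h^12 * u * r * k + (125/4608) * h^12 * u * r - (125/1536) * h^12 * u * k^2 - (4375/1536) * h^12 * u * k + (3625/1536) * h^12 * u - (1/2304) * h^11 * u^8 * r + (1/768) * h^11 * u^7 * r * k - (3/256) * h^11 * u^7 * r - (9/512) * h^11 * u^7 - (1/768) * h^11 * u^6 * r * k^2 + (5/144) * h^11 * u^6 * r * k - (455/4608) * h^11 * u^6 * r - (3/512) * h^11 * u^6 * k - (85/128) * h^11 * u^6 + (1/2304) * h^11 * u^5 * r * k^3 - (79/2304) * h^11 * u^5 * r *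 k^2 + (683/2304) * h^11 * u^5 * r * k - (113/768) * h^11 * u^5 * r + (5/512) * h^11 * u^5 * k^2 - (29/512) * h^11 * u^5 * k - (4725/512) * h^11 * u^5 + (13/1152) * h^11 * u^4 * r * k^3 - (331/1152) * h^11 * u^4 * r * k^2 + (191/256) * h^11 * u^4 * r * k + (1307/1152) * h^11 * u^4 * r + (65/256) * h^11 * u^4 * k^2 + (319/256) * h^11 * u^4 * k - (14189/256) * h^11 * u^4 + (53/576) * h^11 * u^3 * r * k^3 - (823/1152) * h^11 * u^3 * r * k^2 - (515/2304) * h^11 * u^3 * r * k + (6407/2304) * h^11 * u^3 * r + (265/128) * h^11 * u^3 * k^2 + (4477/256) * h^11 * u^3 * k - (62547/512) * h^11 * u^3 + (239/1152) * h^11 * u^2 * r * k^3 - (103/2304) * h^11 * u^2 * r * k^2 - (877/768) * h^11 * u^2 * r * k - (2161/1536) * h^11 * u^2 * r + (1195/256) * h^11 * u^2 * k^2 + (23797/512) * h^11 * u^2 * k - (7945/256) * h^11 * u^2 - (125/2304) * h^11 * u * r * k^3 + (125/2304) * h^11 * u * r * k^2 + (625/2304) * h^11 * u * r * k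 + (125/768) * h^11 * u * r - (625/512) * h^11 * u * k^2 - (6125/512) * h^11 * u * k + (7625/512) * h^11 * u - (1/1536) * h^10 * u^8 * r + (1/512) * h^10 * u^7 * r * k - (9/512) * h^10 * u^7 * r - (9/512) * h^10 * u^7 - (1/512) * h^10 * u^6 * r * k^2 + (5/96) * h^10 * u^6 * r * k - (107/768) * h^10 * u^6 * r - (9/512) * h^10 * u^6 * k - (93/128) * h^10 * u^6 + (1/1536) * h^10 * u^5 * r * k^3 - (79/1536) * h^10 * u^5 * r * k^2 + (683/1536) * h^10 * u^5 * r * k + (49/512) * h^10 * u^5 * r + (9/512) * h^10 * u^5 * k^2 - (171/512) * h^10 * u^5 * k - (5589/512) * h^10 * u^5 + (13/768) * h^10 * u^4 * r * k^3 - (331/768) * h^10 * u^4 * r * k^2 + (153/128) * h^10 * u^4 * r * k + (7897/1536) * h^10 * u^4 * r + (117/256) * h^10 * u^4 * k^2 - (135/256) * h^10 * u^4 * k - (35895/512) * h^10 * u^4 + (53/384) * h^10 * u^3 * r * k^3 - (823/768) * h^10 * u^3 * r * k^2 - (47/1536) * h^10 * u^3 * r * k + (20249/1536) * h^10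 * u^3 * r + (477/128) * h^10 * u^3 * k^2 + (4527/256) * h^10 * u^3 * k - (84231/512) * h^10 * u^3 + (239/768) * h^10 * u^2 * r * k^3 - (103/1536) * h^10 * u^2 * r * k^2 - (229/128) * h^10 * u^2 * r * k - (1135/256) * h^10 * u^2 * r + (2151/256) * h^10 * u^2 * k^2 + (31239/512) * h^10 * u^2 * k - (27285/512) * h^10 * u^2 - (125/1536) * h^10 * u * r * k^3 + (125/1536) * h^10 * u * r * k^2 + (625/1536) * h^10 * u * r * k + (125/512) * h^10 * u * r - (1125/512) * h^10 * u * k^2 - (7875/512) * h^10 * u * k + (11625/512) * h^10 * u + (9/512) * h^9 * u^6 * r + (315/512) * h^9 * u^5 * r + (81/512) * h^9 * u^4 * r * k + (3447/512) * h^9 * u^4 * r + (243/512) * h^9 * u^4 + (81/128) * h^9 * u^3 * r * k + (9081/512) * h^9 * u^3 * r + (243/128) * h^9 * u^3 - (81/512) * h^9 * u^2 * r * k - (585/128) * h^9 * u^2 * r - (243/512) * h^9 * u^2) * hr5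
  rw [← key]; ring

theorem rat_sq_ne_five (x : ℚ) : x ^ 2 ≠ 5 := by
  intro hx
  have h5 : Irrational (√5) := by
    have : Nat.Prime 5 := by norm_num
    simpa using this.irrational_sqrt
  have h1 : ((|x| : ℚ) : ℝ) = √5 := by
    have h2 : ((|x| : ℚ) : ℝ) ^ 2 = 5 := by
      have : (|x| : ℚ) ^ 2 = 5 := by rw [sq_abs]; exact hx
      exact_mod_cast this
    have h3 : (0 : ℝ) ≤ ((|x| : ℚ) : ℝ) := by exact_mod_cast abs_nonneg x
    rw [← Real.sqrt_sq h3, h2]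
  exact h5 ⟨|x|, h1⟩

theorem x015_den1_ne_zero (u : ℚ) : u ^ 2 + 4 * u - 1 ≠ 0 := by
  intro h
  exact rat_sq_ne_five (u + 2) (by linear_combination h)

theorem x015_den2_ne_zero (u : ℚ) : u ^ 2 + 10 * u + 5 ≠ 0 := by
  intro h
  exact rat_sq_ne_five ((u + 5) / 2) (by linear_combination h / 4)

/-- Rational points of the plane model of `X₀(15)`, given the rational points of
`Y² = X (X + 9) (X - 16)`. -/
theorem x015_rational_points_of
    (hT7 : ∀ X Y : ℚ, Y ^ 2 = X * (X + 9) * (X - 16) →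
      (X = 0 ∧ Y = 0) ∨ (X = -9 ∧ Y = 0) ∨ (X = 16 ∧ Y = 0) ∨ (X = 36 ∧ Y = 180) ∨
      (X = 36 ∧ Y = -180) ∨ (X = -4 ∧ Y = 20) ∨ (X = -4 ∧ Y = -20))
    (h u : ℚ) (hh : h ≠ 0) (hu : u ≠ 0)
    (H : u * ((h + 27) * (h + 3) ^ 3) = h * (u ^ 2 + 10 * u + 5) ^ 3) :
    (h + 27) * (h + 3) ^ 3 / h = -25 / 2 ∨ (h + 27) * (h + 3) ^ 3 / h = -349938025 / 8 ∨
      (h + 27) * (h + 3) ^ 3 / h = -121945 / 32 ∨
      (h + 27) * (h + 3) ^ 3 / h = 46969655 / 32768 := by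
  have h1 : u ^ 2 + 4 * u - 1 ≠ 0 := x015_den1_ne_zero u
  have h2' : u ^ 2 + 10 * u + 5 ≠ 0 := x015_den2_ne_zero u
  have h2 : h + 3 ≠ 0 := by
    intro h3
    have h3' : h = -3 := by linarith
    rw [h3'] at H
    have : (u ^ 2 + 10 * u + 5) ^ 3 = 0 := by linarith
    exact h2' (pow_eq_zero_iff (by norm_num) |>.mp this)
  set r : ℚ := (h ^ 2 + 18 * h - 27) / (u ^ 2 + 4 * u - 1) with hr
  set k : ℚ := (u ^ 2 + 10 * u + 5) / (h + 3) with hk
  have hr1 : r * (u ^ 2 + 4 * u - 1) - (h ^ 2 + 18 * h - 27) = 0 := by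
    rw [hr, div_mul_cancel₀ _ h1]; ring
  have hr2 : k * (h + 3) - (u ^ 2 + 10 * u + 5) = 0 := by
    rw [hk, div_mul_cancel₀ _ h2]; ring
  have hr3 : u * (h + 27) * (h + 3) ^ 3 - h * (u ^ 2 + 10 * u + 5) ^ 3 = 0 := by
    linear_combination H
  have hr5 : k ^ 3 * h - u * (h + 27) = 0 := by
    have h3 : (h + 3) ^ 3 ≠ 0 := pow_ne_zero _ h2
    apply mul_left_cancel₀ h3
    have e2 : u ^ 2 + 10 * u + 5 = k * (h + 3) := by linear_combination -hr2
    rw [e2] at hr3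
    linear_combination -hr3
  have hr4 : r ^ 2 * u - h * (u ^ 2 + 22 * u + 125) = 0 := by
    have h3 : (u ^ 2 + 4 * u - 1) ^ 2 ≠ 0 := pow_ne_zero _ h1
    apply mul_left_cancel₀ h3
    have e1 : h ^ 2 + 18 * h - 27 = r * (u ^ 2 + 4 * u - 1) := by linear_combination -hr1
    have e3 : u * (h ^ 2 + 18 * h - 27) ^ 2
        - h * (u ^ 2 + 4 * u - 1) ^ 2 * (u ^ 2 + 22 * u + 125) = 0 := by
      linear_combination hr3
    rw [e1] at e3
    linear_combination e3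
  have hM : h ^ 10 * u ^ 2 * (u ^ 2 + 4 * u - 1) * (h + 3) ^ 2 ≠ 0 :=
    mul_ne_zero (mul_ne_zero (mul_ne_zero (pow_ne_zero 10 hh) (pow_ne_zero 2 hu)) h1)
      (pow_ne_zero 2 h2)
  set v : ℚ := vFun h u r k with hv
  set a : ℚ := aFun h u r k with ha
  have E1 : a ^ 2 - a * (1 + 5 * v + 9 * v ^ 2) - v ^ 2 = 0 :=
    (mul_eq_zero.mp (x015_cert_E1 h u r k hr1 hr2 hr3 hr4 hr5)).resolve_left hM
  have E2 : 729 * v * a ^ 2 - h = 0 :=
    (mul_eq_zero.mp (x015_cert_E2 h u r k hr1 hr2 hr3 hr4 hr5)).resolve_left hM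
  have hXY : (72 * (9 * a + 1) * v + 180 * a) ^ 2 = (36 * a) * (36 * a + 9) * (36 * a - 16) := by
    linear_combination (-5184 * (9 * a + 1)) * E1
  have hh' : h = 729 * v * a ^ 2 := by linear_combination -E2
  rcases hT7 _ _ hXY with ⟨hX, hY⟩ | ⟨hX, hY⟩ | ⟨hX, hY⟩ | ⟨hX, hY⟩ | ⟨hX, hY⟩ | ⟨hX, hY⟩ | ⟨hX, hY⟩
  · -- X = 0 : a = 0, h = 0
    exfalso
    have ha0 : a = 0 := by linarith
    rw [ha0] at hh'
    exact hh (by rw [hh']; ring)
  · -- X = -9, Y = 0 : a = -1/4, v = -1/2, h = -729/32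
    have ha0 : a = -1 / 4 := by linarith
    rw [ha0] at hY hh'
    have hv0 : v = -1 / 2 := by linarith
    rw [hv0] at hh'
    have : h = -729 / 32 := by rw [hh']; norm_num
    right; right; right
    rw [this]; norm_num
  · -- X = 16, Y = 0 : a = 4/9, v = -2/9, h = -32
    have ha0 : a = 4 / 9 := by linarith
    rw [ha0] at hY hh'
    have hv0 : v = -2 / 9 := by linarith
    rw [hv0] at hh'
    have : h = -32 := by rw [hh']; norm_num
    right; right; left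
    rw [this]; norm_num
  · -- X = 36, Y = 180 : a = 1, v = 0, h = 0
    exfalso
    have ha0 : a = 1 := by linarith
    rw [ha0] at hY hh'
    have hv0 : v = 0 := by linarith
    rw [hv0] at hh'
    exact hh (by rw [hh']; ring)
  · -- X = 36, Y = -180 : a = 1, v = -1/2, h = -729/2
    have ha0 : a = 1 := by linarith
    rw [ha0] at hY hh'
    have hv0 : v = -1 / 2 := by linarith
    rw [hv0] at hh'
    have : h = -729 / 2 := by rw [hh']; norm_num
    right; left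
    rw [this]; norm_num
  · -- X = -4, Y = 20 : impossible
    exfalso
    have ha0 : a = -1 / 9 := by linarith
    rw [ha0] at hY
    norm_num at hY
  · -- X = -4, Y = -20 : a = -1/9, v = -2/9, h = -2
    have ha0 : a = -1 / 9 := by linarith
    rw [ha0] at E1 hh'
    have hv0 : v = -2 / 9 := by linarith
    rw [hv0] at hh'
    have : h = -2 := by rw [hh']; norm_num
    left
    rw [this]; norm_num

end Fermat.Agent.X015
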