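import Mathlib

/-
P3 / T7 (helper7): the rational points of `Y² = X (X + 9) (X - 16)` (the curve 15a1 = X₀(15)).

Proof: 2-isogeny to `y² = x (x - 1) (x - 81)` (`x = X (X + 9) / (X - 16)`); doubling a point with
`y ≠ 0` there gives rationals `A² = 1 + B² = 81 + C²` with `B, C ≠ 0`; clearing denominators gives
positive integers `a² = e² + b² = 81 e² + c²`, killed by a Fermat descent (complete 2-descent:
factor `a ± b`, `a ± c`, `b ± c`).
-/

set_option autoImplicit false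

namespace Fermat.Agent.X015

namespace Pts15a

/-- coprime positive integers whose product is a square are squares -/
theorem sq_of_isCoprime_of_pos {x y z : ℤ} (hx : 0 < x) (hy : 0 < y) (hc : IsCoprime x y)
    (h : x * y = z ^ 2) : ∃ u v : ℤ, 0 < u ∧ 0 < v ∧ x = u ^ 2 ∧ y = v ^ 2 := by
  have aux : ∀ {x y : ℤ}, 0 < x → IsCoprime x y → x * y = z ^ 2 → ∃ u : ℤ, 0 < u ∧ x = u ^ 2 := by
    intro x y hx hc h
    obtain ⟨u0, hu | hu⟩ := Int.sq_of_isCoprime hc h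
    · refine ⟨|u0|, ?_, by rw [sq_abs]; exact hu⟩
      have : u0 ≠ 0 := by
        rintro rfl
        simp at hu
        omega
      exact abs_pos.mpr this
    · exfalso
      have : 0 ≤ u0 ^ 2 := sq_nonneg u0
      omega
  obtain ⟨u, hu, hxu⟩ := aux hx hc h
  obtain ⟨v, hv, hyv⟩ := aux hy hc.symm (by rw [mul_comm]; exact h)
  exact ⟨u, v, hu, hv, hxu, hyv⟩

theorem exists_sq_of_sq_mul_eq_sq {u T y : ℤ} (hu : u ≠ 0) (h : u ^ 2 * T = y ^ 2) :
    ∃ t : ℤ, T = t ^ 2 := by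
  have hdvd : u ^ 2 ∣ y ^ 2 := ⟨T, h.symm⟩
  have hdvd' : u ∣ y := (Int.pow_dvd_pow_iff two_ne_zero).mp hdvd
  obtain ⟨k, rfl⟩ := hdvd'
  refine ⟨k, ?_⟩
  have h2 : u ^ 2 * T = u ^ 2 * k ^ 2 := by rw [h]; ring
  exact mul_left_cancel₀ (pow_ne_zero 2 hu) h2

/-- coprime positive integers with product five times a square -/
theorem five_sq_cases {x y z : ℤ} (hx : 0 < x) (hy : 0 < y) (hc : IsCoprime x y)
    (h : x * y = 5 * z ^ 2) :
    (∃ u v : ℤ, 0 < u ∧ 0 < v ∧ x = 5 * u ^ 2 ∧ y = v ^ 2) ∨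
    (∃ u v : ℤ, 0 < u ∧ 0 < v ∧ x = u ^ 2 ∧ y = 5 * v ^ 2) := by
  have h5 : (5 : ℤ) ∣ x * y := ⟨z ^ 2, h⟩
  have hp : Prime (5 : ℤ) := Int.prime_iff_natAbs_prime.mpr (by norm_num)
  rcases hp.dvd_or_dvd h5 with ⟨x', rfl⟩ | ⟨y', rfl⟩
  · left
    have hx' : 0 < x' := by omega
    have hc' : IsCoprime x' y := hc.of_mul_left_right
    have h' : x' * y = z ^ 2 := by
      have : 5 * (x' * y) = 5 * z ^ 2 := by rw [← h]; ring
      exact mul_left_cancel₀ (by norm_num) this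
    obtain ⟨u, v, hu, hv, h1, h2⟩ := sq_of_isCoprime_of_pos hx' hy hc' h'
    exact ⟨u, v, hu, hv, by rw [h1], h2⟩
  · right
    have hy' : 0 < y' := by omega
    have hc' : IsCoprime x y' := hc.of_mul_right_right
    have h' : x * y' = z ^ 2 := by
      have : 5 * (x * y') = 5 * z ^ 2 := by rw [← h]; ring
      exact mul_left_cancel₀ (by norm_num) this
    obtain ⟨u, v, hu, hv, h1, h2⟩ := sq_of_isCoprime_of_pos hx hy' hc' h'
    exact ⟨u, v, hu, hv, h1, by rw [h2]⟩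

/-- the key coprimality lemma: if `x * y = k * m ^ 2` with `k` squarefree and
`x + y` divides something coprime to `m`, then `x` and `y` are coprime -/
theorem isCoprime_of_mul_eq {x y k m s : ℤ} (h : x * y = k * m ^ 2) (hsum : x + y ∣ s)
    (hs : IsCoprime s m) (hk : Squarefree k) : IsCoprime x y := by
  rw [Int.isCoprime_iff_gcd_eq_one]
  set d : ℕ := Int.gcd x y with hd
  have hdx : (d : ℤ) ∣ x := Int.gcd_dvd_left x y
  have hdy : (d : ℤ) ∣ y := Int.gcd_dvd_right x y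
  have hds : (d : ℤ) ∣ s := (dvd_add hdx hdy).trans hsum
  have hdm : IsCoprime (d : ℤ) m := hs.of_isCoprime_of_dvd_left hds
  have hd2 : (d : ℤ) ^ 2 ∣ k * m ^ 2 := by
    rw [← h, pow_two]
    exact mul_dvd_mul hdx hdy
  have hd2k : (d : ℤ) ^ 2 ∣ k := (hdm.pow (m := 2) (n := 2)).dvd_of_dvd_mul_right hd2
  have hunit : IsUnit (d : ℤ) := hk (d : ℤ) (by rw [← pow_two]; exact hd2k)
  have : (d : ℤ).natAbs = 1 := Int.isUnit_iff_natAbs_eq.mp hunit
  simpa using this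


/-- positive integer solutions of `a² = e² + b² = 81 e² + c²` -/
def Quad (a b c e : ℤ) : Prop :=
  0 < a ∧ 0 < b ∧ 0 < c ∧ 0 < e ∧ a ^ 2 = e ^ 2 + b ^ 2 ∧ a ^ 2 = 81 * e ^ 2 + c ^ 2


/-- the algebraic core of the descent (the sign of `c` is free) -/
theorem descent_core {a b c e g u v r W : ℤ} (h1 : a ^ 2 = e ^ 2 + b ^ 2)
    (h2 : a ^ 2 = 81 * e ^ 2 + c ^ 2) (ha : 2 ≤ a) (hca : c < a)
    (hg : 0 < g) (hu : 0 < u) (hv : 0 < v) (hr : 0 < r) (hW : 0 < W)
    (hab : a + b = g * u ^ 2) (hab' : a - b = g * v ^ 2) (hac : a + c = g * r ^ 2)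
    (hbc : b + c = g * W ^ 2) :
    ∃ t : ℤ, Quad r W t v ∧ r < a := by
  -- T := r² - 81 v²
  have hT : u ^ 2 * (r ^ 2 - 81 * v ^ 2) = (r * W) ^ 2 := by
    have h3 : g ^ 2 * (u ^ 2 * (r ^ 2 - 81 * v ^ 2)) = g ^ 2 * (r * W) ^ 2 := by
      have e1 : g ^ 2 * (u ^ 2 * (r ^ 2 - 81 * v ^ 2)) =
          (g * u ^ 2) * (g * r ^ 2 - 81 * (g * v ^ 2)) := by ring
      have e2 : g ^ 2 * (r * W) ^ 2 = (g * r ^ 2) * (g * W ^ 2) := by ring
      rw [e1, e2, ← hab, ← hab', ← hac, ← hbc]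
      linear_combination (-81 : ℤ) * h1 + h2
    exact mul_left_cancel₀ (pow_ne_zero 2 hg.ne') h3
  obtain ⟨t0, ht0⟩ := exists_sq_of_sq_mul_eq_sq hu.ne' hT
  have hrW : 0 < r * W := mul_pos hr hW
  have ht0ne : t0 ≠ 0 := by
    rintro rfl
    rw [ht0] at hT
    have : (r * W) ^ 2 = 0 := by rw [← hT]; ring
    have := pow_eq_zero_iff (two_ne_zero) |>.mp this
    omega
  have hrv : r ^ 2 = v ^ 2 + W ^ 2 := by
    have h3 : g * r ^ 2 = g * (v ^ 2 + W ^ 2) := by
      rw [mul_add, ← hac, ← hab', ← hbc]; ring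
    exact mul_left_cancel₀ hg.ne' h3
  refine ⟨|t0|, ⟨hr, hW, abs_pos.mpr ht0ne, hv, hrv, ?_⟩, ?_⟩
  · rw [sq_abs, ← ht0]; ring
  · -- r < a
    have h4 : r ^ 2 ≤ g * r ^ 2 := by nlinarith [sq_nonneg r]
    have h5 : g * r ^ 2 < 2 * a := by rw [← hac]; omega
    have h6 : 2 * a ≤ a ^ 2 := by nlinarith
    have h7 : r ^ 2 < a ^ 2 := by omega
    exact lt_of_pow_lt_pow_left₀ 2 (by omega) h7


/-- mod 8 analysis -/
theorem four_dvd_of_sq_eq {a b e n : ℤ} (he : ¬ (2 : ℤ) ∣ e)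
    (h : a ^ 2 = e ^ 2 + b ^ 2 + 8 * n) : (4 : ℤ) ∣ b := by
  have key : ∀ a b m : ZMod 8, a ^ 2 = (2 * m + 1) ^ 2 + b ^ 2 → (b = 0 ∨ b = 4) := by decide
  obtain ⟨m, rfl⟩ : ∃ m, e = 2 * m + 1 := by
    have : e % 2 = 1 := by omega
    exact ⟨e / 2, by omega⟩
  have h8 := congrArg (Int.cast : ℤ → ZMod 8) h
  push_cast at h8
  have h80 : (8 : ZMod 8) = 0 := by decide
  rw [h80, zero_mul, add_zero] at h8
  rcases key _ _ _ h8 with hb | hb
  · have : (8 : ℤ) ∣ b := by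
      have := (ZMod.intCast_zmod_eq_zero_iff_dvd b 8).mp hb
      exact_mod_cast this
    omega
  · have h0 : ((b - 4 : ℤ) : ZMod 8) = 0 := by
      push_cast
      rw [hb]
      decide
    have : (8 : ℤ) ∣ b - 4 := by
      have := (ZMod.intCast_zmod_eq_zero_iff_dvd (b - 4) 8).mp h0
      exact_mod_cast this
    omega

/-- mod 3 analysis -/
theorem not_three_dvd_of_sq_eq {a b e : ℤ} (hc : IsCoprime a e) (h : a ^ 2 = e ^ 2 + b ^ 2) :
    ¬ (3 : ℤ) ∣ a := by
  intro h3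
  have key : ∀ b e : ZMod 3, 0 = e ^ 2 + b ^ 2 → e = 0 := by decide
  have h8 := congrArg (Int.cast : ℤ → ZMod 3) h
  push_cast at h8
  have ha0 : (a : ZMod 3) = 0 := by
    have := (ZMod.intCast_zmod_eq_zero_iff_dvd a 3).mpr (by exact_mod_cast h3)
    exact this
  rw [ha0, zero_pow two_ne_zero] at h8
  have he0 := key _ _ h8
  have h3e : (3 : ℤ) ∣ e := by
    have := (ZMod.intCast_zmod_eq_zero_iff_dvd e 3).mp he0
    exact_mod_cast this
  have := hc.isUnit_of_dvd' h3 h3e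
  rw [Int.isUnit_iff] at this
  omega

theorem isCoprime_of_sq_eq {a b e : ℤ} (hc : IsCoprime a e) (h : a ^ 2 = e ^ 2 + b ^ 2) :
    IsCoprime b e := by
  have h1 : IsCoprime (a ^ 2 + e * (-e)) e := (hc.pow_left).add_mul_left_left (-e)
  have h2 : a ^ 2 + e * (-e) = b ^ 2 := by linear_combination h
  rw [h2] at h1
  exact (IsCoprime.pow_left_iff (by norm_num : 0 < 2)).mp h1

theorem lt_of_sq_eq {a b e : ℤ} (ha : 0 < a) (_hb : 0 < b) (he : 0 < e) (k : ℤ) (hk : 0 < k)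
    (h : a ^ 2 = k * e ^ 2 + b ^ 2) : b < a := by
  have : b ^ 2 < a ^ 2 := by nlinarith [mul_pos hk (pow_pos he 2)]
  exact lt_of_pow_lt_pow_left₀ 2 ha.le this


theorem prime_five_int : Prime (5 : ℤ) := Int.prime_iff_natAbs_prime.mpr (by norm_num)

theorem descent_odd {a b c e : ℤ} (hq : Quad a b c e) (hc : IsCoprime a e)
    (he2 : ¬ (2 : ℤ) ∣ e) : ∃ a' b' c' e' : ℤ, Quad a' b' c' e' ∧ a' < a := by
  obtain ⟨ha, hb, hc0, he, h1, h2⟩ := hq
  have hba : b < a := lt_of_sq_eq ha hb he 1 one_pos (by linarith)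
  have hca : c < a := lt_of_sq_eq ha hc0 he 81 (by norm_num) h2
  have hcb : c < b := lt_of_sq_eq hb hc0 he 80 (by norm_num) (by linarith)
  have ha2 : 2 ≤ a := by omega
  have h3a : ¬ (3 : ℤ) ∣ a := not_three_dvd_of_sq_eq hc h1
  have hbe : IsCoprime b e := isCoprime_of_sq_eq hc h1
  have h2e : IsCoprime (2 : ℤ) e := (Int.prime_two.coprime_iff_not_dvd).mpr he2
  have h3 : IsCoprime a 3 := (Int.prime_three.coprime_iff_not_dvd.mpr h3a).symm
  -- 4 ∣ b, 4 ∣ c
  obtain ⟨b1, rfl⟩ : (4 : ℤ) ∣ b := four_dvd_of_sq_eq (a := a) he2 (n := 0) (by linarith)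
  obtain ⟨c1, rfl⟩ : (4 : ℤ) ∣ c := four_dvd_of_sq_eq (a := a) he2 (n := 10 * e ^ 2) (by linarith)
  -- first factorisation
  have hcop1 : IsCoprime (a - 4 * b1) (a + 4 * b1) :=
    isCoprime_of_mul_eq (k := 1) (m := e) (s := 2 * a) (by linear_combination h1)
      (by ring_nf; exact dvd_refl _) (h2e.mul_left hc) squarefree_one
  obtain ⟨v, u, hv, hu, hv2, hu2⟩ :=
    sq_of_isCoprime_of_pos (z := e) (by omega) (by omega) hcop1 (by linear_combination h1)
  -- second factorisation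
  have h2a9e : IsCoprime (2 * a) (9 * e) := by
    have h29 : IsCoprime (2 : ℤ) 9 := by norm_num
    have ha9 : IsCoprime a 9 := by
      have : (9 : ℤ) = 3 ^ 2 := by norm_num
      rw [this]
      exact h3.pow_right
    exact (h29.mul_right h2e).mul_left (ha9.mul_right hc)
  have hcop2 : IsCoprime (a - 4 * c1) (a + 4 * c1) :=
    isCoprime_of_mul_eq (k := 1) (m := 9 * e) (s := 2 * a) (by linear_combination h2)
      (by ring_nf; exact dvd_refl _) h2a9e squarefree_one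
  obtain ⟨s, r, hs, hr, hs2, hr2⟩ :=
    sq_of_isCoprime_of_pos (z := 9 * e) (by omega) (by omega) hcop2 (by linear_combination h2)
  -- third factorisation
  have h3eq : (b1 - c1) * (b1 + c1) = 5 * e ^ 2 := by
    have : (16 : ℤ) * ((b1 - c1) * (b1 + c1)) = 16 * (5 * e ^ 2) := by linear_combination h2 - h1
    exact mul_left_cancel₀ (by norm_num) this
  have hcop3 : IsCoprime (b1 - c1) (b1 + c1) :=
    isCoprime_of_mul_eq (k := 5) (m := e) (s := 4 * b1) h3eq ⟨2, by ring⟩ hbe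
      prime_five_int.squarefree
  rcases five_sq_cases (by omega) (by omega) hcop3 h3eq with
    ⟨Z, W, hZ, hW, hZ2, hW2⟩ | ⟨Z, W, hZ, hW, hZ2, hW2⟩
  · -- b1 - c1 = 5 Z², b1 + c1 = W² : use `c`
    obtain ⟨t, hquad, hlt⟩ := descent_core (g := 1) (u := u) (v := v) (r := r) (W := 2 * W)
      h1 h2 ha2 hca one_pos hu hv hr (by omega) (by rw [hu2]; ring) (by rw [hv2]; ring)
      (by rw [hr2]; ring) (by linear_combination 4 * hW2)
    exact ⟨r, 2 * W, t, v, hquad, hlt⟩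
  · -- b1 - c1 = Z², b1 + c1 = 5 W² : use `-c`
    obtain ⟨t, hquad, hlt⟩ := descent_core (c := -(4 * c1)) (g := 1) (u := u) (v := v) (r := s)
      (W := 2 * Z) h1 (by rw [h2]; ring) ha2 (by omega) one_pos hu hv hs (by omega)
      (by rw [hu2]; ring) (by rw [hv2]; ring)
      (by linear_combination hs2) (by linear_combination 4 * hZ2)
    exact ⟨s, 2 * Z, t, v, hquad, hlt⟩

theorem descent_even {a b c e : ℤ} (hq : Quad a b c e) (hc : IsCoprime a e)
    (he2 : (2 : ℤ) ∣ e) : ∃ a' b' c' e' : ℤ, Quad a' b' c' e' ∧ a' < a := by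
  obtain ⟨ha, hb, hc0, he, h1, h2⟩ := hq
  have hba : b < a := lt_of_sq_eq ha hb he 1 one_pos (by linarith)
  have hca : c < a := lt_of_sq_eq ha hc0 he 81 (by norm_num) h2
  have hcb : c < b := lt_of_sq_eq hb hc0 he 80 (by norm_num) (by linarith)
  have ha2 : 2 ≤ a := by omega
  have h3a : ¬ (3 : ℤ) ∣ a := not_three_dvd_of_sq_eq hc h1
  have hbe : IsCoprime b e := isCoprime_of_sq_eq hc h1
  have h3 : IsCoprime a 3 := (Int.prime_three.coprime_iff_not_dvd.mpr h3a).symm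
  -- parities
  have ha_odd : ¬ (2 : ℤ) ∣ a := by
    intro h
    have := hc.isUnit_of_dvd' h he2
    rw [Int.isUnit_iff] at this
    omega
  have hb_odd : ¬ (2 : ℤ) ∣ b := by
    intro h
    have := hbe.isUnit_of_dvd' h he2
    rw [Int.isUnit_iff] at this
    omega
  have hc_odd : ¬ (2 : ℤ) ∣ c := by
    intro h
    apply ha_odd
    have h4 : (2 : ℤ) ∣ a ^ 2 := by
      rw [h2]
      exact dvd_add (Dvd.dvd.mul_left (Dvd.dvd.pow he2 two_ne_zero) _) (Dvd.dvd.pow h two_ne_zero)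
    exact Int.prime_two.dvd_of_dvd_pow h4
  obtain ⟨e1, rfl⟩ := he2
  have hae1 : IsCoprime a e1 := hc.of_mul_right_right
  have hbe1 : IsCoprime b e1 := hbe.of_mul_right_right
  obtain ⟨x, hx⟩ : (2 : ℤ) ∣ a - b := by omega
  obtain ⟨y, hy⟩ : (2 : ℤ) ∣ a + b := by omega
  obtain ⟨x', hx'⟩ : (2 : ℤ) ∣ a - c := by omega
  obtain ⟨y', hy'⟩ : (2 : ℤ) ∣ a + c := by omega
  obtain ⟨X, hX⟩ : (2 : ℤ) ∣ b - c := by omega
  obtain ⟨Y, hY⟩ : (2 : ℤ) ∣ b + c := by omega
  -- first factorisation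
  have heq1 : x * y = 1 * e1 ^ 2 := by
    have : (4 : ℤ) * (x * y) = 4 * (1 * e1 ^ 2) := by
      have : (2 * x) * (2 * y) = (2 * e1) ^ 2 := by rw [← hx, ← hy]; linear_combination h1
      linear_combination this
    exact mul_left_cancel₀ (by norm_num) this
  have hcop1 : IsCoprime x y :=
    isCoprime_of_mul_eq (k := 1) (m := e1) (s := a) heq1 ⟨1, by omega⟩ hae1 squarefree_one
  obtain ⟨v, u, hv, hu, hv2, hu2⟩ :=
    sq_of_isCoprime_of_pos (z := e1) (by omega) (by omega) hcop1 (by rw [heq1]; ring)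
  -- second factorisation
  have heq2 : x' * y' = 1 * (9 * e1) ^ 2 := by
    have : (4 : ℤ) * (x' * y') = 4 * (1 * (9 * e1) ^ 2) := by
      have : (2 * x') * (2 * y') = 81 * (2 * e1) ^ 2 := by
        rw [← hx', ← hy']; linear_combination h2
      linear_combination this
    exact mul_left_cancel₀ (by norm_num) this
  have ha9e : IsCoprime a (9 * e1) := by
    have ha9 : IsCoprime a 9 := by
      have : (9 : ℤ) = 3 ^ 2 := by norm_num
      rw [this]
      exact h3.pow_right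
    exact ha9.mul_right hae1
  have hcop2 : IsCoprime x' y' :=
    isCoprime_of_mul_eq (k := 1) (m := 9 * e1) (s := a) heq2 ⟨1, by omega⟩ ha9e squarefree_one
  obtain ⟨s, r, hs, hr, hs2, hr2⟩ :=
    sq_of_isCoprime_of_pos (z := 9 * e1) (by omega) (by omega) hcop2 (by rw [heq2]; ring)
  -- third factorisation
  have heq3 : X * Y = 5 * (4 * e1) ^ 2 := by
    have : (4 : ℤ) * (X * Y) = 4 * (5 * (4 * e1) ^ 2) := by
      have : (2 * X) * (2 * Y) = 80 * (2 * e1) ^ 2 := by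
        rw [← hX, ← hY]; linear_combination h2 - h1
      linear_combination this
    exact mul_left_cancel₀ (by norm_num) this
  have hb4e : IsCoprime b (4 * e1) := by
    have hb2 : IsCoprime b 2 := (Int.prime_two.coprime_iff_not_dvd.mpr hb_odd).symm
    have hb4 : IsCoprime b 4 := by
      have : (4 : ℤ) = 2 ^ 2 := by norm_num
      rw [this]
      exact hb2.pow_right
    exact hb4.mul_right hbe1
  have hcop3 : IsCoprime X Y :=
    isCoprime_of_mul_eq (k := 5) (m := 4 * e1) (s := b) heq3 ⟨1, by omega⟩ hb4e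
      prime_five_int.squarefree
  rcases five_sq_cases (by omega) (by omega) hcop3 heq3 with
    ⟨Z, W, hZ, hW, hZ2, hW2⟩ | ⟨Z, W, hZ, hW, hZ2, hW2⟩
  · -- X = 5 Z², Y = W² : use `c`
    obtain ⟨t, hquad, hlt⟩ := descent_core (g := 2) (u := u) (v := v) (r := r) (W := W)
      h1 h2 ha2 hca (by norm_num) hu hv hr hW (by rw [← hu2]; omega) (by rw [← hv2]; omega)
      (by rw [← hr2]; omega) (by rw [← hW2]; omega)
    exact ⟨r, W, t, v, hquad, hlt⟩
  · -- X = Z², Y = 5 W² : use `-c`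
    obtain ⟨t, hquad, hlt⟩ := descent_core (c := -c) (g := 2) (u := u) (v := v) (r := s)
      (W := Z) h1 (by rw [h2]; ring) ha2 (by omega) (by norm_num) hu hv hs hZ
      (by rw [← hu2]; omega) (by rw [← hv2]; omega)
      (by rw [← hs2]; omega) (by rw [← hZ2]; omega)
    exact ⟨s, Z, t, v, hquad, hlt⟩

theorem descent_reduce {a b c e : ℤ} (hq : Quad a b c e) (hc : ¬ IsCoprime a e) :
    ∃ a' b' c' e' : ℤ, Quad a' b' c' e' ∧ a' < a := by
  obtain ⟨ha, hb, hc0, he, h1, h2⟩ := hq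
  rw [Int.isCoprime_iff_gcd_eq_one] at hc
  set d : ℕ := Int.gcd a e with hd
  have hdpos : 0 < d := Int.gcd_pos_of_ne_zero_left e ha.ne'
  have hd2 : (2 : ℤ) ≤ (d : ℤ) := by
    have : 2 ≤ d := by omega
    exact_mod_cast this
  obtain ⟨a', ha'⟩ : (d : ℤ) ∣ a := Int.gcd_dvd_left a e
  obtain ⟨e', he'⟩ : (d : ℤ) ∣ e := Int.gcd_dvd_right a e
  have hdb : (d : ℤ) ∣ b := by
    have : (d : ℤ) ^ 2 ∣ b ^ 2 := ⟨a' ^ 2 - e' ^ 2, by rw [ha', he'] at h1; linear_combination -h1⟩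
    exact (Int.pow_dvd_pow_iff two_ne_zero).mp this
  have hdc : (d : ℤ) ∣ c := by
    have : (d : ℤ) ^ 2 ∣ c ^ 2 :=
      ⟨a' ^ 2 - 81 * e' ^ 2, by rw [ha', he'] at h2; linear_combination -h2⟩
    exact (Int.pow_dvd_pow_iff two_ne_zero).mp this
  obtain ⟨b', hb'⟩ := hdb
  obtain ⟨c', hc'⟩ := hdc
  have hd0 : (0 : ℤ) < (d : ℤ) := by omega
  have ha'pos : 0 < a' := by
    rw [ha'] at ha
    exact (mul_pos_iff_of_pos_left hd0).mp ha
  have hb'pos : 0 < b' := by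
    rw [hb'] at hb
    exact (mul_pos_iff_of_pos_left hd0).mp hb
  have hc'pos : 0 < c' := by
    rw [hc'] at hc0
    exact (mul_pos_iff_of_pos_left hd0).mp hc0
  have he'pos : 0 < e' := by
    rw [he'] at he
    exact (mul_pos_iff_of_pos_left hd0).mp he
  have hdd : ((d : ℤ)) ^ 2 ≠ 0 := pow_ne_zero 2 hd0.ne'
  refine ⟨a', b', c', e', ⟨ha'pos, hb'pos, hc'pos, he'pos, ?_, ?_⟩, ?_⟩
  · have : (d : ℤ) ^ 2 * a' ^ 2 = (d : ℤ) ^ 2 * (e' ^ 2 + b' ^ 2) := by
      rw [ha', he', hb'] at h1; linear_combination h1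
    exact mul_left_cancel₀ hdd this
  · have : (d : ℤ) ^ 2 * a' ^ 2 = (d : ℤ) ^ 2 * (81 * e' ^ 2 + c' ^ 2) := by
      rw [ha', he', hc'] at h2; linear_combination h2
    exact mul_left_cancel₀ hdd this
  · rw [ha']; nlinarith

theorem no_quad_aux : ∀ (n : ℕ) (a b c e : ℤ), a.toNat = n → ¬ Quad a b c e := by
  intro n
  induction n using Nat.strong_induction_on with
  | _ n ih =>
    intro a b c e han hq
    have hstep : ∃ a' b' c' e' : ℤ, Quad a' b' c' e' ∧ a' < a := by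
      by_cases hc : IsCoprime a e
      · by_cases he2 : (2 : ℤ) ∣ e
        · exact descent_even hq hc he2
        · exact descent_odd hq hc he2
      · exact descent_reduce hq hc
    obtain ⟨a', b', c', e', hq', hlt⟩ := hstep
    have ha' : 0 < a' := hq'.1
    exact ih a'.toNat (by omega) a' b' c' e' rfl hq'

theorem no_quad (a b c e : ℤ) : ¬ Quad a b c e := no_quad_aux _ a b c e rfl

/-- a rational whose square is an integer is an integer -/
theorem exists_int_of_sq_eq_int {q : ℚ} {n : ℤ} (h : q ^ 2 = (n : ℚ)) : ∃ m : ℤ, q = (m : ℚ) := by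
  have h1 : (q ^ 2).den = q.den ^ 2 := Rat.den_pow q 2
  rw [h, Rat.den_intCast] at h1
  have h2 : q.den = 1 := by
    have : q.den ^ 2 = 1 := h1.symm
    rcases (pow_eq_one_iff_of_nonneg (Nat.zero_le _) two_ne_zero).mp this with h3
    exact h3
  exact ⟨q.num, ((Rat.den_eq_one_iff q).mp h2).symm⟩

/-- no rational solutions of `A² = 1 + B² = 81 + C²` with `B, C ≠ 0` -/
theorem no_rat_quad (A B C : ℚ) (h1 : A ^ 2 = 1 + B ^ 2) (h2 : A ^ 2 = 81 + C ^ 2)
    (hB : B ≠ 0) (hC : C ≠ 0) : False := by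
  have hA : A ≠ 0 := by
    rintro rfl
    nlinarith [sq_nonneg B]
  set e : ℤ := (A.den : ℤ) with he
  have he0 : (0 : ℤ) < e := by
    have := A.den_pos
    omega
  have heQ : (e : ℚ) ≠ 0 := by exact_mod_cast he0.ne'
  have hAe : A * (e : ℚ) = (A.num : ℚ) := by
    rw [he]
    push_cast
    exact Rat.mul_den_eq_num A
  have hb : (B * e) ^ 2 = ((A.num ^ 2 - e ^ 2 : ℤ) : ℚ) := by
    push_cast
    rw [← hAe]
    linear_combination (-(e : ℚ) ^ 2) * h1
  have hc : (C * e) ^ 2 = ((A.num ^ 2 - 81 * e ^ 2 : ℤ) : ℚ) := by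
    push_cast
    rw [← hAe]
    linear_combination (-(e : ℚ) ^ 2) * h2
  obtain ⟨b, hb'⟩ := exists_int_of_sq_eq_int hb
  obtain ⟨c, hc'⟩ := exists_int_of_sq_eq_int hc
  have hb0 : b ≠ 0 := by
    rintro rfl
    have : B * e = 0 := by rw [hb']; simp
    rcases mul_eq_zero.mp this with h | h
    · exact hB h
    · exact heQ h
  have hc0 : c ≠ 0 := by
    rintro rfl
    have : C * e = 0 := by rw [hc']; simp
    rcases mul_eq_zero.mp this with h | h
    · exact hC h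
    · exact heQ h
  have ha0 : A.num ≠ 0 := Rat.num_ne_zero.mpr hA
  have e1 : A.num ^ 2 = e ^ 2 + b ^ 2 := by
    have : ((A.num ^ 2 : ℤ) : ℚ) = ((e ^ 2 + b ^ 2 : ℤ) : ℚ) := by
      rw [hb'] at hb
      push_cast at hb ⊢
      linear_combination -hb
    exact_mod_cast this
  have e2 : A.num ^ 2 = 81 * e ^ 2 + c ^ 2 := by
    have : ((A.num ^ 2 : ℤ) : ℚ) = ((81 * e ^ 2 + c ^ 2 : ℤ) : ℚ) := by
      rw [hc'] at hc
      push_cast at hc ⊢
      linear_combination -hc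
    exact_mod_cast this
  refine no_quad |A.num| |b| |c| e ⟨abs_pos.mpr ha0, abs_pos.mpr hb0, abs_pos.mpr hc0, he0, ?_, ?_⟩
  · rw [sq_abs, sq_abs]; exact e1
  · rw [sq_abs, sq_abs]; exact e2

theorem not_rat_sq_five (q : ℚ) : q ^ 2 ≠ 5 := by
  intro h
  obtain ⟨m, rfl⟩ := exists_int_of_sq_eq_int (n := 5) (by rw [h]; norm_num)
  have h5 : m ^ 2 = 5 := by exact_mod_cast h
  have h1 : m ≤ 2 := by nlinarith
  have h2 : -2 ≤ m := by nlinarith
  interval_cases m <;> omega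

/-- rational points of `y² = x (x - 1) (x - 81)` have `y = 0` -/
theorem rational_points_aux (x y : ℚ) (h : y ^ 2 = x * (x - 1) * (x - 81)) : y = 0 := by
  by_contra hy
  have h2y : (2 * y) ≠ 0 := mul_ne_zero two_ne_zero hy
  refine no_rat_quad ((x ^ 2 - 81) / (2 * y)) ((x ^ 2 - 2 * x + 81) / (2 * y))
    ((x ^ 2 - 162 * x + 81) / (2 * y)) ?_ ?_ ?_ ?_
  · field_simp
    linear_combination (-4 : ℚ) * h
  · field_simp
    linear_combination (-324 : ℚ) * h
  · apply div_ne_zero _ h2y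
    nlinarith [sq_nonneg (x - 1)]
  · apply div_ne_zero _ h2y
    intro h0
    apply not_rat_sq_five ((x - 81) / 36)
    field_simp
    linear_combination h0

end Pts15a

open Pts15a in
/-- **rational points of `Y² = X (X + 9) (X - 16)`** (the curve 15a1 = X₀(15)) -/
theorem rational_points_15a (X Y : ℚ) (h : Y ^ 2 = X * (X + 9) * (X - 16)) :
    (X = 0 ∧ Y = 0) ∨ (X = -9 ∧ Y = 0) ∨ (X = 16 ∧ Y = 0) ∨ (X = 36 ∧ Y = 180) ∨
    (X = 36 ∧ Y = -180) ∨ (X = -4 ∧ Y = 20) ∨ (X = -4 ∧ Y = -20) := by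
  have hY0 : Y = 0 → (X = 0 ∧ Y = 0) ∨ (X = -9 ∧ Y = 0) ∨ (X = 16 ∧ Y = 0) ∨
      (X = 36 ∧ Y = 180) ∨ (X = 36 ∧ Y = -180) ∨ (X = -4 ∧ Y = 20) ∨ (X = -4 ∧ Y = -20) := by
    intro hY
    rw [hY] at h
    have h0 : X * (X + 9) * (X - 16) = 0 := by rw [← h]; ring
    rcases mul_eq_zero.mp h0 with h1 | h1
    · rcases mul_eq_zero.mp h1 with h2 | h2
      · exact Or.inl ⟨h2, hY⟩
      · exact Or.inr (Or.inl ⟨by linarith, hY⟩)
    · exact Or.inr (Or.inr (Or.inl ⟨by linarith, hY⟩))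
  by_cases h16 : X = 16
  · apply hY0
    rw [h16] at h
    have : Y ^ 2 = 0 := by rw [h]; ring
    exact pow_eq_zero_iff two_ne_zero |>.mp this
  · have hne : X - 16 ≠ 0 := sub_ne_zero.mpr h16
    have key := rational_points_aux (X * (X + 9) / (X - 16))
      (Y * (X + 4) * (X - 36) / (X - 16) ^ 2) (by
        field_simp
        linear_combination ((X + 4) ^ 2 * (X - 36) ^ 2) * h)
    have key' : Y * (X + 4) * (X - 36) = 0 := by
      rcases div_eq_zero_iff.mp key with h1 | h1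
      · exact h1
      · exact absurd (pow_eq_zero_iff two_ne_zero |>.mp h1) hne
    rcases mul_eq_zero.mp key' with h1 | h1
    · rcases mul_eq_zero.mp h1 with h2 | h2
      · exact hY0 h2
      · have hX : X = -4 := by linarith
        rw [hX] at h
        have : (Y - 20) * (Y + 20) = 0 := by linear_combination h
        rcases mul_eq_zero.mp this with h3 | h3
        · exact Or.inr (Or.inr (Or.inr (Or.inr (Or.inr (Or.inl ⟨hX, by linarith⟩)))))
        · exact Or.inr (Or.inr (Or.inr (Or.inr (Or.inr (Or.inr ⟨hX, by linarith⟩)))))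
    · have hX : X = 36 := by linarith
      rw [hX] at h
      have : (Y - 180) * (Y + 180) = 0 := by linear_combination h
      rcases mul_eq_zero.mp this with h3 | h3
      · exact Or.inr (Or.inr (Or.inr (Or.inl ⟨hX, by linarith⟩)))
      · exact Or.inr (Or.inr (Or.inr (Or.inr (Or.inl ⟨hX, by linarith⟩))))

end Fermat.Agent.X015
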