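import Mathlib
import Fermat.Prelude.Def_FLTPrelim_GaloisRep

/-!
# Extraction of a Galois-stable cyclic subgroup (P3/T1)

If the `p`-torsion of `E(K)` is nontrivial of cardinality at most `p²` and the Galois
representation on it is not irreducible, there is a point `P ≠ 0` of order `p` such that every
`σ` maps `P` to a multiple of `P`.
-/

set_option autoImplicit false

open WeierstrassCurve WeierstrassCurve.Affine

namespace Fermat.Agent.X015

/-- P3/T1. -/
theorem exists_stable_point_of_not_irreducible {K : Type*} [Field K] [DecidableEq K] [Algebra ℚ K]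
    (E : WeierstrassCurve ℚ) (p : ℕ) [Fact p.Prime]
    (hnt : ∃ P : (E.toAffine⁄K).Point, P ≠ 0 ∧ (p : ℤ) • P = 0)
    (hcard : ∀ s : Finset (E.toAffine⁄K).Point, (∀ P ∈ s, (p : ℤ) • P = 0) → s.card ≤ p ^ 2)
    (h : ¬ Affine.Point.GaloisRepIsIrreducible (K := K) ℚ E.toAffine p) :
    ∃ P : (E.toAffine⁄K).Point, P ≠ 0 ∧ (p : ℤ) • P = 0 ∧
      ∀ σ : K ≃ₐ[ℚ] K, ∃ k : ℤ, σ • P = k • P := by
  classical
  set T := Submodule.torsionBy ℤ (E.toAffine⁄K).Point p with hT
  have hp : p.Prime := Fact.out
  -- nontriviality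
  have hnontriv : Nontrivial T := by
    obtain ⟨P, hP0, hP⟩ := hnt
    refine ⟨⟨⟨P, ?_⟩, 0, ?_⟩⟩
    · rw [Submodule.mem_torsionBy_iff]; exact hP
    · intro h0
      exact hP0 (congrArg Subtype.val h0)
  -- finiteness and cardinality
  have hbound : ∀ s : Finset T, s.card ≤ p ^ 2 := by
    intro s
    have := hcard (s.map ⟨Subtype.val, Subtype.val_injective⟩) (by
      intro P hP
      rw [Finset.mem_map] at hP
      obtain ⟨x, -, rfl⟩ := hP
      have := x.2
      rw [Submodule.mem_torsionBy_iff] at this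
      exact this)
    simpa using this
  have hfin : Finite T := by
    by_contra hinf
    rw [not_finite_iff_infinite] at hinf
    obtain ⟨s, hs⟩ := Infinite.exists_subset_card_eq T (p ^ 2 + 1)
    have := hbound s
    omega
  haveI := hfin
  haveI : Fintype T := Fintype.ofFinite T
  have hcardT : Fintype.card T ≤ p ^ 2 := by
    have := hbound Finset.univ
    simpa using this
  -- dimension at most 2
  haveI : Module.Finite (ZMod p) T := Module.Finite.of_finite
  have hdim : Module.finrank (ZMod p) T ≤ 2 := by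
    have h1 : Fintype.card T = Fintype.card (ZMod p) ^ Module.finrank (ZMod p) T :=
      Module.card_eq_pow_finrank
    rw [ZMod.card] at h1
    rw [h1] at hcardT
    exact (Nat.pow_le_pow_iff_right hp.one_lt).mp hcardT
  -- a stable proper nonzero submodule
  have hN : ∃ N : Submodule (ZMod p) T, Affine.Point.IsGaloisStable ℚ N ∧ N ≠ ⊥ ∧ N ≠ ⊤ := by
    by_contra hno
    apply h
    refine ⟨hnontriv, fun N hN => ?_⟩
    by_contra hcon
    push Not at hcon
    exact hno ⟨N, hN, hcon.1, hcon.2⟩
  obtain ⟨N, hstab, hbot, htop⟩ := hN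
  have hNpos : 0 < Module.finrank (ZMod p) N := by
    rw [Module.finrank_pos_iff (R := ZMod p)]
    exact Submodule.nontrivial_iff_ne_bot.mpr hbot
  have hNlt : Module.finrank (ZMod p) N < Module.finrank (ZMod p) T :=
    Submodule.finrank_lt htop
  have hN1 : Module.finrank (ZMod p) N = 1 := by omega
  obtain ⟨v, hv0, hv⟩ := finrank_eq_one_iff'.mp hN1
  refine ⟨((v : T) : (E.toAffine⁄K).Point), ?_, ?_, ?_⟩
  · intro h0
    apply hv0
    apply Subtype.ext
    apply Subtype.ext
    exact h0
  · have := (v : T).2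
    rw [Submodule.mem_torsionBy_iff] at this
    exact this
  · intro σ
    have hmem : σ • (v : T) ∈ N := hstab σ _ v.2
    obtain ⟨c, hc⟩ := hv ⟨σ • (v : T), hmem⟩
    refine ⟨(c.val : ℤ), ?_⟩
    have h1 : (c • v : N) = (c.val • v : N) := by
      conv_lhs => rw [← ZMod.natCast_zmod_val c]
      exact Nat.cast_smul_eq_nsmul (ZMod p) c.val v
    have h2 : ((σ • (v : T) : T) : (E.toAffine⁄K).Point) = σ • ((v : T) : (E.toAffine⁄K).Point) := rfl
    rw [← h2]
    have h3 : (σ • (v : T) : T) = ((c.val • v : N) : T) := by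
      rw [← h1, hc]
    rw [h3]
    have h4 : (((c.val • v : N) : T) : (E.toAffine⁄K).Point) =
        c.val • ((v : T) : (E.toAffine⁄K).Point) := by simp
    rw [h4, natCast_zsmul]

end Fermat.Agent.X015
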