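import Mathlib
import Fermat.Prelude.Def_FLTPrelim_Modularity

/-!
# Semistable curves do not have the `j`-invariants of the non-cuspidal points of `X₀(15)` (P3/T9)

For a semistable integral model, `c₄` and `Δ` are coprime, so `j = c₄³/Δ` is in lowest terms.
The four `j`-invariants `-25/2`, `-5²·241³/2³`, `-5·29³/2⁵`, `5·211³/2¹⁵` all have a numerator
divisible by `5` but not by `5³`, which is impossible.
-/

set_option autoImplicit false

namespace Fermat.Agent.X015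

theorem int_prime_five : Prime (5 : ℤ) := by
  rw [Int.prime_iff_natAbs_prime]; norm_num

/-- If `n c³ = m D` with `5 ∤ n` and `m = 5 m'` or `m = 25 m'` with `5 ∤ m'`, then `5 ∣ c` and
`5 ∣ D`. -/
theorem five_dvd_of_cube_eq (c D n m m' : ℤ) (hn : ¬ (5 : ℤ) ∣ n)
    (hm : m = 5 * m' ∨ m = 25 * m') (hm' : ¬ (5 : ℤ) ∣ m') (h : n * c ^ 3 = m * D) :
    (5 : ℤ) ∣ c ∧ (5 : ℤ) ∣ D := by
  have h5 := int_prime_five
  have hc : (5 : ℤ) ∣ c := by
    have h1 : (5 : ℤ) ∣ n * c ^ 3 := by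
      rw [h]
      rcases hm with rfl | rfl
      · exact ⟨m' * D, by ring⟩
      · exact ⟨5 * m' * D, by ring⟩
    rcases h5.dvd_or_dvd h1 with h2 | h2
    · exact absurd h2 hn
    · exact h5.dvd_of_dvd_pow h2
  refine ⟨hc, ?_⟩
  obtain ⟨c', rfl⟩ := hc
  rcases hm with rfl | rfl
  · have h1 : (5 : ℤ) ∣ m' * D := ⟨5 * n * c' ^ 3, by linarith⟩
    rcases h5.dvd_or_dvd h1 with h2 | h2
    · exact absurd h2 hm'
    · exact h2
  · have h1 : (5 : ℤ) ∣ m' * D := ⟨n * c' ^ 3, by linarith⟩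
    rcases h5.dvd_or_dvd h1 with h2 | h2
    · exact absurd h2 hm'
    · exact h2

/-- P3/T9. -/
theorem not_semistable_of_j (W : WeierstrassCurve ℤ) (hΔ : W.Δ ≠ 0) (hW : W.IsSemistableModel)
    (j : ℚ) (hj : j = -25 / 2 ∨ j = -349938025 / 8 ∨ j = -121945 / 32 ∨ j = 46969655 / 32768) :
    (W.c₄ : ℚ) ^ 3 ≠ j * (W.Δ : ℚ) := by
  intro h
  have key : (5 : ℤ) ∣ W.c₄ ∧ (5 : ℤ) ∣ W.Δ := by
    rcases hj with rfl | rfl | rfl | rfl
    · have h1 : (2 : ℤ) * W.c₄ ^ 3 = (-25) * W.Δ := by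
        have : (2 : ℚ) * (W.c₄ : ℚ) ^ 3 = (-25) * (W.Δ : ℚ) := by rw [h]; ring
        exact_mod_cast this
      exact five_dvd_of_cube_eq _ _ 2 (-25) (-1) (by norm_num) (Or.inr (by norm_num))
        (by norm_num) h1
    · have h1 : (8 : ℤ) * W.c₄ ^ 3 = (-349938025) * W.Δ := by
        have : (8 : ℚ) * (W.c₄ : ℚ) ^ 3 = (-349938025) * (W.Δ : ℚ) := by rw [h]; ring
        exact_mod_cast this
      exact five_dvd_of_cube_eq _ _ 8 (-349938025) (-13997521) (by norm_num)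
        (Or.inr (by norm_num)) (by norm_num) h1
    · have h1 : (32 : ℤ) * W.c₄ ^ 3 = (-121945) * W.Δ := by
        have : (32 : ℚ) * (W.c₄ : ℚ) ^ 3 = (-121945) * (W.Δ : ℚ) := by rw [h]; ring
        exact_mod_cast this
      exact five_dvd_of_cube_eq _ _ 32 (-121945) (-24389) (by norm_num) (Or.inl (by norm_num))
        (by norm_num) h1
    · have h1 : (32768 : ℤ) * W.c₄ ^ 3 = 46969655 * W.Δ := by
        have : (32768 : ℚ) * (W.c₄ : ℚ) ^ 3 = 46969655 * (W.Δ : ℚ) := by rw [h]; ring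
        exact_mod_cast this
      exact five_dvd_of_cube_eq _ _ 32768 46969655 9393931 (by norm_num) (Or.inl (by norm_num))
        (by norm_num) h1
  exact hW 5 (by norm_num) (by exact_mod_cast key.2) (by exact_mod_cast key.1)

end Fermat.Agent.X015
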